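import Fermat.Agent.S24.Defs

set_option autoImplicit false

open AlgebraicCurve ModularCurve UpperHalfPlane KaehlerDifferential Filter Topology
open scoped MatrixGroups IntermediateField Manifold

namespace Fermat.Agent.S24

noncomputable section

variable (N : ℕ) [NeZero N]

namespace Gen

theorem coeffEmb_algebraMap (r : ℚ) :
    coeffEmb Kb (algebraMap ℚ (LaurentSeries ℚ) r)
      = algebraMap Kb (LaurentSeries Kb) (algebraMap ℚ Kb r) := by
  rw [algebraMap_laurentSeries_eq_single, algebraMap_laurentSeries_eq_single, coeffEmb,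
    coeffMap_single]

theorem coeffEmb_mem_adjoin {x : LaurentSeries ℚ}
    (hx : x ∈ IntermediateField.adjoin ℚ (divisorExpansions N)) :
    coeffEmb Kb x ∈ IntermediateField.adjoin Kb (Set.range fun d : Dv N => jSer d.1) := by
  induction hx using IntermediateField.adjoin_induction with
  | mem x hx =>
    obtain ⟨d, hd0, hd, rfl⟩ := hx
    exact IntermediateField.subset_adjoin _ _ ⟨⟨d, hd⟩, rfl⟩
  | algebraMap r =>
    rw [coeffEmb_algebraMap]
    exact IntermediateField.algebraMap_mem _ _
  | add x y hx hy ihx ihy =>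
    rw [map_add]
    exact add_mem ihx ihy
  | inv x hx ih =>
    rw [map_inv₀]
    exact inv_mem ih
  | mul x y hx hy ihx ihy =>
    rw [map_mul]
    exact mul_mem ihx ihy

theorem FN_eq_adjoin :
    modularFunctionFieldBar N
      = IntermediateField.adjoin Kb (Set.range fun d : Dv N => jSer d.1) := by
  apply le_antisymm
  · unfold modularFunctionFieldBar laurentBaseChange
    rw [IntermediateField.adjoin_le_iff]
    rintro _ ⟨x, hx, rfl⟩
    exact coeffEmb_mem_adjoin N hx
  · rw [IntermediateField.adjoin_le_iff]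
    rintro _ ⟨d, rfl⟩
    exact jSer_mem N d.1 d.2

theorem coeff_algebraMap_mul (c : Kb) (x : LaurentSeries Kb) (m : ℤ) :
    (algebraMap Kb (LaurentSeries Kb) c * x).coeff m = c * x.coeff m := by
  rw [algebraMap_laurentSeries_eq_single, HahnSeries.coeff_single_zero_mul]

theorem exists_lift {K A F M : Type*} [Field K] [CommRing A] [Algebra K A] [Field F]
    [Algebra K F] [Field M] [Algebra K M] (φ : A →ₐ[K] F)
    (hφ : ∀ f : F, ∃ p q, φ q ≠ 0 ∧ f = φ p / φ q) (ψ : A →ₐ[K] M)
    (hψ : ∀ p, ψ p = 0 ↔ φ p = 0) : ∃ σ : F →ₐ[K] M, ∀ p, σ (φ p) = ψ p := by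
  choose P Q hQ hPQ using hφ
  have key : ∀ p q, φ q ≠ 0 → ψ (P (φ p / φ q)) / ψ (Q (φ p / φ q)) = ψ p / ψ q := by
    intro p q hq
    set f := φ p / φ q with hf
    have h1 : φ (P f) / φ (Q f) = φ p / φ q := (hPQ f).symm
    have hq' : ψ q ≠ 0 := fun h => hq ((hψ q).mp h)
    have hQ' : ψ (Q f) ≠ 0 := fun h => hQ f ((hψ _).mp h)
    rw [div_eq_div_iff (hQ f) hq] at h1
    rw [div_eq_div_iff hQ' hq']
    have h2 : φ (P f * q - p * Q f) = 0 := by
      rw [map_sub, map_mul, map_mul, h1, sub_self]
    have h3 := (hψ _).mpr h2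
    rw [map_sub, map_mul, map_mul, sub_eq_zero] at h3
    exact h3
  have hne : ∀ q, φ q ≠ 0 → ψ q ≠ 0 := fun q hq h => hq ((hψ q).mp h)
  let σ : F →ₐ[K] M :=
    { toFun := fun f => ψ (P f) / ψ (Q f)
      map_one' := by
        have := key 1 1 (by simp)
        simpa using this
      map_mul' := by
        intro f g
        have e : f * g = φ (P f * P g) / φ (Q f * Q g) := by
          rw [map_mul, map_mul, ← div_mul_div_comm, ← hPQ f, ← hPQ g]
        have hq : φ (Q f * Q g) ≠ 0 := by
          rw [map_mul]; exact mul_ne_zero (hQ f) (hQ g)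
        conv_lhs => rw [e]
        rw [key _ _ hq, map_mul, map_mul, div_mul_div_comm]
      map_zero' := by
        have := key 0 1 (by simp)
        simpa using this
      map_add' := by
        intro f g
        have e : f + g = φ (P f * Q g + Q f * P g) / φ (Q f * Q g) := by
          rw [map_add, map_mul, map_mul, map_mul, ← div_add_div _ _ (hQ f) (hQ g), ← hPQ f,
            ← hPQ g]
        have hq : φ (Q f * Q g) ≠ 0 := by
          rw [map_mul]; exact mul_ne_zero (hQ f) (hQ g)
        conv_lhs => rw [e]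
        rw [key _ _ hq, map_add, map_mul, map_mul, map_mul,
          div_add_div _ _ (hne _ (hQ f)) (hne _ (hQ g))]
      commutes' := by
        intro c
        have := key (algebraMap K A c) 1 (by simp)
        rw [AlgHom.commutes, AlgHom.commutes] at this
        simpa using this }
  refine ⟨σ, fun p => ?_⟩
  have := key p 1 (by simp)
  show ψ (P (φ p)) / ψ (Q (φ p)) = ψ p
  simpa using this

theorem coe_phiF (p : MvPolynomial (Dv N) Kb) :
    ((phiF N p : FN N) : LaurentSeries Kb) = MvPolynomial.aeval (fun d : Dv N => jSer d.1) p := by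
  have := MvPolynomial.comp_aeval_apply (f := fun d : Dv N => jF N d.1 d.2)
    (modularFunctionFieldBar N).val p
  exact this

end Gen

theorem exists_phiF_div (f : FN N) :
    ∃ p q : MvPolynomial (Dv N) Kb, phiF N q ≠ 0 ∧ f = phiF N p / phiF N q := by
  have hf : (f : LaurentSeries Kb) ∈
      IntermediateField.adjoin Kb (Set.range fun d : Dv N => jSer d.1) := by
    rw [← Gen.FN_eq_adjoin]
    exact f.2
  rw [IntermediateField.mem_adjoin_range_iff] at hf
  obtain ⟨r, s, hrs⟩ := hf
  by_cases hs : phiF N s = 0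
  · refine ⟨0, 1, by simp, ?_⟩
    have hs' : MvPolynomial.aeval (fun d : Dv N => jSer d.1) s = 0 := by
      rw [← Gen.coe_phiF, hs]; rfl
    rw [hs', div_zero] at hrs
    have : f = 0 := Subtype.ext hrs
    simp [this]
  · refine ⟨r, s, hs, Subtype.ext ?_⟩
    rw [hrs, ← Gen.coe_phiF, ← Gen.coe_phiF]
    rfl

theorem algHom_ext_FN {M : Type*} [Field M] [Algebra Kb M] (σ τ : FN N →ₐ[Kb] M)
    (h : ∀ d : Dv N, σ (jF N d.1 d.2) = τ (jF N d.1 d.2)) : σ = τ := by
  have hc : σ.comp (phiF N) = τ.comp (phiF N) := by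
    apply MvPolynomial.algHom_ext
    intro d
    simp [phiF, h d]
  ext f
  obtain ⟨p, q, -, rfl⟩ := exists_phiF_div N f
  rw [map_div₀, map_div₀]
  have h1 := AlgHom.congr_fun hc p
  have h2 := AlgHom.congr_fun hc q
  simp only [AlgHom.comp_apply] at h1 h2
  rw [h1, h2]

theorem exists_lift_FN {M : Type*} [Field M] [Algebra Kb M]
    (ψ : MvPolynomial (Dv N) Kb →ₐ[Kb] M) (hψ : ∀ p, ψ p = 0 ↔ phiF N p = 0) :
    ∃ σ : FN N →ₐ[Kb] M, ∀ p, σ (phiF N p) = ψ p :=
  Gen.exists_lift (phiF N) (exists_phiF_div N) ψ hψ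

theorem transcendental_jN : Transcendental Kb (jN N) := by
  rw [transcendental_iff]
  intro p hp
  by_contra hp0
  have h1 : Polynomial.aeval (coeffEmb Kb jq) p = 0 := by
    have h := congrArg (modularFunctionFieldBar N).val hp
    rw [← Polynomial.aeval_algHom_apply, map_zero] at h
    have e : (modularFunctionFieldBar N).val (jN N) = coeffEmb Kb jq := by
      show coeffEmb Kb (qExpand ℚ 1 jq) = coeffEmb Kb jq
      rw [qExpand_one_apply]
    rwa [e] at h
  rw [Polynomial.aeval_eq_sum_range] at h1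
  have h2 := congrArg (fun x : LaurentSeries Kb => x.coeff (-(p.natDegree : ℤ))) h1
  simp only [HahnSeries.coeff_zero] at h2
  rw [HahnSeries.coeff_sum] at h2
  rw [Finset.sum_eq_single p.natDegree] at h2
  · rw [Algebra.smul_def, Gen.coeff_algebraMap_mul, ← map_pow, coeffEmb_coeff, coeff_jq_pow_self] at h2
    simp at h2
    exact hp0 h2
  · intro k hk hkn
    rw [Algebra.smul_def, Gen.coeff_algebraMap_mul, ← map_pow, coeffEmb_coeff, coeff_jq_pow_of_lt]
    · simp
    · have : k < p.natDegree := by
        have := Finset.mem_range.mp hk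
        omega
      omega
  · intro h
    exact absurd (Finset.mem_range.mpr (Nat.lt_succ_self _)) h

end

end Fermat.Agent.S24
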