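import Fermat.Agent.S24.JBasic

set_option autoImplicit false

open AlgebraicCurve ModularCurve UpperHalfPlane KaehlerDifferential Filter Topology
open scoped MatrixGroups IntermediateField Manifold

namespace Fermat.Agent.S24

noncomputable section

namespace Hermite

theorem exists_SL (M : Matrix (Fin 2) (Fin 2) ℤ) (hM : M.det = 1) :
    ∃ g : SL(2, ℤ), (g : Matrix (Fin 2) (Fin 2) ℤ) = M := ⟨⟨M, hM⟩, rfl⟩

theorem SL_det_eq (γ : SL(2, ℤ)) : γ 0 0 * γ 1 1 - γ 0 1 * γ 1 0 = 1 := by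
  have := γ.det_coe
  rwa [Matrix.det_fin_two] at this

theorem hermite_int (N a b c d : ℤ) (hN : 0 < N) (hdet : a * d - b * c = 1) :
    ∃ x y C' A' g e : ℤ, 0 < g ∧ 0 < e ∧ g * e = N ∧ c = g * C' ∧ x * A' + y * C' = 1 ∧
      x * (N * a) + y * c = g ∧ -C' * (N * a) + A' * c = 0 ∧ -C' * (N * b) + A' * d = e := by
  obtain ⟨g, hgdef⟩ : ∃ g : ℤ, g = (Int.gcd (N * a) c : ℤ) := ⟨_, rfl⟩
  have hbez : g = (N * a) * Int.gcdA (N * a) c + c * Int.gcdB (N * a) c := by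
    rw [hgdef]; exact Int.gcd_eq_gcd_ab _ _
  obtain ⟨A', hA'⟩ : g ∣ N * a := by rw [hgdef]; exact Int.gcd_dvd_left _ _
  obtain ⟨C', hC'⟩ : g ∣ c := by rw [hgdef]; exact Int.gcd_dvd_right _ _
  have hg0 : g ≠ 0 := by
    intro h0
    rw [h0, zero_mul] at hA' hC'
    have h00 : a = 0 := by
      rcases mul_eq_zero.mp hA' with h | h
      · exact absurd h hN.ne'
      · exact h
    rw [h00, hC'] at hdet
    simp at hdet
  have hgpos : 0 < g := lt_of_le_of_ne (by rw [hgdef]; positivity) hg0.symm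
  obtain ⟨x, hx⟩ : ∃ x, x = Int.gcdA (N * a) c := ⟨_, rfl⟩
  obtain ⟨y, hy⟩ : ∃ y, y = Int.gcdB (N * a) c := ⟨_, rfl⟩
  rw [← hx, ← hy] at hbez
  have hδdet : x * A' + y * C' = 1 := by
    apply mul_left_cancel₀ hg0
    rw [mul_one]
    conv_rhs => rw [hbez, hA']
    rw [hC']
    ring
  have hge : g * (-C' * (N * b) + A' * d) = N := by
    have : g * (-C' * (N * b) + A' * d) = -(g * C') * (N * b) + (g * A') * d := by ring
    rw [this, ← hA', ← hC']
    linear_combination N * hdet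
  have hepos : 0 < -C' * (N * b) + A' * d := by
    by_contra hcon
    have : g * (-C' * (N * b) + A' * d) ≤ 0 :=
      mul_nonpos_of_nonneg_of_nonpos hgpos.le (not_lt.mp hcon)
    omega
  refine ⟨x, y, C', A', g, _, hgpos, hepos, hge, hC', hδdet, ?_, ?_, rfl⟩
  · rw [hbez]; ring
  · rw [hA']
    conv_lhs => rw [hC']
    ring

theorem coe_SL_smul (g : SL(2, ℤ)) (τ : ℍ) :
    ((g • τ : ℍ) : ℂ) = ((g 0 0 : ℂ) * τ + (g 0 1 : ℂ)) / ((g 1 0 : ℂ) * τ + (g 1 1 : ℂ)) := by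
  rw [coe_specialLinearGroup_apply]
  simp

theorem SL_denom_ne_zero (g : SL(2, ℤ)) (τ : ℍ) : ((g 1 0 : ℂ) * τ + (g 1 1 : ℂ)) ≠ 0 := by
  have := UpperHalfPlane.denom_ne_zero (Matrix.SpecialLinearGroup.mapGL ℝ g) τ
  simpa [UpperHalfPlane.denom] using this

theorem coe_mulH (d : ℕ) [NeZero d] (τ : ℍ) : ((mulH d τ : ℍ) : ℂ) = (d : ℂ) * τ := rfl

theorem coe_affH (A D : ℕ) [NeZero A] [NeZero D] (B : ℤ) (τ : ℍ) :
    ((affH A D B τ : ℍ) : ℂ) = ((A : ℂ) * τ + B) / D := rfl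

theorem im_mulH (d : ℕ) [NeZero d] (τ : ℍ) : (mulH d τ).im = d * τ.im := by
  change ((d : ℂ) * (τ : ℂ)).im = _
  simp

theorem im_affH (A D : ℕ) [NeZero A] [NeZero D] (B : ℤ) (τ : ℍ) :
    (affH A D B τ).im = A * τ.im / D := by
  change (((A : ℂ) * (τ : ℂ) + B) / D).im = _
  rw [Complex.div_natCast_im]; simp

end Hermite

open Hermite

theorem exists_hermite (d : ℕ) [NeZero d] (g : SL(2, ℤ)) :
    ∃ (δ : SL(2, ℤ)) (A D : ℕ) (_ : NeZero A) (_ : NeZero D) (B : ℤ),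
      A * D = d ∧ g 1 0 = δ 1 0 * A ∧ ∀ τ : ℍ, mulH d (g • τ) = δ • affH A D B τ := by
  have hd : d ≠ 0 := NeZero.ne d
  have hdpos : (0 : ℤ) < d := by exact_mod_cast Nat.pos_of_ne_zero hd
  obtain ⟨x, y, C', A', a, e, hapos, hepos, hae, hC', hδdet, e00, e10, e11⟩ :=
    hermite_int d (g 0 0) (g 0 1) (g 1 0) (g 1 1) hdpos (SL_det_eq g)
  obtain ⟨δ, hδ⟩ := exists_SL !![A', -y; C', x] (by
    rw [Matrix.det_fin_two_of]; linarith)
  obtain ⟨A, rfl⟩ : ∃ A : ℕ, a = (A : ℤ) := ⟨a.toNat, (Int.toNat_of_nonneg hapos.le).symm⟩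
  obtain ⟨D, rfl⟩ : ∃ D : ℕ, e = (D : ℤ) := ⟨e.toNat, (Int.toNat_of_nonneg hepos.le).symm⟩
  have hA : NeZero A := ⟨by rintro rfl; simp at hapos⟩
  have hD : NeZero D := ⟨by rintro rfl; simp at hepos⟩
  have h00 : δ 0 0 = A' := by simp [hδ]
  have h01 : δ 0 1 = -y := by simp [hδ]
  have h10 : δ 1 0 = C' := by simp [hδ]
  have h11 : δ 1 1 = x := by simp [hδ]
  refine ⟨δ, A, D, hA, hD, x * (d * g 0 1) + y * g 1 1, by exact_mod_cast hae, ?_, ?_⟩
  · rw [h10, hC']; ring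
  · intro τ
    apply UpperHalfPlane.ext
    have hden1 := SL_denom_ne_zero g τ
    have hden2 := SL_denom_ne_zero δ (affH A D (x * (d * g 0 1) + y * g 1 1) τ)
    rw [coe_mulH, coe_SL_smul, coe_SL_smul]
    rw [coe_affH] at hden2 ⊢
    rw [h00, h01, h10, h11] at *
    have hDC : (D : ℂ) ≠ 0 := by exact_mod_cast hD.ne
    -- the four matrix identities
    have m00 : A' * A = d * g 0 0 := by
      linear_combination (-A') * e00 + y * e10 + (d * g 0 0) * hδdet
    have m10 : C' * A = g 1 0 := by rw [hC']; ring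
    have m01 : A' * (x * (d * g 0 1) + y * g 1 1) - y * D = d * g 0 1 := by
      linear_combination (d * g 0 1) * hδdet + y * e11
    have m11 : C' * (x * (d * g 0 1) + y * g 1 1) + x * D = g 1 1 := by
      linear_combination (g 1 1) * hδdet - x * e11
    have m00' := congrArg (Int.cast : ℤ → ℂ) m00
    have m10' := congrArg (Int.cast : ℤ → ℂ) m10
    have m01' := congrArg (Int.cast : ℤ → ℂ) m01
    have m11' := congrArg (Int.cast : ℤ → ℂ) m11
    push_cast at m00' m10' m01' m11' hden2 ⊢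
    have key1 : (A' : ℂ) * (((A : ℂ) * τ + ((x : ℂ) * ((d : ℂ) * (g 0 1 : ℂ)) + y * (g 1 1 : ℂ))) / D)
        + -(y : ℂ) = ((d : ℂ) * ((g 0 0 : ℂ) * τ + (g 0 1 : ℂ))) / D := by
      field_simp
      linear_combination (τ : ℂ) * m00' + m01'
    have key2 : (C' : ℂ) * (((A : ℂ) * τ + ((x : ℂ) * ((d : ℂ) * (g 0 1 : ℂ)) + y * (g 1 1 : ℂ))) / D)
        + (x : ℂ) = ((g 1 0 : ℂ) * τ + (g 1 1 : ℂ)) / D := by
      field_simp
      linear_combination (τ : ℂ) * m10' + m11'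
    rw [key1, key2, div_div_div_cancel_right₀ hDC, mul_div_assoc]

theorem jd_smul_of_mem_Gamma0 (N d : ℕ) [NeZero d] (hd : d ∣ N) (g : SL(2, ℤ))
    (hg : g ∈ CongruenceSubgroup.Gamma0 N) (τ : ℍ) : jd d (g • τ) = jd d τ := by
  rw [CongruenceSubgroup.Gamma0_mem] at hg
  have hN : (N : ℤ) ∣ g 1 0 := (ZMod.intCast_zmod_eq_zero_iff_dvd _ _).mp hg
  obtain ⟨c', hc'⟩ : (d : ℤ) ∣ g 1 0 := (Int.natCast_dvd_natCast.mpr hd).trans hN
  have hdet := SL_det_eq g
  obtain ⟨g', hg'⟩ := exists_SL !![g 0 0, d * g 0 1; c', g 1 1] (by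
    rw [Matrix.det_fin_two_of]
    rw [hc'] at hdet
    linarith)
  have h00 : g' 0 0 = g 0 0 := by simp [hg']
  have h01 : g' 0 1 = d * g 0 1 := by simp [hg']
  have h10 : g' 1 0 = c' := by simp [hg']
  have h11 : g' 1 1 = g 1 1 := by simp [hg']
  have key : mulH d (g • τ) = g' • mulH d τ := by
    apply UpperHalfPlane.ext
    rw [coe_mulH, coe_SL_smul, coe_SL_smul, coe_mulH, h00, h01, h10, h11, hc']
    push_cast
    rw [← mul_div_assoc]
    congr 1 <;> ring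
  unfold jd
  rw [key, jfun_smul]

namespace Hermite

theorem tendsto_im : Tendsto im atImInfty atTop := tendsto_comap

theorem tendsto_mulH (d : ℕ) [NeZero d] : Tendsto (mulH d) atImInfty atImInfty := by
  have hd : (0 : ℝ) < d := by exact_mod_cast Nat.pos_of_ne_zero (NeZero.ne d)
  rw [atImInfty, tendsto_comap_iff]
  have : (im ∘ mulH d) = fun τ : ℍ => (d : ℝ) * τ.im := by
    funext τ; exact im_mulH d τ
  rw [this]
  exact tendsto_im.const_mul_atTop hd

theorem tendsto_affH (A D : ℕ) [NeZero A] [NeZero D] (B : ℤ) :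
    Tendsto (affH A D B) atImInfty atImInfty := by
  have hA : (0 : ℝ) < A := by exact_mod_cast Nat.pos_of_ne_zero (NeZero.ne A)
  have hD : (0 : ℝ) < D := by exact_mod_cast Nat.pos_of_ne_zero (NeZero.ne D)
  rw [atImInfty, tendsto_comap_iff]
  have : (im ∘ affH A D B) = fun τ : ℍ => ((A : ℝ) / D) * τ.im := by
    funext τ
    rw [Function.comp_apply, im_affH]
    ring
  rw [this]
  exact tendsto_im.const_mul_atTop (div_pos hA hD)

theorem norm_qh_one (τ : ℍ) : ‖qh 1 τ‖ = Real.exp (-2 * Real.pi * τ.im) := by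
  unfold qh
  rw [Function.Periodic.norm_qParam]
  simp

theorem qh_ne_zero (h : ℕ) (τ : ℍ) : qh h τ ≠ 0 := by
  unfold qh Function.Periodic.qParam
  exact Complex.exp_ne_zero _

/-- If `exp (c * Im τ) → 1` as `Im τ → ∞` then `c = 0`. -/
theorem eq_zero_of_tendsto_exp (c : ℝ)
    (h : Tendsto (fun τ : ℍ => Real.exp (c * τ.im)) atImInfty (𝓝 1)) : c = 0 := by
  by_contra hc
  have h1 : Tendsto (fun τ : ℍ => Real.log (Real.exp (c * τ.im))) atImInfty (𝓝 (Real.log 1)) :=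
    (Real.continuousAt_log one_ne_zero).tendsto.comp h
  simp only [Real.log_exp, Real.log_one] at h1
  have h2 : Tendsto (fun τ : ℍ => c⁻¹ * (c * τ.im)) atImInfty (𝓝 (c⁻¹ * 0)) := h1.const_mul _
  have h3 : (fun τ : ℍ => c⁻¹ * (c * τ.im)) = im := by
    funext τ; field_simp
  rw [h3] at h2
  exact not_tendsto_nhds_of_tendsto_atTop tendsto_im _ h2

end Hermite

theorem mem_Gamma0_of_jd_smul (N : ℕ) [NeZero N] (g : SL(2, ℤ))
    (h : ∀ τ : ℍ, jd N (g • τ) = jd N τ) : g ∈ CongruenceSubgroup.Gamma0 N := by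
  obtain ⟨δ, A, D, hA, hD, B, hAD, hg10, hτ⟩ := exists_hermite N g
  have hj : ∀ τ : ℍ, jfun (affH A D B τ) = jfun (mulH N τ) := by
    intro τ
    have := h τ
    unfold jd at this
    rwa [hτ, jfun_smul] at this
  have t1 := jfun_mul_qh_tendsto.comp (tendsto_affH A D B)
  have t2 := jfun_mul_qh_tendsto.comp (tendsto_mulH N)
  have t3 := (t2.div t1 one_ne_zero).norm
  have hAr : (0 : ℝ) < A := by exact_mod_cast Nat.pos_of_ne_zero hA.ne
  have hDr : (0 : ℝ) < D := by exact_mod_cast Nat.pos_of_ne_zero hD.ne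
  have hev : ∀ᶠ τ in atImInfty, ((fun τ : ℍ => jfun τ * qh 1 τ) ∘ affH A D B) τ ≠ 0 :=
    t1.eventually_ne one_ne_zero
  have t4 : Tendsto (fun τ : ℍ => Real.exp ((2 * Real.pi * ((A : ℝ) / D - N)) * τ.im))
      atImInfty (𝓝 1) := by
    have : ‖(1 : ℂ) / 1‖ = 1 := by simp
    rw [this] at t3
    refine t3.congr' ?_
    filter_upwards [hev] with τ hne
    simp only [Function.comp_apply, Pi.div_apply] at hne ⊢
    have hj0 : jfun (affH A D B τ) ≠ 0 := left_ne_zero_of_mul hne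
    rw [← hj τ, mul_div_mul_left _ _ hj0, norm_div, norm_qh_one, norm_qh_one, ← Real.exp_sub,
      im_mulH, im_affH]
    congr 1
    ring
  have hc := eq_zero_of_tendsto_exp _ t4
  have hAD' : (A : ℝ) / D - N = 0 := by
    rcases mul_eq_zero.mp hc with h0 | h0
    · exact absurd h0 (by positivity)
    · exact h0
  have hAN : (A : ℝ) = N * D := by
    field_simp at hAD'
    linarith
  have hAN' : A = N * D := by exact_mod_cast hAN
  have hD1 : D = 1 := by
    have h1 : A * 1 = A * (D * D) := by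
      calc A * 1 = A := mul_one _
        _ = N * D := hAN'
        _ = A * D * D := by rw [hAD]
        _ = A * (D * D) := by ring
    have h2 : 1 = D * D := Nat.eq_of_mul_eq_mul_left (Nat.pos_of_ne_zero hA.ne) h1
    exact (Nat.eq_one_of_mul_eq_one_right h2.symm)
  rw [hD1, mul_one] at hAD
  rw [CongruenceSubgroup.Gamma0_mem, hg10, hAD]
  simp

end

end Fermat.Agent.S24
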