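import Fermat.Agent.S24.Laurent
import Fermat.Agent.S24.Hermite

set_option autoImplicit false

open AlgebraicCurve ModularCurve UpperHalfPlane KaehlerDifferential Filter Topology
open scoped MatrixGroups IntermediateField Manifold

namespace Fermat.Agent.S24

noncomputable section

namespace Cusp

theorem coe_affH (A D : ℕ) [NeZero A] [NeZero D] (B : ℤ) (τ : ℍ) :
    ((affH A D B τ : ℍ) : ℂ) = ((A : ℂ) * τ + B) / D := rfl

theorem im_affH (A D : ℕ) [NeZero A] [NeZero D] (B : ℤ) (τ : ℍ) :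
    (affH A D B τ).im = A * τ.im / D := by
  have : (((A : ℂ) * (τ : ℂ) + B) / D).im = A * τ.im / D := by
    rw [Complex.div_natCast_im]; simp
  exact this

theorem tendsto_affH (A D : ℕ) [NeZero A] [NeZero D] (B : ℤ) :
    Tendsto (affH A D B) atImInfty atImInfty := by
  have hA : (0 : ℝ) < A := by exact_mod_cast Nat.pos_of_ne_zero (NeZero.ne A)
  have hD : (0 : ℝ) < D := by exact_mod_cast Nat.pos_of_ne_zero (NeZero.ne D)
  rw [atImInfty, tendsto_comap_iff]
  have h1 : Tendsto (fun τ : ℍ => τ.im) (comap im atTop) atTop := tendsto_comap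
  have h2 := (h1.const_mul_atTop hA).atTop_div_const hD
  refine h2.congr fun τ => ?_
  rw [Function.comp, im_affH]

/-- the translation by an integer leaves `jfun` invariant -/
theorem jfun_eq_of_coe_eq_add (σ σ' : ℍ) (n : ℤ) (h : (σ' : ℂ) = σ + n) : jfun σ' = jfun σ := by
  have : σ' = ModularGroup.T ^ n • σ := by
    rw [UpperHalfPlane.ext_iff, ModularGroup.coe_T_zpow_smul_eq, h]
  rw [this, jfun_smul]

theorem norm_qh (h : ℕ) (τ : ℍ) : ‖qh h τ‖ = Real.exp (-2 * Real.pi * τ.im / h) := by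
  rw [qh, Function.Periodic.norm_qParam]
  rfl

theorem qh_ne_zero (h : ℕ) (τ : ℍ) : qh h τ ≠ 0 := by
  rw [qh, Function.Periodic.qParam]
  exact Complex.exp_ne_zero _

theorem qh_pow (N : ℕ) [NeZero N] (τ : ℍ) : qh N τ ^ N = qh 1 τ := by
  have hN : (N : ℂ) ≠ 0 := by exact_mod_cast NeZero.ne N
  rw [qh, qh, Function.Periodic.qParam, Function.Periodic.qParam, ← Complex.exp_nat_mul]
  congr 1
  push_cast
  field_simp

/-- `j ∘ (τ ↦ (Aτ+B)/D)` is meromorphic at `i∞`. -/
theorem bounded_affH (N A D : ℕ) [NeZero N] [NeZero A] [NeZero D] (B : ℤ) (m : ℕ)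
    (hm : N * A ≤ m) :
    IsBoundedAtImInfty (fun τ => jfun (affH A D B τ) * qh N τ ^ m) := by
  have hN : (0 : ℝ) < N := by exact_mod_cast Nat.pos_of_ne_zero (NeZero.ne N)
  have hA : (0 : ℝ) < A := by exact_mod_cast Nat.pos_of_ne_zero (NeZero.ne A)
  have hD : (1 : ℝ) ≤ D := by exact_mod_cast Nat.pos_of_ne_zero (NeZero.ne D)
  have h1 : Tendsto (fun τ : ℍ => jfun (affH A D B τ) * qh 1 (affH A D B τ)) atImInfty (𝓝 1) :=
    jfun_mul_qh_tendsto.comp (tendsto_affH A D B)
  have h2 : ∀ᶠ τ in atImInfty, ‖jfun (affH A D B τ) * qh 1 (affH A D B τ)‖ < 2 := by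
    have := h1.norm
    rw [norm_one] at this
    exact this.eventually (gt_mem_nhds (by norm_num))
  rw [Filter.Eventually, atImInfty_mem] at h2
  obtain ⟨Y, hY⟩ := h2
  rw [isBoundedAtImInfty_iff]
  refine ⟨2, Y, fun τ hτ => ?_⟩
  have h3 : ‖jfun (affH A D B τ) * qh 1 (affH A D B τ)‖ < 2 := hY τ hτ
  have h4 : jfun (affH A D B τ) * qh N τ ^ m =
      (jfun (affH A D B τ) * qh 1 (affH A D B τ)) * (qh N τ ^ m / qh 1 (affH A D B τ)) := by
    field_simp [qh_ne_zero 1 (affH A D B τ)]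
  rw [h4, norm_mul]
  have h5 : ‖qh N τ ^ m / qh 1 (affH A D B τ)‖ ≤ 1 := by
    rw [norm_div, norm_pow, norm_qh, norm_qh, ← Real.exp_nat_mul, ← Real.exp_sub, im_affH]
    rw [Real.exp_le_one_iff]
    have hy := τ.im_pos
    have hm' : (N : ℝ) * A ≤ m := by exact_mod_cast hm
    have e1 : (m : ℝ) * (-2 * Real.pi * τ.im / N) - -2 * Real.pi * (A * τ.im / D) / ((1 : ℕ) : ℝ)
        = -(2 * Real.pi * τ.im) * (m / N - A / D) := by
      push_cast
      field_simp
      ring
    rw [e1]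
    have e2 : (A : ℝ) / D ≤ m / N := by
      calc (A : ℝ) / D ≤ A := div_le_self hA.le hD
        _ ≤ m / N := by
          rw [le_div_iff₀ hN]
          linarith
    have e3 : 0 < 2 * Real.pi * τ.im := by positivity
    nlinarith
  calc ‖jfun (affH A D B τ) * qh 1 (affH A D B τ)‖ * ‖qh N τ ^ m / qh 1 (affH A D B τ)‖
      ≤ 2 * 1 := mul_le_mul h3.le h5 (norm_nonneg _) (by norm_num)
    _ = 2 := by norm_num

end Cusp

open Cusp

variable (N : ℕ) [NeZero N]

theorem compInv_jd_mem_HolCusp (g : SL(2, ℤ)) (d : Dv N) :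
    compInv g (jd d.1) ∈ HolCusp N := by
  obtain ⟨δ, A, D, hA, hD, B, hAD, -, hτ⟩ := exists_hermite d.1 g⁻¹
  have hf : ∀ τ : ℍ, compInv g (jd d.1) τ = jfun (affH A D B τ) := by
    intro τ
    rw [compInv, jd, hτ, jfun_smul]
  refine ⟨?_, ?_, N * A, ?_⟩
  · have h1 : MDiff (fun τ : ℍ => g⁻¹ • τ) := by
      have := mdifferentiable_smul (g := ((g⁻¹ : SL(2, ℤ)) : GL (Fin 2) ℝ)) (by simp)
      exact this
    exact (jd_mdiff d.1).comp h1
  · intro w
    by_cases hw : 0 < w.im
    · have hw' : 0 < (w + ((N : ℝ) : ℂ)).im := by simpa using hw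
      simp only [Function.comp_apply, ofComplex_apply_of_im_pos hw', ofComplex_apply_of_im_pos hw]
      rw [hf, hf]
      obtain ⟨e, he⟩ : D ∣ N := (Dvd.intro_left A hAD).trans d.2
      refine jfun_eq_of_coe_eq_add _ _ ((A * e : ℕ) : ℤ) ?_
      have hD0 : (D : ℂ) ≠ 0 := by exact_mod_cast NeZero.ne D
      rw [coe_affH, coe_affH]
      rw [he]
      push_cast
      field_simp
      ring
    · have hw' : (w + ((N : ℝ) : ℂ)).im ≤ 0 := by simpa using not_lt.mp hw
      simp only [Function.comp_apply, ofComplex_apply_of_im_nonpos hw',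
        ofComplex_apply_of_im_nonpos (not_lt.mp hw)]
  · have h := bounded_affH N A D B (N * A) le_rfl
    have e : (fun τ => compInv g (jd d.1) τ * qh N τ ^ (N * A)) =
        fun τ => jfun (affH A D B τ) * qh N τ ^ (N * A) := by
      funext τ
      rw [hf]
    rw [e]
    exact h

theorem jfun_mem_HolCusp : jfun ∈ HolCusp N := by
  have h := compInv_jd_mem_HolCusp N 1 ⟨1, one_dvd N⟩
  have : compInv 1 (jd 1) = jfun := by
    funext τ
    rw [compInv, jd, inv_one, one_smul]
    congr 1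
    rw [UpperHalfPlane.ext_iff]
    simp [mulH]
  rwa [this] at h

theorem laurent_jfun_order : (laurent N ⟨jfun, jfun_mem_HolCusp N⟩).order = -(N : ℤ) := by
  refine laurent_order_eq N _ _ 1 one_ne_zero ?_
  refine jfun_mul_qh_tendsto.congr fun τ => ?_
  simp only [neg_neg, zpow_natCast]
  rw [qh_pow]

end

end Fermat.Agent.S24
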