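import Fermat.Agent.S24.JBasic

set_option autoImplicit false

open AlgebraicCurve ModularCurve UpperHalfPlane KaehlerDifferential Filter Topology
open scoped MatrixGroups IntermediateField Manifold

namespace Fermat.Agent.S24

noncomputable section

namespace JOrders

open Derivative ModularForm EisensteinSeries

local notation "Δ" => ModularForm.discriminant

/-- Cauchy estimate: the derivative of a holomorphic function bounded at `i∞` is bounded at
`i∞`. -/
theorem D_isBoundedAtImInfty {f : ℍ → ℂ} (hf : MDiff f)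
    (hb : IsBoundedAtImInfty f) : IsBoundedAtImInfty (normalizedDerivOfComplex f) := by
  rw [isBoundedAtImInfty_iff] at hb ⊢
  obtain ⟨M, A, hMA⟩ := hb
  rw [UpperHalfPlane.mdifferentiable_iff] at hf
  refine ⟨‖(2 * Real.pi * Complex.I)⁻¹‖ * M, max A 0 + 2, fun z hz => ?_⟩
  have him : ∀ w ∈ Metric.closedBall (z : ℂ) 1, max A 0 + 1 ≤ w.im := by
    intro w hw
    have h1 : |(w - z).im| ≤ 1 :=
      (Complex.abs_im_le_norm _).trans (by simpa [dist_eq_norm] using hw)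
    have h2 := (abs_le.mp h1).1
    simp only [Complex.sub_im, coe_im] at h2
    linarith
  have hpos : ∀ w ∈ Metric.closedBall (z : ℂ) 1, 0 < w.im := fun w hw => by
    have := him w hw
    have := le_max_right A 0
    linarith
  have hd : DiffContOnCl ℂ (f ∘ ofComplex) (Metric.ball (z : ℂ) 1) := by
    apply DifferentiableOn.diffContOnCl
    rw [closure_ball _ one_ne_zero]
    exact hf.mono fun w hw => hpos w hw
  have hC : ∀ w ∈ Metric.sphere (z : ℂ) 1, ‖(f ∘ ofComplex) w‖ ≤ M := by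
    intro w hw
    have hw' := Metric.sphere_subset_closedBall hw
    apply hMA
    rw [ofComplex_apply_of_im_pos (hpos w hw')]
    have := him w hw'
    have := le_max_left A 0
    show A ≤ w.im
    linarith
  have := Complex.norm_deriv_le_of_forall_mem_sphere_norm_le one_pos hd hC
  rw [div_one] at this
  unfold normalizedDerivOfComplex
  rw [norm_mul]
  exact mul_le_mul_of_nonneg_left this (norm_nonneg _)

theorem disc_mdiff : MDiff Δ := CuspForm.discriminant.holo'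

/-- `D Δ = E₂ Δ`. -/
theorem D_discriminant (z : ℍ) : normalizedDerivOfComplex Δ z = E2 z * Δ z := by
  have hev : (Δ ∘ ofComplex) =ᶠ[𝓝 (z : ℂ)] fun w => ModularForm.eta w ^ 24 := by
    filter_upwards [isOpen_upperHalfPlaneSet.mem_nhds z.im_pos] with w hw
    simp [ModularForm.discriminant, ofComplex_apply_of_im_pos hw]
  have hd : DifferentiableAt ℂ ModularForm.eta z :=
    differentiableAt_eta_of_mem_upperHalfPlaneSet z.2
  have hlog := logDeriv_eta_eq_E2 z
  rw [logDeriv_apply] at hlog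
  have hne : ModularForm.eta z ≠ 0 := eta_ne_zero z.2
  have h2 : deriv ModularForm.eta z = (Real.pi * Complex.I / 12) * E2 z * ModularForm.eta z := by
    rw [← hlog]; field_simp
  unfold normalizedDerivOfComplex
  rw [hev.deriv_eq, deriv_fun_pow hd, h2, ModularForm.discriminant]
  have hpi : (2 * Real.pi * Complex.I : ℂ) ≠ 0 := Complex.two_pi_I_ne_zero
  field_simp
  ring

theorem jfun_mul_disc (z : ℍ) : jfun z * Δ z = E₄ z ^ 3 := by
  unfold jfun
  exact div_mul_cancel₀ _ (discriminant_ne_zero z)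

theorem jfun_sub_mul_disc (z : ℍ) : (jfun z - 1728) * Δ z = E₆ z ^ 2 := by
  rw [sub_mul, jfun_mul_disc, discriminant_eq_E₄_cube_sub_E₆_sq z]
  ring

/-- `D j` has weight 2. -/
theorem D_jfun_slash (γ : SL(2, ℤ)) :
    (normalizedDerivOfComplex jfun) ∣[(2 : ℤ)] γ = normalizedDerivOfComplex jfun := by
  have h0 : jfun ∣[(0 : ℤ)] γ = jfun := by
    ext z
    rw [ModularForm.SL_slash_apply, jfun_smul]
    simp
  have := normalizedDerivOfComplex_SL_slash (k := 0) jfun_mdiff (γ := γ)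
  rw [h0] at this
  ext z
  have h2 := congrFun this z
  simp only [Pi.sub_apply, Int.cast_zero, zero_mul, sub_zero, zero_add] at h2
  exact h2.symm

def gfun (z : ℍ) : ℂ := normalizedDerivOfComplex jfun z * Δ z

theorem gfun_slash (γ : SL(2, ℤ)) : gfun ∣[(14 : ℤ)] γ = gfun := by
  have h1 : gfun = normalizedDerivOfComplex jfun * Δ := rfl
  have h2 : Δ ∣[(12 : ℤ)] γ = Δ := by
    exact SlashInvariantForm.slash_action_eqn CuspForm.discriminant (γ : GL (Fin 2) ℝ) ⟨γ, rfl⟩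
  rw [h1, show (14 : ℤ) = 2 + 12 by norm_num, ModularForm.mul_slash_SL2, D_jfun_slash, h2]

theorem E4_mdiff : MDiff (E₄ : ℍ → ℂ) := E₄.holo'

theorem gfun_eq (z : ℍ) :
    gfun z = normalizedDerivOfComplex ((E₄ : ℍ → ℂ) ^ 3) z - E₄ z ^ 3 * E2 z := by
  have h1 : (E₄ : ℍ → ℂ) ^ 3 = jfun * Δ := by
    ext z
    simp [jfun_mul_disc]
  rw [h1, normalizedDerivOfComplex_mul _ _ jfun_mdiff disc_mdiff]
  simp only [Pi.add_apply, Pi.mul_apply, D_discriminant, gfun]
  rw [← jfun_mul_disc]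
  ring

theorem gfun_bdd : IsBoundedAtImInfty gfun := by
  have hE4 : IsBoundedAtImInfty (E₄ : ℍ → ℂ) := ModularFormClass.bdd_at_infty E₄
  have h3 : IsBoundedAtImInfty ((E₄ : ℍ → ℂ) ^ 3) := by
    rw [pow_succ, pow_two]
    exact (hE4.mul hE4).mul hE4
  have h4 := D_isBoundedAtImInfty (E4_mdiff.pow 3) h3
  have h5 : gfun = normalizedDerivOfComplex ((E₄ : ℍ → ℂ) ^ 3) +
      (-1 : ℂ) • ((E₄ : ℍ → ℂ) ^ 3 * E2) := by
    ext z
    rw [gfun_eq]
    simp
    ring
  rw [h5]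
  exact h4.add ((h3.mul isBoundedAtImInfty_E2).const_smul_left _)

def gForm : ModularForm 𝒮ℒ 14 where
  toFun := gfun
  slash_action_eq' := fun _ ⟨γ, hγ⟩ => hγ ▸ gfun_slash γ
  holo' := (normalizedDerivOfComplex_mdifferentiable jfun_mdiff).mul disc_mdiff
  bdd_at_cusps' {c} hc := by
    rw [Subgroup.IsArithmetic.isCusp_iff_isCusp_SL2Z] at hc
    rw [OnePoint.isBoundedAt_iff_forall_SL2Z hc]
    intro γ _
    rw [gfun_slash γ]
    exact gfun_bdd

theorem gForm_apply (z : ℍ) : gForm z = normalizedDerivOfComplex jfun z * Δ z := rfl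

def eForm : ModularForm 𝒮ℒ 14 := ModularForm.mcast (by decide) ((E₄.mul E₄).mul E₆)

theorem eForm_apply (z : ℍ) : eForm z = E₄ z ^ 2 * E₆ z := by
  rw [pow_two]
  rfl

theorem finrank14 : Module.finrank ℂ (ModularForm 𝒮ℒ 14) = 1 := by
  apply Module.rank_eq_one_iff_finrank_eq_one.mp
  have := ModularForm.dimension_level_one 14 (by decide)
  simpa [Nat.ModEq] using this

theorem E4_ne_zero_of {z : ℍ} (h : jfun z ≠ 0) : E₄ z ≠ 0 := by
  intro h0
  apply h
  simp [jfun, h0]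

theorem E6_ne_zero_of {z : ℍ} (h : jfun z ≠ 1728) : E₆ z ≠ 0 := by
  intro h0
  have := jfun_sub_mul_disc z
  rw [h0] at this
  have h2 : jfun z - 1728 = 0 := by
    rcases mul_eq_zero.mp (this.trans (by simp)) with h | h
    · exact h
    · exact absurd h (discriminant_ne_zero z)
  exact h (sub_eq_zero.mp h2)

theorem eForm_ne_zero : eForm ≠ 0 := by
  obtain ⟨z, hz⟩ := jfun_surjective 1
  intro h
  have h1 : eForm z = 0 := by rw [h]; rfl
  rw [eForm_apply] at h1
  have h4 : E₄ z ≠ 0 := E4_ne_zero_of (by rw [hz]; norm_num)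
  have h6 : E₆ z ≠ 0 := E6_ne_zero_of (by rw [hz]; norm_num)
  exact mul_ne_zero (pow_ne_zero 2 h4) h6 h1

theorem gForm_ne_zero : gForm ≠ 0 := by
  intro h
  have h1 : ∀ z : ℍ, normalizedDerivOfComplex jfun z = 0 := by
    intro z
    have h2 : gForm z = 0 := by rw [h]; rfl
    rw [gForm_apply] at h2
    rcases mul_eq_zero.mp h2 with h3 | h3
    · exact h3
    · exact absurd h3 (discriminant_ne_zero z)
  have hd : DifferentiableOn ℂ (jfun ∘ ofComplex) upperHalfPlaneSet :=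
    UpperHalfPlane.mdifferentiable_iff.mp jfun_mdiff
  have hz : upperHalfPlaneSet.EqOn (deriv (jfun ∘ ofComplex)) 0 := by
    intro w hw
    have := h1 ⟨w, hw⟩
    unfold normalizedDerivOfComplex at this
    rcases mul_eq_zero.mp this with h3 | h3
    · exact absurd h3 (inv_ne_zero Complex.two_pi_I_ne_zero)
    · exact h3
  have := isOpen_upperHalfPlaneSet.is_const_of_deriv_eq_zero
    (Convex.isPreconnected (convex_halfSpace_im_gt 0)) hd hz
    (x := (UpperHalfPlane.I : ℍ)) (y := (rhoH : ℍ)) UpperHalfPlane.I.2 rhoH.2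
  simp only [Function.comp_apply, ofComplex_apply, jfun_I, jfun_rho] at this
  norm_num at this

theorem exists_const : ∃ c : ℂ, c ≠ 0 ∧
    ∀ z : ℍ, normalizedDerivOfComplex jfun z * Δ z = c * (E₄ z ^ 2 * E₆ z) := by
  obtain ⟨c, hc⟩ := (finrank_eq_one_iff_of_nonzero' eForm eForm_ne_zero).mp finrank14 gForm
  refine ⟨c, ?_, fun z => ?_⟩
  · rintro rfl
    exact gForm_ne_zero (by rw [← hc, zero_smul])
  · rw [← gForm_apply, ← hc, ← eForm_apply]
    rfl

theorem analyticAt_comp {f : ℍ → ℂ} (hf : MDiff f) (τ : ℍ) :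
    AnalyticAt ℂ (f ∘ ofComplex) (τ : ℂ) :=
  (UpperHalfPlane.mdifferentiable_iff.mp hf).analyticAt (isOpen_upperHalfPlaneSet.mem_nhds τ.2)

theorem order_ne_top {f : ℍ → ℂ} (hf : MDiff f) {τ₁ : ℍ} (h : f τ₁ ≠ 0) (τ₀ : ℍ) :
    analyticOrderAt (f ∘ ofComplex) (τ₀ : ℂ) ≠ ⊤ := by
  have hA : AnalyticOnNhd ℂ (f ∘ ofComplex) upperHalfPlaneSet :=
    (UpperHalfPlane.mdifferentiable_iff.mp hf).analyticOnNhd isOpen_upperHalfPlaneSet
  apply hA.analyticOrderAt_ne_top_of_isPreconnected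
    (Convex.isPreconnected (convex_halfSpace_im_gt 0)) τ₁.2 τ₀.2
  have : analyticOrderAt (f ∘ ofComplex) (τ₁ : ℂ) = 0 :=
    (analyticAt_comp hf τ₁).analyticOrderAt_eq_zero.mpr (by simpa using h)
  rw [this]
  simp

theorem order_eq_zero {f : ℍ → ℂ} (hf : MDiff f) {τ₀ : ℍ} (h : f τ₀ ≠ 0) :
    analyticOrderAt (f ∘ ofComplex) (τ₀ : ℂ) = 0 :=
  (analyticAt_comp hf τ₀).analyticOrderAt_eq_zero.mpr (by simpa using h)

theorem E6_mdiff : MDiff (E₆ : ℍ → ℂ) := E₆.holo'

theorem order_disc (τ₀ : ℍ) : analyticOrderAt (Δ ∘ ofComplex) (τ₀ : ℂ) = 0 :=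
  order_eq_zero disc_mdiff (discriminant_ne_zero τ₀)

theorem order_deriv (τ₀ : ℍ) :
    analyticOrderAt (deriv (jfun ∘ ofComplex)) (τ₀ : ℂ) =
      2 • analyticOrderAt ((E₄ : ℍ → ℂ) ∘ ofComplex) (τ₀ : ℂ) +
        analyticOrderAt ((E₆ : ℍ → ℂ) ∘ ofComplex) (τ₀ : ℂ) := by
  obtain ⟨c, hc, h⟩ := exists_const
  have hJ := analyticAt_comp jfun_mdiff τ₀
  have h4 := analyticAt_comp E4_mdiff τ₀
  have h6 := analyticAt_comp E6_mdiff τ₀
  have hΔ := analyticAt_comp disc_mdiff τ₀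
  have hev : deriv (jfun ∘ ofComplex) * (Δ ∘ ofComplex) =ᶠ[𝓝 (τ₀ : ℂ)]
      (fun _ => 2 * Real.pi * Complex.I * c) *
        (((E₄ : ℍ → ℂ) ∘ ofComplex) ^ 2 * ((E₆ : ℍ → ℂ) ∘ ofComplex)) := by
    filter_upwards [isOpen_upperHalfPlaneSet.mem_nhds τ₀.im_pos] with w hw
    have := h ⟨w, hw⟩
    unfold normalizedDerivOfComplex at this
    simp only [Pi.mul_apply, Pi.pow_apply, Function.comp_apply, ofComplex_apply_of_im_pos hw]
    have hpi : (2 * Real.pi * Complex.I : ℂ) ≠ 0 := Complex.two_pi_I_ne_zero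
    rw [mul_assoc (2 * Real.pi * Complex.I : ℂ), ← this]
    field_simp
  have h1 := analyticOrderAt_congr hev
  have hconst : analyticOrderAt (fun _ : ℂ => 2 * Real.pi * Complex.I * c) (τ₀ : ℂ) = 0 :=
    analyticAt_const.analyticOrderAt_eq_zero.mpr (mul_ne_zero Complex.two_pi_I_ne_zero hc)
  rw [analyticOrderAt_mul hJ.deriv hΔ, order_disc, add_zero,
    analyticOrderAt_mul analyticAt_const ((h4.pow 2).mul h6), hconst, zero_add,
    analyticOrderAt_mul (h4.pow 2) h6, analyticOrderAt_pow h4] at h1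
  exact h1

theorem order_jfun (τ₀ : ℍ) :
    analyticOrderAt (jfun ∘ ofComplex) (τ₀ : ℂ) =
      3 • analyticOrderAt ((E₄ : ℍ → ℂ) ∘ ofComplex) (τ₀ : ℂ) := by
  have hJ := analyticAt_comp jfun_mdiff τ₀
  have h4 := analyticAt_comp E4_mdiff τ₀
  have hΔ := analyticAt_comp disc_mdiff τ₀
  have heq : (jfun ∘ ofComplex) * (Δ ∘ ofComplex) = ((E₄ : ℍ → ℂ) ∘ ofComplex) ^ 3 := by
    ext w
    simp [jfun_mul_disc]
  have h1 := congrArg (fun f => analyticOrderAt f (τ₀ : ℂ)) heq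
  beta_reduce at h1
  rw [analyticOrderAt_mul hJ hΔ, order_disc, add_zero, analyticOrderAt_pow h4] at h1
  exact h1

theorem sub_mdiff (c : ℂ) : MDiff (fun τ => jfun τ - c) :=
  jfun_mdiff.sub mdifferentiable_const

theorem order_jfun_sub (τ₀ : ℍ) :
    analyticOrderAt ((fun τ => jfun τ - 1728) ∘ ofComplex) (τ₀ : ℂ) =
      2 • analyticOrderAt ((E₆ : ℍ → ℂ) ∘ ofComplex) (τ₀ : ℂ) := by
  have hJ := analyticAt_comp (sub_mdiff 1728) τ₀
  have h6 := analyticAt_comp E6_mdiff τ₀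
  have hΔ := analyticAt_comp disc_mdiff τ₀
  have heq : ((fun τ => jfun τ - 1728) ∘ ofComplex) * (Δ ∘ ofComplex) =
      ((E₆ : ℍ → ℂ) ∘ ofComplex) ^ 2 := by
    ext w
    simp [jfun_sub_mul_disc]
  have h1 := congrArg (fun f => analyticOrderAt f (τ₀ : ℂ)) heq
  beta_reduce at h1
  rw [analyticOrderAt_mul hJ hΔ, order_disc, add_zero, analyticOrderAt_pow h6] at h1
  exact h1

theorem order_deriv_add_one (τ₀ : ℍ) :
    analyticOrderAt (deriv (jfun ∘ ofComplex)) (τ₀ : ℂ) + 1 =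
      analyticOrderAt ((fun τ => jfun τ - jfun τ₀) ∘ ofComplex) (τ₀ : ℂ) := by
  have := (analyticAt_comp jfun_mdiff τ₀).analyticOrderAt_deriv_add_one
  rw [this]
  congr 1
  ext w
  simp

end JOrders

open JOrders ModularForm in
theorem order_jfun_sub_generic (τ₀ : ℍ) (h0 : jfun τ₀ ≠ 0) (h1 : jfun τ₀ ≠ 1728) :
    analyticOrderAt ((fun τ => jfun τ - jfun τ₀) ∘ ofComplex) (τ₀ : ℂ) = 1 := by
  rw [← order_deriv_add_one, order_deriv, order_eq_zero E4_mdiff (E4_ne_zero_of h0),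
    order_eq_zero E6_mdiff (E6_ne_zero_of h1)]
  simp

open JOrders ModularForm in
theorem order_jfun_sub_I :
    analyticOrderAt ((fun τ => jfun τ - 1728) ∘ ofComplex) ((UpperHalfPlane.I : ℍ) : ℂ) = 2 := by
  have h1 := order_deriv_add_one UpperHalfPlane.I
  rw [jfun_I, order_jfun_sub, order_deriv,
    order_eq_zero E4_mdiff (E4_ne_zero_of (by rw [jfun_I]; norm_num))] at h1
  obtain ⟨z, hz⟩ := jfun_surjective 1
  have h6 : E₆ z ≠ 0 := E6_ne_zero_of (by rw [hz]; norm_num)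
  have hne := order_ne_top E6_mdiff h6 UpperHalfPlane.I
  rw [order_jfun_sub]
  generalize analyticOrderAt ((E₆ : ℍ → ℂ) ∘ ofComplex) ((UpperHalfPlane.I : ℍ) : ℂ) = k at *
  lift k to ℕ using hne
  simp only [nsmul_eq_mul, Nat.cast_ofNat] at h1 ⊢
  norm_cast at h1 ⊢
  omega

open JOrders ModularForm in
theorem order_jfun_rho :
    analyticOrderAt (jfun ∘ ofComplex) ((rhoH : ℍ) : ℂ) = 3 := by
  have h1 := order_deriv_add_one rhoH
  have h2 : (fun τ => jfun τ - jfun rhoH) = jfun := by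
    ext τ
    rw [jfun_rho, sub_zero]
  rw [h2, order_jfun, order_deriv,
    order_eq_zero E6_mdiff (E6_ne_zero_of (by rw [jfun_rho]; norm_num))] at h1
  obtain ⟨z, hz⟩ := jfun_surjective 1
  have h4 : E₄ z ≠ 0 := E4_ne_zero_of (by rw [hz]; norm_num)
  have hne := order_ne_top E4_mdiff h4 rhoH
  rw [order_jfun]
  generalize analyticOrderAt ((E₄ : ℍ → ℂ) ∘ ofComplex) ((rhoH : ℍ) : ℂ) = k at *
  lift k to ℕ using hne
  simp only [nsmul_eq_mul, Nat.cast_ofNat] at h1 ⊢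
  norm_cast at h1 ⊢
  omega

end
end Fermat.Agent.S24
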