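import Fermat.Agent.S24.QDict
import Fermat.Agent.S24.Gen
import Fermat.Agent.S24.Sturm.Kernel

set_option autoImplicit false

open AlgebraicCurve ModularCurve UpperHalfPlane KaehlerDifferential Filter Topology
open scoped MatrixGroups IntermediateField Manifold

namespace Fermat.Agent.S24

noncomputable section

variable (N : ℕ) [NeZero N]

theorem finiteDimensional_FN : FiniteDimensional Kb⟮jN N⟯ (FN N) :=
  Sturm.finiteDimensional_of_dependence (Sturm.dependence N)

theorem finrank_FN_le :
    Module.finrank Kb⟮jN N⟯ (FN N) ≤ (CongruenceSubgroup.Gamma0 N).index :=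
  Sturm.finrank_le_of_dependence (Sturm.dependence N)

end

end Fermat.Agent.S24
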