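import Fermat.Agent.S24.Defs

set_option autoImplicit false

open AlgebraicCurve ModularCurve UpperHalfPlane KaehlerDifferential Filter Topology
open scoped MatrixGroups IntermediateField Manifold

namespace Fermat.Agent.S24

noncomputable section

namespace Taylor

/-- Taylor series at `0` of a function `ℂ → ℂ`. -/
def ser (F : ℂ → ℂ) : PowerSeries ℂ :=
  PowerSeries.mk fun n => (n.factorial : ℂ)⁻¹ * iteratedDeriv n F 0

lemma ser_coeff (F : ℂ → ℂ) (n : ℕ) :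
    (ser F).coeff n = (n.factorial : ℂ)⁻¹ * iteratedDeriv n F 0 := by
  simp [ser]

lemma ser_mul {F G : ℂ → ℂ} (hF : AnalyticAt ℂ F 0) (hG : AnalyticAt ℂ G 0) :
    ser (F * G) = ser F * ser G := by
  ext
  simp only [ser_coeff, iteratedDeriv_mul hF.contDiffAt hG.contDiffAt, Finset.mul_sum,
    PowerSeries.coeff_mul, Finset.Nat.sum_antidiagonal_eq_sum_range_succ_mk, Nat.succ_eq_add_one]
  refine Finset.sum_congr rfl fun i hi ↦ ?_
  rw [Nat.cast_choose _ (by grind)]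
  field_simp [Nat.factorial_ne_zero]

lemma ser_add {F G : ℂ → ℂ} (hF : AnalyticAt ℂ F 0) (hG : AnalyticAt ℂ G 0) :
    ser (F + G) = ser F + ser G := by
  ext m
  simp [ser_coeff, iteratedDeriv_add hF.contDiffAt hG.contDiffAt, mul_add]

lemma ser_const (c : ℂ) : ser (fun _ => c) = PowerSeries.C c := by
  ext m
  have h2 : iteratedDeriv m (fun _ : ℂ => c) 0 = if m = 0 then c else 0 := by
    exact iteratedDeriv_const
  rw [ser_coeff, h2, PowerSeries.coeff_C]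
  split_ifs with h
  · subst h; simp
  · simp

lemma ser_congr {F G : ℂ → ℂ} (h : F =ᶠ[𝓝 0] G) : ser F = ser G := by
  ext m
  rw [ser_coeff, ser_coeff, h.iteratedDeriv_eq]

/-- local version of `iteratedDeriv_comp_const_mul`. -/
lemma iteratedDeriv_comp_const_mul_zero (c : ℂ) : ∀ (n : ℕ) {F : ℂ → ℂ}, AnalyticAt ℂ F 0 →
    iteratedDeriv n (fun x => F (c * x)) 0 = c ^ n * iteratedDeriv n F 0
  | 0, F, _ => by simp
  | n + 1, F, hF => by
    have hev : ∀ᶠ y in 𝓝 (0 : ℂ), DifferentiableAt ℂ F y :=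
      hF.eventually_analyticAt.mono fun y hy => hy.differentiableAt
    have hc : Tendsto (fun x : ℂ => c * x) (𝓝 0) (𝓝 0) := by
      have : ContinuousAt (fun x : ℂ => c * x) 0 := by fun_prop
      simpa [ContinuousAt] using this
    have h1 : deriv (fun x => F (c * x)) =ᶠ[𝓝 0] fun x => c * deriv F (c * x) := by
      filter_upwards [hc.eventually hev] with x hx
      have h2 : HasDerivAt (fun x : ℂ => c * x) c x := by
        simpa using (hasDerivAt_id x).const_mul c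
      have := (hx.hasDerivAt.comp x h2).deriv
      rw [mul_comm] at this
      exact this
    rw [iteratedDeriv_succ', h1.iteratedDeriv_eq, iteratedDeriv_succ']
    have hF' : AnalyticAt ℂ (deriv F) 0 := hF.deriv
    have hcomp : AnalyticAt ℂ (fun x => deriv F (c * x)) 0 := by
      have h0 : AnalyticAt ℂ (deriv F) (c * 0) := by simpa using hF'
      exact AnalyticAt.fun_comp h0 (by fun_prop)
    rw [iteratedDeriv_const_mul c hcomp.contDiffAt, iteratedDeriv_comp_const_mul_zero c n hF']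
    ring

lemma ser_comp_const_mul (c : ℂ) {F : ℂ → ℂ} (hF : AnalyticAt ℂ F 0) (n : ℕ) :
    (ser fun x => F (c * x)).coeff n = c ^ n * (ser F).coeff n := by
  rw [ser_coeff, ser_coeff, iteratedDeriv_comp_const_mul_zero c n hF]
  ring

lemma analyticOrderAt_eq_top_of_ser_eq_zero {F : ℂ → ℂ} (hF : AnalyticAt ℂ F 0)
    (h : ser F = 0) : analyticOrderAt F 0 = ⊤ := by
  rw [ENat.eq_top_iff_forall_ge]
  intro n
  rw [natCast_le_analyticOrderAt_iff_iteratedDeriv_eq_zero hF]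
  intro i _
  have := congrArg (PowerSeries.coeff i) h
  rw [ser_coeff] at this
  simpa [Nat.factorial_ne_zero] using this

/-- The disc coordinate: `t ↦ (τ₀ - conj τ₀ * t) / (1 - t)`. -/
def cay (τ₀ : ℍ) (t : ℂ) : ℂ := ((τ₀ : ℂ) - (starRingEnd ℂ) (τ₀ : ℂ) * t) / (1 - t)

lemma cay_zero (τ₀ : ℍ) : cay τ₀ 0 = τ₀ := by simp [cay]

lemma analyticAt_cay (τ₀ : ℍ) : AnalyticAt ℂ (cay τ₀) 0 := by
  unfold cay
  apply AnalyticAt.div (by fun_prop) (by fun_prop)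
  simp

lemma hasDerivAt_cay (τ₀ : ℍ) :
    HasDerivAt (cay τ₀) ((τ₀ : ℂ) - (starRingEnd ℂ) (τ₀ : ℂ)) 0 := by
  have h1 : HasDerivAt (fun t : ℂ => (τ₀ : ℂ) - (starRingEnd ℂ) (τ₀ : ℂ) * t)
      (-(starRingEnd ℂ) (τ₀ : ℂ)) 0 := by
    simpa using ((hasDerivAt_id (0 : ℂ)).const_mul ((starRingEnd ℂ) (τ₀ : ℂ))).const_sub (τ₀ : ℂ)
  have h2 : HasDerivAt (fun t : ℂ => 1 - t) (-1) 0 := by
    simpa using (hasDerivAt_id (0 : ℂ)).const_sub 1
  have h3 := h1.div h2 (by simp)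
  simp only [mul_zero, sub_zero, mul_one, mul_neg, sub_neg_eq_add, one_pow, div_one] at h3
  have : -(starRingEnd ℂ) (τ₀ : ℂ) + (τ₀ : ℂ) = (τ₀ : ℂ) - (starRingEnd ℂ) (τ₀ : ℂ) := by ring
  rw [this] at h3
  exact h3

lemma deriv_cay_ne_zero (τ₀ : ℍ) : deriv (cay τ₀) 0 ≠ 0 := by
  rw [(hasDerivAt_cay τ₀).deriv]
  intro h
  have := congrArg Complex.im h
  simp only [Complex.sub_im, Complex.conj_im, sub_neg_eq_add, Complex.zero_im] at this
  have hpos := τ₀.im_pos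
  have : τ₀.im + τ₀.im = 0 := this
  linarith

/-- Pull back of `f` to the disc coordinate. -/
def pull (τ₀ : ℍ) (f : ℍ → ℂ) : ℂ → ℂ := (f ∘ ofComplex) ∘ cay τ₀

lemma analyticAt_comp_ofComplex {f : ℍ → ℂ} (hf : MDiff f) (τ : ℍ) :
    AnalyticAt ℂ (f ∘ ofComplex) (τ : ℂ) := by
  have hd : DifferentiableOn ℂ (f ∘ ofComplex) {z : ℂ | 0 < z.im} :=
    UpperHalfPlane.mdifferentiable_iff.mp hf
  exact hd.analyticAt (isOpen_upperHalfPlaneSet.mem_nhds τ.im_pos)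

lemma analyticAt_pull (τ₀ : ℍ) {f : ℍ → ℂ} (hf : MDiff f) : AnalyticAt ℂ (pull τ₀ f) 0 := by
  have h0 : AnalyticAt ℂ (f ∘ ofComplex) (cay τ₀ 0) := by
    rw [cay_zero]; exact analyticAt_comp_ofComplex hf τ₀
  exact h0.comp (analyticAt_cay τ₀)

lemma analyticOrderAt_pull (τ₀ : ℍ) (f : ℍ → ℂ) :
    analyticOrderAt (pull τ₀ f) 0 = analyticOrderAt (f ∘ ofComplex) (τ₀ : ℂ) := by
  have := analyticOrderAt_comp_of_deriv_ne_zero (f := f ∘ ofComplex) (analyticAt_cay τ₀)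
    (deriv_cay_ne_zero τ₀)
  rwa [cay_zero] at this

end Taylor

open Taylor

/-- Taylor expansion at `τ₀` in the coordinate `t = (τ - τ₀)/(τ - conj τ₀)`. -/
def taylorAt (τ₀ : ℍ) : Hol →ₐ[ℂ] LaurentSeries ℂ where
  toFun f := HahnSeries.ofPowerSeries ℤ ℂ (ser (pull τ₀ (f : ℍ → ℂ)))
  map_one' := by
    have : pull τ₀ ((1 : Hol) : ℍ → ℂ) = fun _ => (1 : ℂ) := by
      funext t; simp [pull]
    rw [this, ser_const]
    simp
  map_mul' f g := by
    have : pull τ₀ ((f * g : Hol) : ℍ → ℂ) = pull τ₀ f * pull τ₀ g := by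
      funext t; simp [pull]
    rw [this, ser_mul (analyticAt_pull τ₀ f.2) (analyticAt_pull τ₀ g.2), map_mul]
  map_zero' := by
    have : pull τ₀ ((0 : Hol) : ℍ → ℂ) = fun _ => (0 : ℂ) := by
      funext t; simp [pull]
    rw [this, ser_const]
    simp
  map_add' f g := by
    have : pull τ₀ ((f + g : Hol) : ℍ → ℂ) = pull τ₀ f + pull τ₀ g := by
      funext t; simp [pull]
    rw [this, ser_add (analyticAt_pull τ₀ f.2) (analyticAt_pull τ₀ g.2), map_add]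
  commutes' c := by
    have : pull τ₀ ((algebraMap ℂ Hol c : Hol) : ℍ → ℂ) = fun _ => c := by
      funext t; simp [pull]
    rw [this, ser_const]
    simp [HahnSeries.algebraMap_apply']

variable (τ₀ : ℍ)

theorem taylorAt_apply (f : Hol) :
    taylorAt τ₀ f = HahnSeries.ofPowerSeries ℤ ℂ (ser (pull τ₀ (f : ℍ → ℂ))) := rfl

theorem taylorAt_injective : Function.Injective (taylorAt τ₀) := by
  rw [injective_iff_map_eq_zero]
  intro f hf
  rw [taylorAt_apply] at hf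
  have h1 : ser (pull τ₀ (f : ℍ → ℂ)) = 0 := by
    apply HahnSeries.ofPowerSeries_injective (Γ := ℤ)
    rw [hf, map_zero]
  have h2 := analyticOrderAt_eq_top_of_ser_eq_zero (analyticAt_pull τ₀ f.2) h1
  rw [analyticOrderAt_pull, analyticOrderAt_eq_top] at h2
  have hd : DifferentiableOn ℂ ((f : ℍ → ℂ) ∘ ofComplex) {z : ℂ | 0 < z.im} :=
    UpperHalfPlane.mdifferentiable_iff.mp f.2
  have han : AnalyticOnNhd ℂ ((f : ℍ → ℂ) ∘ ofComplex) {z : ℂ | 0 < z.im} :=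
    hd.analyticOnNhd isOpen_upperHalfPlaneSet
  have hconn : IsPreconnected {z : ℂ | 0 < z.im} := (convex_halfSpace_im_gt 0).isPreconnected
  have h3 := han.eqOn_zero_of_preconnected_of_eventuallyEq_zero hconn τ₀.im_pos h2
  ext τ
  have := h3 τ.im_pos
  simpa using this

theorem taylorAt_order (f : Hol) (n : ℕ)
    (hf : analyticOrderAt ((f : ℍ → ℂ) ∘ ofComplex) (τ₀ : ℂ) = n) :
    (taylorAt τ₀ f).order = n := by
  rw [← analyticOrderAt_pull,
    analyticOrderAt_eq_nat_iff_iteratedDeriv_eq_zero (analyticAt_pull τ₀ f.2)] at hf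
  obtain ⟨h1, h2⟩ := hf
  have hc : ∀ k : ℤ, (taylorAt τ₀ f).coeff k =
      if k < 0 then 0 else (ser (pull τ₀ (f : ℍ → ℂ))).coeff k.natAbs := fun k => by
    rw [taylorAt_apply, PowerSeries.coeff_coe]
  have hn : (taylorAt τ₀ f).coeff (n : ℤ) ≠ 0 := by
    rw [hc, if_neg (by omega), Int.natAbs_natCast, ser_coeff]
    exact mul_ne_zero (inv_ne_zero (by exact_mod_cast Nat.factorial_ne_zero n)) h2
  have hne : taylorAt τ₀ f ≠ 0 := fun h => hn (by rw [h]; simp)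
  apply le_antisymm (HahnSeries.order_le_of_coeff_ne_zero hn)
  by_contra hlt
  push Not at hlt
  apply hne
  rw [← HahnSeries.coeff_order_eq_zero, hc]
  split_ifs with h0
  · rfl
  · rw [ser_coeff, h1 _ (by omega), mul_zero]

theorem compInv_mem_Hol (g : SL(2, ℤ)) (f : Hol) : compInv g (f : ℍ → ℂ) ∈ Hol := by
  show MDiff (fun τ => (f : ℍ → ℂ) (g⁻¹ • τ))
  have h1 : MDiff (fun τ : ℍ => g⁻¹ • τ) := by
    have := UpperHalfPlane.mdifferentiable_smul (g := ((g⁻¹ : SL(2, ℤ)) : GL (Fin 2) ℝ)) (by simp)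
    exact this
  exact f.2.comp h1

namespace Taylor

lemma coe_smul_eq (g : SL(2, ℤ)) (z : ℍ) : ((g • z : ℍ) : ℂ) =
    ((g 0 0 : ℤ) * (z : ℂ) + (g 0 1 : ℤ)) / ((g 1 0 : ℤ) * (z : ℂ) + (g 1 1 : ℤ)) := by
  rw [coe_specialLinearGroup_apply]
  simp

lemma tendsto_cay (τ₀ : ℍ) (c : ℂ) : Tendsto (fun t => cay τ₀ (c * t)) (𝓝 0) (𝓝 (τ₀ : ℂ)) := by
  have h1 : ContinuousAt (cay τ₀) 0 := (analyticAt_cay τ₀).continuousAt
  have h2 : Tendsto (fun t : ℂ => c * t) (𝓝 0) (𝓝 0) := by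
    have : ContinuousAt (fun x : ℂ => c * x) 0 := by fun_prop
    simpa [ContinuousAt] using this
  have := h1.tendsto.comp h2
  rwa [cay_zero] at this

lemma smul_cay (τ₀ : ℍ) (g : SL(2, ℤ)) (hg : g • τ₀ = τ₀) :
    ∀ᶠ t in 𝓝 (0 : ℂ), g⁻¹ • ofComplex (cay τ₀ t)
      = ofComplex (cay τ₀ (denom (g : GL (Fin 2) ℝ) τ₀ ^ 2 * t)) := by
  set lam : ℂ := denom (g : GL (Fin 2) ℝ) τ₀ with hlam
  have hlam' : lam = (g 1 0 : ℤ) * (τ₀ : ℂ) + (g 1 1 : ℤ) := ModularGroup.denom_apply g τ₀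
  have hlam0 : lam ≠ 0 := denom_ne_zero _ τ₀
  set sg : ℂ := (starRingEnd ℂ) (τ₀ : ℂ) with hsg
  set lamb : ℂ := (g 1 0 : ℤ) * sg + (g 1 1 : ℤ) with hlamb
  have hconj : (starRingEnd ℂ) lam = lamb := by
    rw [hlam', hlamb]; simp [hsg]
  -- `|λ|² = 1`
  have F3 : lam * lamb = 1 := by
    have h1 := ModularGroup.im_smul_eq_div_normSq g τ₀
    rw [hg] at h1
    have hpos := τ₀.im_pos
    have hn : Complex.normSq lam ≠ 0 := by simpa using hlam0
    have h2 : Complex.normSq lam = 1 := by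
      have : τ₀.im = τ₀.im / Complex.normSq lam := h1
      field_simp at this
      exact this
    rw [← hconj, Complex.mul_conj, h2]
    simp
  -- fixed point equation
  have F1 : (g 0 0 : ℤ) * (τ₀ : ℂ) + (g 0 1 : ℤ) = (τ₀ : ℂ) * lam := by
    have h1 := coe_smul_eq g τ₀
    rw [hg, ← hlam'] at h1
    field_simp at h1
    linear_combination -h1
  have F2 : (g 0 0 : ℤ) * sg + (g 0 1 : ℤ) = sg * lamb := by
    have := congrArg (starRingEnd ℂ) F1
    simpa [hconj, hsg] using this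
  have e1 : ∀ᶠ t in 𝓝 (0 : ℂ), 0 < (cay τ₀ (1 * t)).im :=
    (tendsto_cay τ₀ 1).eventually (isOpen_upperHalfPlaneSet.mem_nhds τ₀.im_pos)
  have e2 : ∀ᶠ t in 𝓝 (0 : ℂ), 0 < (cay τ₀ (lam ^ 2 * t)).im :=
    (tendsto_cay τ₀ (lam ^ 2)).eventually (isOpen_upperHalfPlaneSet.mem_nhds τ₀.im_pos)
  have e3 : ∀ᶠ t in 𝓝 (0 : ℂ), 1 - t ≠ 0 := by
    have : ContinuousAt (fun t : ℂ => 1 - t) 0 := by fun_prop
    exact this.eventually_ne (by simp)
  have e4 : ∀ᶠ t in 𝓝 (0 : ℂ), 1 - lam ^ 2 * t ≠ 0 := by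
    have : ContinuousAt (fun t : ℂ => 1 - lam ^ 2 * t) 0 := by fun_prop
    exact this.eventually_ne (by simp)
  filter_upwards [e1, e2, e3, e4] with t h1 h2 h3 h4
  rw [one_mul] at h1
  rw [inv_smul_eq_iff]
  apply UpperHalfPlane.ext
  rw [coe_smul_eq, ofComplex_apply_of_im_pos h1, ofComplex_apply_of_im_pos h2]
  show cay τ₀ t = ((g 0 0 : ℤ) * cay τ₀ (lam ^ 2 * t) + (g 0 1 : ℤ)) /
    ((g 1 0 : ℤ) * cay τ₀ (lam ^ 2 * t) + (g 1 1 : ℤ))
  have hnum : (g 0 0 : ℤ) * cay τ₀ (lam ^ 2 * t) + (g 0 1 : ℤ)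
      = lam * ((τ₀ : ℂ) - sg * t) / (1 - lam ^ 2 * t) := by
    unfold cay
    field_simp
    linear_combination F1 - lam ^ 2 * t * F2 - sg * lam * t * F3
  have hden : (g 1 0 : ℤ) * cay τ₀ (lam ^ 2 * t) + (g 1 1 : ℤ)
      = lam * (1 - t) / (1 - lam ^ 2 * t) := by
    unfold cay
    field_simp
    linear_combination (-1 : ℂ) * hlam' + lam ^ 2 * t * hlamb - lam * t * F3
  rw [hnum, hden]
  unfold cay
  rw [div_div_div_cancel_right₀ h4, mul_div_mul_left _ _ hlam0]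

end Taylor

theorem taylorAt_compInv (g : SL(2, ℤ)) (hg : g • τ₀ = τ₀) (f : Hol) (k : ℤ) :
    (taylorAt τ₀ ⟨_, compInv_mem_Hol g f⟩).coeff k
      = (denom (g : GL (Fin 2) ℝ) τ₀ ^ 2) ^ k * (taylorAt τ₀ f).coeff k := by
  rw [taylorAt_apply, taylorAt_apply, PowerSeries.coeff_coe, PowerSeries.coeff_coe]
  split_ifs with hk
  · simp
  · obtain ⟨n, rfl⟩ : ∃ n : ℕ, k = n := ⟨k.toNat, by omega⟩
    have hev : pull τ₀ (compInv g (f : ℍ → ℂ)) =ᶠ[𝓝 0]
        fun t => pull τ₀ (f : ℍ → ℂ) (denom (g : GL (Fin 2) ℝ) τ₀ ^ 2 * t) := by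
      filter_upwards [smul_cay τ₀ g hg] with t ht
      simp only [pull, compInv, Function.comp_apply]
      rw [ht]
    rw [Int.natAbs_natCast, zpow_natCast]
    show (ser (pull τ₀ (compInv g (f : ℍ → ℂ)))).coeff n = _
    rw [ser_congr hev, ser_comp_const_mul _ (analyticAt_pull τ₀ f.2)]

end

end Fermat.Agent.S24
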