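import Fermat.Agent.S24.Embeddings
import Fermat.Agent.S24.Taylor
import Fermat.Agent.S24.JOrders
import Fermat.Agent.S24.Cusp
import Fermat.Agent.S24.Sturm

set_option autoImplicit false

open AlgebraicCurve ModularCurve UpperHalfPlane KaehlerDifferential Filter Topology
open scoped MatrixGroups IntermediateField Manifold

namespace Fermat.Agent.S24

noncomputable section

namespace Packages

theorem algebraMap_Kb (r : Kb) :
    algebraMap Kb (LaurentSeries ℂ) r = HahnSeries.C (algebraMap Kb ℂ r) := by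
  rw [HahnSeries.algebraMap_apply', PowerSeries.algebraMap_apply]
  simp

theorem algebraMap_C (r : ℂ) : algebraMap ℂ (LaurentSeries ℂ) r = HahnSeries.C r := by
  rw [HahnSeries.algebraMap_apply', PowerSeries.algebraMap_apply]
  simp

/-- The underlying function of the substitution `t ↦ c t` on Laurent series. -/
def thetaFun (c : ℂˣ) (x : LaurentSeries ℂ) : LaurentSeries ℂ where
  coeff n := ((c : ℂ) ^ n) * x.coeff n
  isPWO_support' := x.isPWO_support.mono (by
    intro n hn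
    simp only [Function.mem_support, ne_eq] at hn
    simp only [HahnSeries.mem_support, ne_eq]
    intro h
    exact hn (by rw [h, mul_zero]))

@[simp] theorem thetaFun_coeff (c : ℂˣ) (x : LaurentSeries ℂ) (n : ℤ) :
    (thetaFun c x).coeff n = ((c : ℂ) ^ n) * x.coeff n := rfl

theorem thetaFun_support (c : ℂˣ) (x : LaurentSeries ℂ) :
    (thetaFun c x).support = x.support := by
  ext n
  simp only [HahnSeries.mem_support, thetaFun_coeff, ne_eq]
  refine not_congr ?_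
  rw [mul_eq_zero]
  constructor
  · rintro (h | h)
    · exact absurd h (zpow_ne_zero _ c.ne_zero)
    · exact h
  · exact Or.inr

/-- The substitution `t ↦ c t` on Laurent series, as a `ℚ̄`-algebra homomorphism. -/
def theta (c : ℂˣ) : LaurentSeries ℂ →ₐ[Kb] LaurentSeries ℂ where
  toFun := thetaFun c
  map_zero' := by ext n; simp
  map_one' := by
    ext n
    rw [thetaFun_coeff, HahnSeries.coeff_one]
    split_ifs with h
    · subst h; simp
    · simp
  map_add' x y := by ext n; simp [mul_add]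
  map_mul' x y := by
    ext n
    rw [thetaFun_coeff, HahnSeries.coeff_mul,
      HahnSeries.coeff_mul_left' (x := thetaFun c x) x.isPWO_support (thetaFun_support c x).le,
      Finset.mul_sum]
    rw [show (Finset.antidiagonal x.isPWO_support (thetaFun c y).isPWO_support n)
        = Finset.antidiagonal x.isPWO_support y.isPWO_support n from by
      ext ij
      simp only [Finset.mem_antidiagonal, thetaFun_support]]
    refine Finset.sum_congr rfl fun ij hij => ?_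
    have h : ij.1 + ij.2 = n := (Finset.mem_antidiagonal.mp hij).2.2
    rw [thetaFun_coeff, thetaFun_coeff, ← h, zpow_add₀ c.ne_zero]
    ring
  commutes' r := by
    ext n
    rw [thetaFun_coeff, algebraMap_Kb, HahnSeries.C_apply, HahnSeries.coeff_single]
    split_ifs with h
    · subst h; simp
    · simp

@[simp] theorem theta_coeff (c : ℂˣ) (x : LaurentSeries ℂ) (n : ℤ) :
    (theta c x).coeff n = ((c : ℂ) ^ n) * x.coeff n := rfl

theorem mulH_one (τ : ℍ) : mulH 1 τ = τ := by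
  apply UpperHalfPlane.ext
  simp [mulH]

theorem jd_one : jd 1 = jfun := by
  funext τ
  simp [jd, mulH_one]

theorem compInv_jfun (g : SL(2, ℤ)) : compInv g jfun = jfun := by
  funext τ
  exact jfun_smul g⁻¹ τ

theorem compInv_mul (g h : SL(2, ℤ)) (f : ℍ → ℂ) :
    compInv (g * h) f = compInv g (compInv h f) := by
  funext τ
  simp only [compInv, mul_inv_rev, mul_smul]

variable (N : ℕ) [NeZero N]

theorem core (dom : Subalgebra ℂ (ℍ → ℂ)) (L : dom →ₐ[ℂ] LaurentSeries ℂ)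
    (hL : Function.Injective L)
    (hmem : ∀ (g : SL(2, ℤ)) (d : Dv N), compInv g (jd d.1) ∈ dom) (hj : jfun ∈ dom) :
    ∃ σ : XN N → FN N →ₐ[Kb] LaurentSeries ℂ, Function.Injective σ ∧
      (∀ a, σ a (jN N) = L ⟨jfun, hj⟩) ∧
      (∀ (γ₀ : SL(2, ℤ)) (ζ : ℂˣ),
        (∀ (f : dom) (hf : compInv γ₀ (f : ℍ → ℂ) ∈ dom) (k : ℤ),
          (L ⟨compInv γ₀ (f : ℍ → ℂ), hf⟩).coeff k = (ζ : ℂ) ^ k * (L f).coeff k) →
        ∀ a f (k : ℤ), (σ (γ₀ • a) f).coeff k = (ζ : ℂ) ^ k * (σ a f).coeff k) := by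
  obtain ⟨σ, hσ, hσg⟩ := exists_sigma N dom L hL hmem
  refine ⟨σ, hσ, ?_, ?_⟩
  · intro a
    induction a using QuotientGroup.induction_on with
    | H g =>
      have h := hσg g ⟨1, one_dvd N⟩
      have h2 : jN N = jF N 1 (one_dvd N) := rfl
      rw [h2, h]
      refine congrArg L (Subtype.ext ?_)
      show compInv g (jd 1) = jfun
      rw [jd_one, compInv_jfun]
  · intro γ₀ ζ hζ a f k
    induction a using QuotientGroup.induction_on with
    | H g =>
      have key : σ (γ₀ • (g : XN N)) = (theta ζ).comp (σ (g : XN N)) := by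
        apply algHom_ext_FN
        intro d
        have h1 : γ₀ • (g : XN N) = ((γ₀ * g : SL(2, ℤ)) : XN N) := rfl
        rw [h1, hσg (γ₀ * g) d, AlgHom.comp_apply, hσg g d]
        ext k
        rw [theta_coeff, ← hζ ⟨compInv g (jd d.1), hmem g d⟩
          (by rw [← compInv_mul]; exact hmem (γ₀ * g) d) k]
        refine congrArg (fun x => (L x).coeff k) (Subtype.ext ?_)
        exact compInv_mul γ₀ g (jd d.1)
      rw [key, AlgHom.comp_apply, theta_coeff]

theorem hmem_Hol (g : SL(2, ℤ)) (d : Dv N) : compInv g (jd d.1) ∈ Hol :=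
  compInv_mem_Hol g ⟨jd d.1, jd_mdiff d.1⟩

theorem jfun_mem_Hol : jfun ∈ Hol := jfun_mdiff

omit [NeZero N] in
theorem sigma_sub (dom : Subalgebra ℂ (ℍ → ℂ)) (L : dom →ₐ[ℂ] LaurentSeries ℂ)
    (σa : FN N →ₐ[Kb] LaurentSeries ℂ) (hj : jfun ∈ dom) (h : σa (jN N) = L ⟨jfun, hj⟩)
    (c : Kb) :
    σa (jN N - algebraMap Kb (FN N) c)
      = L (⟨jfun, hj⟩ - algebraMap ℂ dom (algebraMap Kb ℂ c)) := by
  rw [map_sub, map_sub, h, AlgHom.commutes, AlgHom.commutes, algebraMap_Kb, algebraMap_C]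

theorem coe_sub_const (dom : Subalgebra ℂ (ℍ → ℂ)) (hj : jfun ∈ dom) (c : ℂ) :
    (((⟨jfun, hj⟩ : dom) - algebraMap ℂ dom c : dom) : ℍ → ℂ) = fun τ => jfun τ - c := by
  funext τ
  rfl

theorem taylor_coeff (τ₀ : ℍ) (γ₀ : SL(2, ℤ)) (hγ : γ₀ • τ₀ = τ₀) (ζ : ℂˣ)
    (hζ : (ζ : ℂ) = denom (γ₀ : GL (Fin 2) ℝ) τ₀ ^ 2)
    (f : Hol) (hf : compInv γ₀ (f : ℍ → ℂ) ∈ Hol) (k : ℤ) :
    (taylorAt τ₀ ⟨compInv γ₀ (f : ℍ → ℂ), hf⟩).coeff k
      = (ζ : ℂ) ^ k * (taylorAt τ₀ f).coeff k := by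
  rw [hζ]
  exact taylorAt_compInv τ₀ γ₀ hγ f k

theorem denom_S_I :
    denom ((ModularGroup.S : SL(2, ℤ)) : GL (Fin 2) ℝ) UpperHalfPlane.I ^ 2 = -1 := by
  rw [ModularGroup.denom_apply]
  simp [ModularGroup.S]

theorem ST_entries : ((ModularGroup.S * ModularGroup.T : SL(2, ℤ)) 1 0 = 1) ∧
    ((ModularGroup.S * ModularGroup.T : SL(2, ℤ)) 1 1 = 1) := by
  constructor <;> decide

theorem denom_ST :
    denom ((ModularGroup.S * ModularGroup.T : SL(2, ℤ)) : GL (Fin 2) ℝ) rhoH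
      = (rhoH : ℂ) + 1 := by
  rw [ModularGroup.denom_apply, ST_entries.1, ST_entries.2]
  simp

theorem rho_sq : ((rhoH : ℂ) + 1) ^ 2 = (rhoH : ℂ) := by
  have h3 : ((Real.sqrt 3 : ℝ) : ℂ) ^ 2 = 3 := by
    rw [← Complex.ofReal_pow, Real.sq_sqrt (by norm_num)]; norm_num
  show ((-1 / 2 + ((Real.sqrt 3 / 2 : ℝ) : ℂ) * Complex.I) + 1) ^ 2
    = (-1 / 2 + ((Real.sqrt 3 / 2 : ℝ) : ℂ) * Complex.I)
  push_cast
  have hI : Complex.I ^ 2 = -1 := Complex.I_sq
  linear_combination (1/4 : ℂ) * Complex.I ^ 2 * h3 + (3/4 : ℂ) * hI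

theorem rho_prim : IsPrimitiveRoot (rhoH : ℂ) 3 := by
  have hq : (rhoH : ℂ) ^ 2 + (rhoH : ℂ) + 1 = 0 := by
    have := rho_sq
    linear_combination this
  have h1 : (rhoH : ℂ) ≠ 1 := by
    intro h
    rw [h] at hq
    norm_num at hq
  have hc : (rhoH : ℂ) ^ 3 = 1 := by linear_combination ((rhoH : ℂ) - 1) * hq
  refine IsPrimitiveRoot.mk_of_lt _ (by norm_num) hc ?_
  intro l hl hl3
  interval_cases l
  · simpa using h1
  · intro h
    apply h1
    have : (rhoH : ℂ) ^ 3 = (rhoH : ℂ) ^ 2 * rhoH := by ring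
    rw [hc, h, one_mul] at this
    exact this.symm

theorem card_le_finrank_of_embeddings {K F M ι : Type*} [Field K] [Field F] [Field M]
    [Algebra K F] [Algebra K M] (x : F) [FiniteDimensional K⟮x⟯ F] (σ : ι → F →ₐ[K] M)
    (hσ : Function.Injective σ) (hx : ∀ a b, σ a x = σ b x) :
    Nat.card ι ≤ Module.finrank K⟮x⟯ F := by
  rcases isEmpty_or_nonempty ι with h | ⟨⟨a₀⟩⟩
  · simp
  let _ : Algebra K⟮x⟯ M := ((σ a₀).toRingHom.comp (algebraMap K⟮x⟯ F)).toAlgebra
  have hres : ∀ a, (σ a).comp (K⟮x⟯).val = (σ a₀).comp (K⟮x⟯).val := by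
    intro a
    apply IntermediateField.adjoin_algHom_ext
    intro y hy
    rw [Set.mem_singleton_iff] at hy
    subst hy
    exact hx a a₀
  let τ : ι → (F →ₐ[K⟮x⟯] M) := fun a =>
    { (σ a).toRingHom with
      commutes' := fun r => DFunLike.congr_fun (hres a) r }
  have hτ : Function.Injective τ := by
    intro a b hab
    apply hσ
    ext f
    exact DFunLike.congr_fun hab f
  calc Nat.card ι ≤ Nat.card (F →ₐ[K⟮x⟯] M) := Nat.card_le_card_of_injective τ hτ
    _ ≤ Module.finrank K⟮x⟯ F := card_algHom_le_finrank _ _ _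

theorem order_inv_eq (x : LaurentSeries ℂ) (hx : x ≠ 0) : (x⁻¹).order = -x.order := by
  have h := HahnSeries.order_mul hx (inv_ne_zero hx)
  rw [mul_inv_cancel₀ hx, HahnSeries.order_one] at h
  linarith

theorem cusp_coeff (f : HolCusp N) (hf : compInv ModularGroup.T (f : ℍ → ℂ) ∈ HolCusp N)
    (k : ℤ) :
    (laurent N ⟨compInv ModularGroup.T (f : ℍ → ℂ), hf⟩).coeff k
      = (Complex.exp (2 * Real.pi * Complex.I / N))⁻¹ ^ k * (laurent N f).coeff k := by
  have h := laurent_translate N ⟨compInv ModularGroup.T (f : ℍ → ℂ), hf⟩ k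
  have h2 : (⟨_, translate_mem N ⟨compInv ModularGroup.T (f : ℍ → ℂ), hf⟩⟩ : HolCusp N) = f := by
    apply Subtype.ext
    funext τ
    show (f : ℍ → ℂ) (ModularGroup.T⁻¹ • ((1 : ℝ) +ᵥ τ)) = (f : ℍ → ℂ) τ
    rw [← UpperHalfPlane.modular_T_smul, inv_smul_smul]
  rw [h2] at h
  rw [h, inv_zpow, ← mul_assoc, inv_mul_cancel₀ (zpow_ne_zero _ (Complex.exp_ne_zero _)), one_mul]

end Packages

open Packages

variable (N : ℕ) [NeZero N]

theorem package_generic (c : Kb) (h0 : c ≠ 0) (h1 : c ≠ 1728) :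
    ∃ σ : XN N → FN N →ₐ[Kb] LaurentSeries ℂ, Function.Injective σ ∧
      (∀ a b, σ a (jN N) = σ b (jN N)) ∧
      (∀ a, (σ a (jN N - algebraMap Kb (FN N) c)).order = 1) := by
  obtain ⟨τ₀, hτ₀⟩ := jfun_surjective (algebraMap Kb ℂ c)
  obtain ⟨σ, hσ, hσj, -⟩ := core N Hol (taylorAt τ₀) (taylorAt_injective τ₀) (hmem_Hol N)
    jfun_mem_Hol
  refine ⟨σ, hσ, fun a b => by rw [hσj a, hσj b], fun a => ?_⟩
  rw [sigma_sub N Hol (taylorAt τ₀) (σ a) jfun_mem_Hol (hσj a) c]
  have h0' : jfun τ₀ ≠ 0 := by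
    rw [hτ₀]
    intro h
    exact h0 ((map_eq_zero (algebraMap Kb ℂ)).mp h)
  have h1' : jfun τ₀ ≠ 1728 := by
    rw [hτ₀]
    intro h
    apply h1
    apply (algebraMap Kb ℂ).injective
    rw [h]
    exact (map_ofNat (algebraMap Kb ℂ) 1728).symm
  have := taylorAt_order τ₀ (⟨jfun, jfun_mem_Hol⟩ - algebraMap ℂ Hol (algebraMap Kb ℂ c)) 1
    (by
      rw [coe_sub_const, ← hτ₀, order_jfun_sub_generic τ₀ h0' h1']
      rfl)
  rw [this]
  rfl

theorem finrank_FN : Module.finrank Kb⟮jN N⟯ (FN N) = Nat.card (XN N) := by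
  apply le_antisymm
  · exact finrank_FN_le N
  · obtain ⟨σ, hσ, hσj, -⟩ := package_generic N 1 one_ne_zero (by norm_num)
    have := finiteDimensional_FN N
    exact card_le_finrank_of_embeddings (jN N) σ hσ hσj

theorem package_I :
    ∃ σ : XN N → FN N →ₐ[Kb] LaurentSeries ℂ, Function.Injective σ ∧
      (∀ a b, σ a (jN N) = σ b (jN N)) ∧
      (∀ a, (σ a (jN N - algebraMap Kb (FN N) 1728)).order = 2) ∧
      (∀ a f (k : ℤ), (σ (ModularGroup.S • a) f).coeff k = (-1 : ℂ) ^ k * (σ a f).coeff k) := by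
  obtain ⟨σ, hσ, hσj, hσθ⟩ := core N Hol (taylorAt UpperHalfPlane.I)
    (taylorAt_injective UpperHalfPlane.I) (hmem_Hol N) jfun_mem_Hol
  refine ⟨σ, hσ, fun a b => by rw [hσj a, hσj b], fun a => ?_, ?_⟩
  · rw [sigma_sub N Hol (taylorAt UpperHalfPlane.I) (σ a) jfun_mem_Hol (hσj a) 1728]
    have := taylorAt_order UpperHalfPlane.I
      (⟨jfun, jfun_mem_Hol⟩ - algebraMap ℂ Hol (algebraMap Kb ℂ 1728)) 2
      (by
        rw [coe_sub_const, map_ofNat (algebraMap Kb ℂ) 1728, order_jfun_sub_I]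
        rfl)
    rw [this]
    rfl
  · have := hσθ ModularGroup.S (-1) (fun f hf k =>
      taylor_coeff UpperHalfPlane.I ModularGroup.S S_smul_I (-1)
        (by rw [denom_S_I]; simp) f hf k)
    simpa using this

theorem package_rho :
    ∃ (σ : XN N → FN N →ₐ[Kb] LaurentSeries ℂ) (ζ : ℂ), Function.Injective σ ∧
      IsPrimitiveRoot ζ 3 ∧
      (∀ a b, σ a (jN N) = σ b (jN N)) ∧
      (∀ a, (σ a (jN N)).order = 3) ∧
      (∀ a f (k : ℤ), (σ ((ModularGroup.S * ModularGroup.T) • a) f).coeff k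
          = ζ ^ k * (σ a f).coeff k) := by
  obtain ⟨σ, hσ, hσj, hσθ⟩ := core N Hol (taylorAt rhoH)
    (taylorAt_injective rhoH) (hmem_Hol N) jfun_mem_Hol
  refine ⟨σ, (rhoH : ℂ), hσ, rho_prim, fun a b => by rw [hσj a, hσj b], fun a => ?_, ?_⟩
  · rw [hσj a]
    have := taylorAt_order rhoH ⟨jfun, jfun_mem_Hol⟩ 3
      (by
        rw [order_jfun_rho]
        rfl)
    rw [this]
    rfl
  · exact hσθ (ModularGroup.S * ModularGroup.T) (Units.mk0 (rhoH : ℂ) (rho_prim.ne_zero (by norm_num)))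
      (fun f hf k =>
      taylor_coeff rhoH (ModularGroup.S * ModularGroup.T) ST_smul_rho _
        (by rw [denom_ST, rho_sq]; rfl) f hf k)

theorem package_cusp :
    ∃ (σ : XN N → FN N →ₐ[Kb] LaurentSeries ℂ) (ζ : ℂ), Function.Injective σ ∧
      IsPrimitiveRoot ζ N ∧
      (∀ a b, σ a (jN N) = σ b (jN N)) ∧
      (∀ a, (σ a (jN N)⁻¹).order = (N : ℤ)) ∧
      (∀ a f (k : ℤ), (σ (ModularGroup.T • a) f).coeff k = ζ ^ k * (σ a f).coeff k) := by
  obtain ⟨σ, hσ, hσj, hσθ⟩ := core N (HolCusp N) (laurent N)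
    (laurent_injective N) (compInv_jd_mem_HolCusp N) (jfun_mem_HolCusp N)
  have hprim := (Complex.isPrimitiveRoot_exp N (NeZero.ne N)).inv
  refine ⟨σ, (Complex.exp (2 * Real.pi * Complex.I / N))⁻¹, hσ, hprim,
    fun a b => by rw [hσj a, hσj b], fun a => ?_, ?_⟩
  · have hN : (N : ℤ) ≠ 0 := by exact_mod_cast NeZero.ne N
    have hne : laurent N ⟨jfun, jfun_mem_HolCusp N⟩ ≠ 0 := by
      intro h
      have h2 := laurent_jfun_order N
      rw [h, HahnSeries.order_zero] at h2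
      omega
    rw [map_inv₀, hσj a, order_inv_eq _ hne, laurent_jfun_order, neg_neg]
  · exact hσθ ModularGroup.T
      (Units.mk0 (Complex.exp (2 * Real.pi * Complex.I / N))⁻¹ (inv_ne_zero (Complex.exp_ne_zero _)))
      (fun f hf k => cusp_coeff N f hf k)

end

end Fermat.Agent.S24
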