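import Fermat.Agent.S24.Defs

set_option autoImplicit false

open AlgebraicCurve ModularCurve UpperHalfPlane KaehlerDifferential Filter Topology
open scoped MatrixGroups IntermediateField Manifold ModularForm

namespace Fermat.Agent.S24

noncomputable section

namespace JBasic

open ModularForm in
theorem form_smul {k : ℤ} (f : ModularForm 𝒮ℒ k) (g : SL(2, ℤ)) (τ : ℍ) :
    f (g • τ) = denom g τ ^ k * f τ := by
  have hg : (g : GL (Fin 2) ℝ) ∈ 𝒮ℒ := ⟨g, rfl⟩
  exact SlashInvariantForm.slash_action_eqn'' f hg τ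

theorem disc_smul (g : SL(2, ℤ)) (τ : ℍ) :
    ModularForm.discriminant (g • τ) = denom g τ ^ (12 : ℤ) * ModularForm.discriminant τ := by
  have hg : (g : GL (Fin 2) ℝ) ∈ 𝒮ℒ := ⟨g, rfl⟩
  exact SlashInvariantForm.slash_action_eqn'' CuspForm.discriminant hg τ

theorem E4_tendsto : Tendsto (fun τ : ℍ => ModularForm.E₄ τ) atImInfty (𝓝 1) := by
  have han : AnalyticAt ℂ (cuspFunction 1 ModularForm.E₄) 0 :=
    ModularFormClass.analyticAt_cuspFunction_zero ModularForm.E₄ one_pos
      one_mem_strictPeriods_SL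
  have h0 : cuspFunction 1 ModularForm.E₄ 0 = 1 := by
    have := EisensteinSeries.E_qExpansion_coeff_zero (k := 4) (by norm_num) ⟨2, rfl⟩
    simpa [qExpansion_coeff] using this
  have h1 := han.continuousAt.tendsto.comp (qParam_tendsto_atImInfty one_pos)
  rw [h0] at h1
  refine h1.congr fun τ => ?_
  exact SlashInvariantFormClass.eq_cuspFunction ModularForm.E₄ τ
    one_mem_strictPeriods_SL one_ne_zero

end JBasic

open JBasic

theorem jfun_mdiff : MDiff jfun :=
  (ModularForm.E₄.holo'.pow 3).div CuspForm.discriminant.holo' ModularForm.discriminant_ne_zero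

theorem jfun_smul (g : SL(2, ℤ)) (τ : ℍ) : jfun (g • τ) = jfun τ := by
  unfold jfun
  rw [form_smul, disc_smul]
  have h1 : denom g τ ≠ 0 := denom_ne_zero _ _
  have h2 := ModularForm.discriminant_ne_zero τ
  have e1 : denom g τ ^ (4 : ℤ) = denom g τ ^ 4 := by norm_cast
  have e2 : denom g τ ^ (12 : ℤ) = denom g τ ^ 12 := by norm_cast
  rw [e1, e2]
  field_simp

theorem jd_mdiff (d : ℕ) [NeZero d] : MDiff (jd d) := by
  have h := jfun_mdiff
  rw [UpperHalfPlane.mdifferentiable_iff] at h ⊢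
  have hd : (0 : ℝ) < d := by exact_mod_cast Nat.pos_of_ne_zero (NeZero.ne d)
  have hmaps : Set.MapsTo (fun z : ℂ => (d : ℂ) * z) {z : ℂ | 0 < z.im} {z : ℂ | 0 < z.im} := by
    intro z hz
    have : ((d : ℂ) * z).im = d * z.im := by simp
    simp only [Set.mem_ofPred_eq] at hz ⊢
    rw [this]
    exact mul_pos hd hz
  have h2 : DifferentiableOn ℂ ((jfun ∘ ofComplex) ∘ fun z : ℂ => (d : ℂ) * z) {z : ℂ | 0 < z.im} :=
    h.comp (by fun_prop) hmaps
  refine h2.congr fun z hz => ?_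
  have hz' := hmaps hz
  simp only [Set.mem_ofPred_eq] at hz hz'
  simp only [Function.comp_apply, ofComplex_apply_of_im_pos hz, ofComplex_apply_of_im_pos hz', jd]
  rfl

/-- `j(τ) q → 1` as `Im τ → ∞`. -/
theorem jfun_mul_qh_tendsto : Tendsto (fun τ : ℍ => jfun τ * qh 1 τ) atImInfty (𝓝 1) := by
  have h1 := (E4_tendsto.pow 3).div ModularForm.tendsto_atImInfty_tprod_one_sub_eta_q_pow
    one_ne_zero
  simp only [one_pow, div_one] at h1
  refine h1.congr fun τ => ?_
  have hq : Function.Periodic.qParam 1 (τ : ℂ) ≠ 0 := Complex.exp_ne_zero _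
  have hΔ := ModularForm.discriminant_ne_zero τ
  have hΔ' := ModularForm.discriminant_eq_q_prod τ
  rw [hΔ'] at hΔ
  have hp := right_ne_zero_of_mul hΔ
  simp only [jfun, qh, hΔ', Nat.cast_one, Pi.div_apply]
  field_simp

theorem jfun_surjective : Function.Surjective jfun := by
  intro c
  by_contra hc
  push Not at hc
  have hne : ∀ τ, jfun τ - c ≠ 0 := fun τ => sub_ne_zero.mpr (hc τ)
  -- the function `1/(j-c)`
  have hlim : Tendsto (fun τ : ℍ => (1 : ℂ) / (jfun τ - c)) atImInfty (𝓝 0) := by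
    have hq : Tendsto (fun τ : ℍ => qh 1 τ) atImInfty (𝓝 0) := by
      simpa [qh] using qParam_tendsto_atImInfty one_pos
    have h1 : Tendsto (fun τ : ℍ => qh 1 τ / (jfun τ * qh 1 τ - c * qh 1 τ)) atImInfty
        (𝓝 (0 / (1 - c * 0))) :=
      hq.div (jfun_mul_qh_tendsto.sub (hq.const_mul c)) (by simp)
    simp only [zero_div] at h1
    refine h1.congr fun τ => ?_
    have hq0 : qh 1 τ ≠ 0 := Complex.exp_ne_zero _
    have := hne τ
    field_simp
  have hslash : ∀ γ : SL(2, ℤ),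
      ((fun τ => (1 : ℂ) / (jfun τ - c)) ∣[(0 : ℤ)] γ) = fun τ => (1 : ℂ) / (jfun τ - c) := by
    intro γ
    ext τ
    rw [ModularForm.SL_slash_apply]
    show (1 : ℂ) / (jfun (γ • τ) - c) * _ = _
    rw [jfun_smul]
    simp
  let G : ModularForm 𝒮ℒ 0 :=
    { toFun := fun τ => (1 : ℂ) / (jfun τ - c)
      slash_action_eq' := by
        rintro _ ⟨γ, rfl⟩
        ext τ
        exact congr_fun (hslash γ) τ
      holo' := mdifferentiable_const.div (jfun_mdiff.sub mdifferentiable_const) hne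
      bdd_at_cusps' := by
        intro c' hc'
        rw [Subgroup.IsArithmetic.isCusp_iff_isCusp_SL2Z] at hc'
        rw [OnePoint.isBoundedAt_iff_forall_SL2Z hc']
        intro γ _
        rw [hslash γ]
        exact hlim.isBigO_one ℝ }
  obtain ⟨c', hc'⟩ := ModularFormClass.levelOne_weight_zero_const G
  have h2 : Tendsto (fun τ : ℍ => (1 : ℂ) / (jfun τ - c)) atImInfty (𝓝 c') := by
    have : (fun τ : ℍ => (1 : ℂ) / (jfun τ - c)) = fun _ => c' := hc'
    rw [this]
    exact tendsto_const_nhds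
  have h3 : c' = 0 := tendsto_nhds_unique h2 hlim
  have h4 := congr_fun hc' UpperHalfPlane.I
  have h5 : (1 : ℂ) / (jfun UpperHalfPlane.I - c) = c' := h4
  rw [h3] at h5
  exact (div_ne_zero one_ne_zero (hne _)) h5

theorem S_smul_I : ModularGroup.S • UpperHalfPlane.I = UpperHalfPlane.I := by
  rw [UpperHalfPlane.modular_S_smul]
  ext
  simp

theorem JBasic.rho_sq : (rhoH : ℂ) ^ 2 + (rhoH : ℂ) + 1 = 0 := by
  have hs : (((Real.sqrt 3 / 2 : ℝ) : ℂ)) ^ 2 = 3 / 4 := by
    rw [← Complex.ofReal_pow, div_pow, Real.sq_sqrt (by norm_num)]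
    push_cast
    norm_num
  simp only [rhoH, coe_mk]
  linear_combination (Complex.I ^ 2) * hs + (3 / 4 : ℂ) * Complex.I_sq

theorem ST_smul_rho : (ModularGroup.S * ModularGroup.T) • rhoH = rhoH := by
  rw [mul_smul, UpperHalfPlane.modular_T_smul, UpperHalfPlane.modular_S_smul]
  ext
  simp only [coe_vadd]
  apply inv_eq_of_mul_eq_one_right
  push_cast
  linear_combination -JBasic.rho_sq

theorem jfun_I : jfun UpperHalfPlane.I = 1728 := by
  have h1 := form_smul ModularForm.E₆ ModularGroup.S UpperHalfPlane.I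
  rw [S_smul_I, ModularGroup.denom_S, UpperHalfPlane.coe_I] at h1
  have e1 : Complex.I ^ (6 : ℤ) = -1 := by
    have : Complex.I ^ (6 : ℤ) = (Complex.I ^ 2) ^ 3 := by norm_cast; ring
    rw [this, Complex.I_sq]
    norm_num
  rw [e1] at h1
  have h6 : ModularForm.E₆ UpperHalfPlane.I = 0 := by linear_combination h1 / 2
  have hΔ := ModularForm.discriminant_eq_E₄_cube_sub_E₆_sq UpperHalfPlane.I
  have hne := ModularForm.discriminant_ne_zero UpperHalfPlane.I
  rw [h6] at hΔ
  unfold jfun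
  rw [div_eq_iff hne, hΔ]
  ring

theorem jfun_rho : jfun rhoH = 0 := by
  have h1 := form_smul ModularForm.E₄ (ModularGroup.S * ModularGroup.T) rhoH
  have hd : ∀ g : SL(2, ℤ), g = ModularGroup.S * ModularGroup.T →
      denom g rhoH = (rhoH : ℂ) + 1 := by
    rintro g rfl
    rw [ModularGroup.denom_apply]
    have e10 : (ModularGroup.S * ModularGroup.T : SL(2, ℤ)) 1 0 = 1 := by decide
    have e11 : (ModularGroup.S * ModularGroup.T : SL(2, ℤ)) 1 1 = 1 := by decide
    rw [e10, e11]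
    simp
  rw [ST_smul_rho, hd _ rfl] at h1
  have e1 : ((rhoH : ℂ) + 1) ^ (4 : ℤ) = -(rhoH : ℂ) - 1 := by
    have : ((rhoH : ℂ) + 1) ^ (4 : ℤ) = ((rhoH : ℂ) + 1) ^ 4 := by norm_cast
    rw [this]
    linear_combination ((rhoH : ℂ) ^ 2 + 3 * (rhoH : ℂ) + 2) * JBasic.rho_sq
  rw [e1] at h1
  have h2 : ((rhoH : ℂ) + 2) * ModularForm.E₄ rhoH = 0 := by linear_combination h1
  have h3 : (rhoH : ℂ) + 2 ≠ 0 := by
    intro h
    have := congr_arg Complex.re h
    simp [rhoH] at this
    norm_num at this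
  have h4 : ModularForm.E₄ rhoH = 0 := (mul_eq_zero.mp h2).resolve_left h3
  unfold jfun
  rw [h4]
  simp

end

end Fermat.Agent.S24
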