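import Fermat.Agent.S24.Laurent
import Fermat.Agent.S24.JBasic
import Fermat.Agent.S28.QExpDelta
import Fermat.Agent.S28.QExpE4
import Fermat.Prelude.Thm_ModularCurve_coeffMap_qExpand

set_option autoImplicit false

open AlgebraicCurve ModularCurve UpperHalfPlane KaehlerDifferential Filter Topology
open scoped MatrixGroups IntermediateField Manifold

namespace Fermat.Agent.S24

noncomputable section

namespace QDict

variable (d : ℕ) [NeZero d]

theorem coe_mulH (τ : ℍ) : ((mulH d τ : ℍ) : ℂ) = (d : ℂ) * τ := rfl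

theorem im_mulH (τ : ℍ) : (mulH d τ).im = d * τ.im := by
  show ((d : ℂ) * (τ : ℂ)).im = _
  simp

theorem qh_mulH (τ : ℍ) : qh 1 (mulH d τ) = qh 1 τ ^ d := by
  simp only [qh, Function.Periodic.qParam, coe_mulH, ← Complex.exp_nat_mul]
  congr 1
  push_cast
  ring

theorem tendsto_mulH : Tendsto (mulH d) atImInfty atImInfty := by
  rw [atImInfty, tendsto_comap_iff]
  have hd : (0 : ℝ) < d := by exact_mod_cast Nat.pos_of_ne_zero (NeZero.ne d)
  have : (UpperHalfPlane.im ∘ mulH d) = fun τ : ℍ => (d : ℝ) * τ.im := by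
    funext τ; exact im_mulH d τ
  rw [this]
  exact (tendsto_comap).const_mul_atTop hd

theorem comp_mulH_ofComplex {f : ℍ → ℂ} {z : ℂ} (hz : 0 < z.im) :
    ((f ∘ mulH d) ∘ ofComplex) z = (f ∘ ofComplex) ((d : ℂ) * z) := by
  have hd : (0 : ℝ) < d := by exact_mod_cast Nat.pos_of_ne_zero (NeZero.ne d)
  have hz' : 0 < ((d : ℂ) * z).im := by
    simpa using mul_pos hd hz
  simp only [Function.comp_apply, ofComplex_apply_of_im_pos hz, ofComplex_apply_of_im_pos hz']
  rfl

theorem mdiff_comp_mulH {f : ℍ → ℂ} (hf : MDiff f) : MDiff (f ∘ mulH d) := by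
  rw [UpperHalfPlane.mdifferentiable_iff] at hf ⊢
  have hd : (0 : ℝ) < d := by exact_mod_cast Nat.pos_of_ne_zero (NeZero.ne d)
  have h1 : DifferentiableOn ℂ ((f ∘ ofComplex) ∘ fun z : ℂ => (d : ℂ) * z) {z | 0 < z.im} := by
    refine hf.comp (by fun_prop) ?_
    intro z hz
    simpa using mul_pos hd hz
  refine h1.congr ?_
  intro z hz
  exact comp_mulH_ofComplex d hz

theorem periodic_comp_mulH {f : ℍ → ℂ} (hf : Function.Periodic (f ∘ ofComplex) ((1 : ℝ) : ℂ)) :
    Function.Periodic ((f ∘ mulH d) ∘ ofComplex) ((1 : ℝ) : ℂ) := by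
  intro z
  by_cases hz : 0 < z.im
  · have hz' : 0 < (z + ((1 : ℝ) : ℂ)).im := by simpa using hz
    rw [comp_mulH_ofComplex d hz, comp_mulH_ofComplex d hz', mul_add]
    have := hf.nat_mul d ((d : ℂ) * z)
    simpa using this
  · have hz1 : z.im ≤ 0 := not_lt.mp hz
    have hz' : (z + ((1 : ℝ) : ℂ)).im ≤ 0 := by simpa using hz1
    simp only [Function.comp_apply]
    rw [ofComplex_apply_of_im_nonpos hz1, ofComplex_apply_of_im_nonpos hz']

theorem bounded_comp_mulH {f : ℍ → ℂ} (hf : IsBoundedAtImInfty f) :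
    IsBoundedAtImInfty (f ∘ mulH d) :=
  hf.comp_tendsto (tendsto_mulH d)

/-- `q`-expansion of `f(dτ)`. -/
theorem qExpansion_comp_mulH_coeff {f : ℍ → ℂ}
    (hper : Function.Periodic (f ∘ ofComplex) ((1 : ℝ) : ℂ)) (hhol : MDiff f)
    (hbdd : IsBoundedAtImInfty f) (n : ℕ) :
    (qExpansion 1 (f ∘ mulH d)).coeff n =
      if d ∣ n then (qExpansion 1 f).coeff (n / d) else 0 := by
  have hd : 0 < d := Nat.pos_of_ne_zero (NeZero.ne d)
  have han : AnalyticAt ℂ (cuspFunction 1 (f ∘ mulH d)) 0 :=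
    analyticAt_cuspFunction_zero one_pos (periodic_comp_mulH d hper) (mdiff_comp_mulH d hhol)
      (bounded_comp_mulH d hbdd)
  refine (qExpansion_coeff_unique (ContinuousMap.mk (f ∘ mulH d) (mdiff_comp_mulH d hhol).continuous)
    one_pos han
    (c := fun n => if d ∣ n then (qExpansion 1 f).coeff (n / d) else 0) ?_ n).symm
  intro τ
  show HasSum _ (f (mulH d τ))
  have h1 := hasSum_qExpansion one_pos hper hhol hbdd (mulH d τ)
  have hinj : Function.Injective (fun m : ℕ => d * m) := fun a b h =>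
    Nat.eq_of_mul_eq_mul_left hd h
  rw [← hinj.hasSum_iff]
  · convert h1 using 2 with m
    have hq := qh_mulH d τ
    simp only [qh] at hq
    simp only [Function.comp_apply, dvd_mul_right, if_true, Nat.mul_div_cancel_left _ hd]
    rw [pow_mul]
    congr 2
    simpa using hq.symm
  · intro x hx
    have : ¬ d ∣ x := by
      rintro ⟨m, rfl⟩
      exact hx ⟨m, rfl⟩
    simp [this]

theorem ofPowerSeries_qExpansion_comp_mulH {f : ℍ → ℂ}
    (hper : Function.Periodic (f ∘ ofComplex) ((1 : ℝ) : ℂ)) (hhol : MDiff f)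
    (hbdd : IsBoundedAtImInfty f) :
    HahnSeries.ofPowerSeries ℤ ℂ (qExpansion 1 (f ∘ mulH d)) =
      qExpand ℂ d (HahnSeries.ofPowerSeries ℤ ℂ (qExpansion 1 f)) := by
  have hd : 0 < d := Nat.pos_of_ne_zero (NeZero.ne d)
  ext k
  by_cases hk : (d : ℤ) ∣ k
  · obtain ⟨m, rfl⟩ := hk
    rw [qExpand_coeff_mul]
    rcases lt_or_ge m 0 with hm | hm
    · rw [ofPowerSeries_coeff_of_neg _ hm, ofPowerSeries_coeff_of_neg]
      exact mul_neg_of_pos_of_neg (by exact_mod_cast hd) hm
    · lift m to ℕ using hm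
      rw [show (d : ℤ) * (m : ℤ) = ((d * m : ℕ) : ℤ) by push_cast; ring,
        HahnSeries.ofPowerSeries_apply_coeff, HahnSeries.ofPowerSeries_apply_coeff,
        qExpansion_comp_mulH_coeff d hper hhol hbdd]
      simp [Nat.mul_div_cancel_left _ hd]
  · rw [qExpand_coeff_of_not_dvd d _ hk]
    rcases lt_or_ge k 0 with hm | hm
    · exact ofPowerSeries_coeff_of_neg _ hm
    · lift k to ℕ using hm
      rw [HahnSeries.ofPowerSeries_apply_coeff, qExpansion_comp_mulH_coeff d hper hhol hbdd,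
        if_neg]
      intro h
      exact hk (by exact_mod_cast h)

theorem mem_HolCusp_one_of_bounded {f : ℍ → ℂ}
    (hper : Function.Periodic (f ∘ ofComplex) ((1 : ℝ) : ℂ)) (hhol : MDiff f)
    (hbdd : IsBoundedAtImInfty f) : f ∈ HolCusp 1 :=
  ⟨hhol, by simpa using hper, 0, by simpa using hbdd⟩

theorem laurent_one_of_bounded (f : HolCusp 1) (hf : IsBoundedAtImInfty (f : ℍ → ℂ)) :
    laurent 1 f = HahnSeries.ofPowerSeries ℤ ℂ (qExpansion 1 (f : ℍ → ℂ)) := by
  have := laurent_of_bounded 1 f hf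
  simpa using this

/-! ### `E₄` and `Δ` -/

theorem E4_per : Function.Periodic ((ModularForm.E₄ : ℍ → ℂ) ∘ ofComplex) ((1 : ℝ) : ℂ) :=
  SlashInvariantFormClass.periodic_comp_ofComplex ModularForm.E₄
    one_mem_strictPeriods_SL

theorem E4_hol : MDiff (ModularForm.E₄ : ℍ → ℂ) := ModularFormClass.holo ModularForm.E₄

theorem E4_bdd : IsBoundedAtImInfty (ModularForm.E₄ : ℍ → ℂ) :=
  ModularFormClass.bdd_at_infty ModularForm.E₄

theorem D_per : Function.Periodic ((ModularForm.discriminant : ℍ → ℂ) ∘ ofComplex) ((1 : ℝ) : ℂ) :=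
  SlashInvariantFormClass.periodic_comp_ofComplex CuspForm.discriminant
    one_mem_strictPeriods_SL

theorem D_hol : MDiff (ModularForm.discriminant : ℍ → ℂ) :=
  ModularFormClass.holo CuspForm.discriminant

theorem D_bdd : IsBoundedAtImInfty (ModularForm.discriminant : ℍ → ℂ) :=
  ModularFormClass.bdd_at_infty CuspForm.discriminant

/-- `E₄(dτ)` in `HolCusp 1`. -/
def E4d : HolCusp 1 :=
  ⟨(ModularForm.E₄ : ℍ → ℂ) ∘ mulH d, mem_HolCusp_one_of_bounded (periodic_comp_mulH d E4_per)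
    (mdiff_comp_mulH d E4_hol) (bounded_comp_mulH d E4_bdd)⟩

/-- `Δ(dτ)` in `HolCusp 1`. -/
def Dd : HolCusp 1 :=
  ⟨(ModularForm.discriminant : ℍ → ℂ) ∘ mulH d,
    mem_HolCusp_one_of_bounded (periodic_comp_mulH d D_per)
    (mdiff_comp_mulH d D_hol) (bounded_comp_mulH d D_bdd)⟩

theorem laurent_E4d : laurent 1 (E4d d) =
    qExpand ℂ d (HahnSeries.ofPowerSeries ℤ ℂ (eisenstein4.map (Int.castRingHom ℂ))) := by
  rw [laurent_one_of_bounded _ (bounded_comp_mulH d E4_bdd)]
  show HahnSeries.ofPowerSeries ℤ ℂ (qExpansion 1 ((ModularForm.E₄ : ℍ → ℂ) ∘ mulH d)) = _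
  rw [ofPowerSeries_qExpansion_comp_mulH d E4_per E4_hol E4_bdd, Fermat.Agent.S28.qExpansion_E4]

theorem laurent_Dd : laurent 1 (Dd d) =
    qExpand ℂ d (HahnSeries.ofPowerSeries ℤ ℂ Fermat.Agent.S28.DC) := by
  rw [laurent_one_of_bounded _ (bounded_comp_mulH d D_bdd)]
  show HahnSeries.ofPowerSeries ℤ ℂ (qExpansion 1 ((ModularForm.discriminant : ℍ → ℂ) ∘ mulH d)) = _
  rw [ofPowerSeries_qExpansion_comp_mulH d D_per D_hol D_bdd,
    Fermat.Agent.S28.qExpansion_discriminant]

/-! ### formal side -/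

theorem coeffMap_jSer : coeffMap iotaC (jSer d) = qExpand ℂ d (jqModC ℂ) := by
  rw [jSer, coeffEmb, coeffMap_coeffMap, coeffMap_qExpand, ← jqModC_rat, coeffMap_jqModC]

theorem jqModC_mul_DC :
    jqModC ℂ * HahnSeries.ofPowerSeries ℤ ℂ Fermat.Agent.S28.DC =
      (HahnSeries.ofPowerSeries ℤ ℂ (eisenstein4.map (Int.castRingHom ℂ))) ^ 3 := by
  have h1 : jNum * dedekindEtaUnit = eisenstein4 ^ 3 := by
    rw [jNum, mul_assoc, mul_comm dedekindEtaUnitInv, dedekindEtaUnit_mul_inv, mul_one]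
  have h2 : HahnSeries.single (-1 : ℤ) (1 : ℂ) * HahnSeries.single (1 : ℤ) (1 : ℂ) = 1 := by
    rw [HahnSeries.single_mul_single]
    simp
  rw [jqModC, Fermat.Agent.S28.DC, map_mul, map_mul, PowerSeries.map_X, HahnSeries.ofPowerSeries_X,
    ← map_pow, ← map_pow, ← h1, map_mul, map_mul]
  generalize HahnSeries.ofPowerSeries ℤ ℂ ((PowerSeries.map (Int.castRingHom ℂ)) jNum) = a
  generalize HahnSeries.ofPowerSeries ℤ ℂ ((PowerSeries.map (Int.castRingHom ℂ)) dedekindEtaUnit) = b
  calc _ = (HahnSeries.single (-1 : ℤ) (1 : ℂ) * HahnSeries.single (1 : ℤ) (1 : ℂ)) * (a * b) := by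
        ring
    _ = _ := by rw [h2, one_mul]

theorem DC_ne_zero : Fermat.Agent.S28.DC ≠ 0 := by
  intro h
  have h1 := congrArg (PowerSeries.coeff 1) h
  rw [← Fermat.Agent.S28.qExpansion_discriminant, ModularForm.discriminant_qExpansion_coeff_one]
    at h1
  simp at h1

theorem jfun_per : Function.Periodic (jfun ∘ ofComplex) ((1 : ℝ) : ℂ) := by
  intro z
  have h1 := E4_per z
  have h2 := D_per z
  simp only [Function.comp_apply] at h1 h2 ⊢
  simp only [jfun, h1, h2]

end QDict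

open QDict

theorem jd_mem_HolCusp_one (d : ℕ) [NeZero d] : jd d ∈ HolCusp 1 := by
  refine ⟨jd_mdiff d, ?_, d, ?_⟩
  · have h := periodic_comp_mulH d jfun_per
    rw [Nat.cast_one]
    exact h
  · have h := jfun_mul_qh_tendsto.comp (tendsto_mulH d)
    have h2 : ((fun τ : ℍ => jfun τ * qh 1 τ) ∘ mulH d) = fun τ => jd d τ * qh 1 τ ^ d := by
      funext τ
      simp only [Function.comp_apply, qh_mulH, jd]
    rw [h2] at h
    exact h.isBigO_one ℝ

theorem laurent_jd (d : ℕ) [NeZero d] :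
    laurent 1 ⟨jd d, jd_mem_HolCusp_one d⟩ = coeffMap iotaC (jSer d) := by
  have hmul : (⟨jd d, jd_mem_HolCusp_one d⟩ : HolCusp 1) * Dd d = E4d d ^ 3 := by
    apply Subtype.ext
    funext τ
    show jd d τ * ModularForm.discriminant (mulH d τ) = (ModularForm.E₄ (mulH d τ)) ^ 3
    rw [jd, jfun, div_mul_cancel₀ _ (ModularForm.discriminant_ne_zero _)]
  have h1 := congrArg (laurent 1) hmul
  rw [map_mul, map_pow, laurent_E4d, laurent_Dd, ← map_pow, ← jqModC_mul_DC, map_mul,
    ← coeffMap_jSer] at h1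
  refine mul_right_cancel₀ ?_ h1
  intro h0
  have h3 := qExpand_injective (R := ℂ) d (h0.trans (map_zero _).symm)
  exact DC_ne_zero (HahnSeries.ofPowerSeries_injective (h3.trans (map_zero _).symm))

namespace QDict

theorem coeffMap_iotaC_injective : Function.Injective (coeffMap iotaC) := by
  intro x y h
  ext k
  have := congrArg (fun z => z.coeff k) h
  simp only [coeffMap_coeff] at this
  exact iotaC.injective this

variable (N : ℕ) [NeZero N]

/-- `phiH` with values in `HolCusp 1`. -/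
def phiHC : MvPolynomial (Dv N) Kb →+* HolCusp 1 :=
  MvPolynomial.eval₂Hom ((algebraMap ℂ (HolCusp 1)).comp iotaC)
    (fun d => ⟨jd d.1, jd_mem_HolCusp_one d.1⟩)

theorem phiHC_coe (p : MvPolynomial (Dv N) Kb) : (phiHC N p : ℍ → ℂ) = phiH N p := by
  have : ((HolCusp 1).val : HolCusp 1 →+* (ℍ → ℂ)).comp (phiHC N) =
      (phiH N : MvPolynomial (Dv N) Kb →+* (ℍ → ℂ)) := by
    apply MvPolynomial.ringHom_ext
    · intro a
      simp only [phiHC, phiH, RingHom.comp_apply, MvPolynomial.eval₂Hom_C, RingHom.coe_coe,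
        MvPolynomial.aeval_C]
      rfl
    · intro d
      simp only [phiHC, phiH, RingHom.comp_apply, MvPolynomial.eval₂Hom_X', RingHom.coe_coe,
        MvPolynomial.aeval_X]
      rfl
  exact congrArg (fun f => f p) this

theorem laurent_phiHC (p : MvPolynomial (Dv N) Kb) :
    laurent 1 (phiHC N p) = coeffMap iotaC (phiF N p : LaurentSeries Kb) := by
  have : ((laurent 1 : HolCusp 1 →+* LaurentSeries ℂ)).comp (phiHC N) =
      (coeffMap iotaC).comp ((algebraMap (FN N) (LaurentSeries Kb)).comp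
        (phiF N : MvPolynomial (Dv N) Kb →+* FN N)) := by
    apply MvPolynomial.ringHom_ext
    · intro a
      simp only [phiHC, phiF, RingHom.comp_apply, MvPolynomial.eval₂Hom_C, RingHom.coe_coe,
        MvPolynomial.aeval_C, AlgHom.commutes]
      rw [← IsScalarTower.algebraMap_apply, algebraMap_laurentSeries_eq_single,
        algebraMap_laurentSeries_eq_single, coeffMap_single]
    · intro d
      simp only [phiHC, phiF, RingHom.comp_apply, MvPolynomial.eval₂Hom_X', RingHom.coe_coe,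
        MvPolynomial.aeval_X]
      exact laurent_jd d.1
  exact congrArg (fun f => f p) this

end QDict

theorem phiF_eq_zero_iff (N : ℕ) [NeZero N] (p : MvPolynomial (Dv N) Kb) :
    phiF N p = 0 ↔ phiH N p = 0 := by
  have h1 : phiH N p = 0 ↔ phiHC N p = 0 := by
    rw [← phiHC_coe]
    exact (Subtype.ext_iff (a1 := phiHC N p) (a2 := 0)).symm
  have h2 : phiHC N p = 0 ↔ laurent 1 (phiHC N p) = 0 :=
    (map_eq_zero_iff _ (laurent_injective 1)).symm
  have h3 : coeffMap iotaC (phiF N p : LaurentSeries Kb) = 0 ↔ (phiF N p : LaurentSeries Kb) = 0 :=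
    map_eq_zero_iff _ coeffMap_iotaC_injective
  rw [h1, h2, laurent_phiHC, h3]
  exact (Subtype.ext_iff (a1 := phiF N p) (a2 := 0))

end

end Fermat.Agent.S24
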