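import Fermat.Statements.S24

set_option autoImplicit false

open AlgebraicCurve ModularCurve UpperHalfPlane
open scoped MatrixGroups IntermediateField Manifold

namespace Fermat.Agent.S24

noncomputable section

/-- The set of places of `F/K` at which `y` vanishes. -/
def zeroPlaces (K : Type*) {F : Type*} [Field K] [Field F] [Algebra K F] (y : F) :
    Set (Place K F) :=
  {v | 0 < v.ord y}

/-- Number of orbits of the cyclic group generated by `g` acting on `X`. -/
def orbCount {G : Type*} (X : Type*) [Group G] [MulAction G X] (g : G) : ℕ :=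
  Nat.card (MulAction.orbitRel.Quotient (Subgroup.zpowers g) X)

/-- `ℚ̄`. -/
abbrev Kb : Type := AlgebraicClosure ℚ

/-- The function field of `X₀(N)` over `ℚ̄`. -/
abbrev FN (N : ℕ) : Type := ↥(modularFunctionFieldBar N)

/-- The coset space `SL₂(ℤ)/Γ₀(N)` with its left action. -/
abbrev XN (N : ℕ) : Type := SL(2, ℤ) ⧸ CongruenceSubgroup.Gamma0 N

/-- A fixed embedding `ℚ̄ → ℂ`. -/
def iotaC : Kb →+* ℂ :=
  letI : Algebra ℚ Kb := AlgebraicClosure.instAlgebra ℚ
  ((IsAlgClosed.lift : Kb →ₐ[ℚ] ℂ) : Kb →+* ℂ)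

instance instAlgebraKbComplex : Algebra Kb ℂ := iotaC.toAlgebra

/-- The analytic `j`-function `E₄³/Δ` on the upper half plane. -/
def jfun (τ : ℍ) : ℂ := (ModularForm.E₄ τ) ^ 3 / ModularForm.discriminant τ

/-- The point `d τ` of the upper half plane. -/
def mulH (d : ℕ) [NeZero d] (τ : ℍ) : ℍ :=
  ⟨(d : ℂ) * τ, by
    have hd : (0 : ℝ) < d := by exact_mod_cast Nat.pos_of_ne_zero (NeZero.ne d)
    have : ((d : ℂ) * (τ : ℂ)).im = d * τ.im := by simp
    rw [this]; exact mul_pos hd τ.im_pos⟩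

/-- `τ ↦ j(dτ)`; junk value (`j` itself composed with nothing sensible) is avoided by `NeZero`. -/
def jd (d : ℕ) [NeZero d] (τ : ℍ) : ℂ := jfun (mulH d τ)

/-- The formal `j(q^d)` as an element of `ℚ̄((q))`. -/
def jSer (d : ℕ) [NeZero d] : LaurentSeries Kb := coeffEmb Kb (qExpand ℚ d jq)

theorem jSer_mem (N d : ℕ) [NeZero d] (hd : d ∣ N) : jSer d ∈ modularFunctionFieldBar N :=
  coeffEmb_mem_laurentBaseChange Kb (jqd_mem_full N hd)

/-- `j(q^d)` as an element of the function field, for `d ∣ N`. -/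
def jF (N d : ℕ) [NeZero d] (hd : d ∣ N) : FN N := ⟨jSer d, jSer_mem N d hd⟩

/-- `j` itself as an element of the function field. -/
def jN (N : ℕ) : FN N := jF N 1 (one_dvd N)

/-- Index type for the generators `j(q^d)`, `d ∣ N`. -/
abbrev Dv (N : ℕ) : Type := {d : ℕ // d ∣ N}

instance instNeZeroDv (N : ℕ) [NeZero N] (d : Dv N) : NeZero d.1 :=
  ⟨fun h => NeZero.ne N (Nat.eq_zero_of_zero_dvd (h ▸ d.2))⟩

/-- Evaluation of polynomials at the formal generators `j(q^d)`. -/
def phiF (N : ℕ) [NeZero N] : MvPolynomial (Dv N) Kb →ₐ[Kb] FN N :=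
  MvPolynomial.aeval fun d => jF N d.1 d.2

/-- Evaluation of polynomials at the analytic functions `τ ↦ j(dτ)`. -/
def phiH (N : ℕ) [NeZero N] : MvPolynomial (Dv N) Kb →ₐ[Kb] (ℍ → ℂ) :=
  MvPolynomial.aeval fun d => jd d.1

/-- The algebra of holomorphic functions on the upper half plane. -/
def Hol : Subalgebra ℂ (ℍ → ℂ) where
  carrier := {f | MDiff f}
  mul_mem' := fun hf hg => hf.mul hg
  add_mem' := fun hf hg => hf.add hg
  algebraMap_mem' := fun c => by
    show MDiff (fun _ : ℍ => c)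
    exact mdifferentiable_const

/-- Precomposition of a function on `ℍ` with the action of `g⁻¹`. -/
def compInv (g : SL(2, ℤ)) (f : ℍ → ℂ) : ℍ → ℂ := fun τ => f (g⁻¹ • τ)

/-- The point `(Aτ + B)/D` of the upper half plane. -/
def affH (A D : ℕ) [NeZero A] [NeZero D] (B : ℤ) (τ : ℍ) : ℍ :=
  ⟨((A : ℂ) * τ + B) / D, by
    have hA : (0 : ℝ) < A := by exact_mod_cast Nat.pos_of_ne_zero (NeZero.ne A)
    have hD : (0 : ℝ) < D := by exact_mod_cast Nat.pos_of_ne_zero (NeZero.ne D)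
    have : (((A : ℂ) * (τ : ℂ) + B) / D).im = A * τ.im / D := by
      rw [Complex.div_natCast_im]; simp
    rw [this]; exact div_pos (mul_pos hA τ.im_pos) hD⟩

/-- The local parameter `exp(2πiτ/h)` at the cusp `∞`. -/
def qh (h : ℕ) (τ : ℍ) : ℂ := Function.Periodic.qParam (h : ℝ) (τ : ℂ)

/-- The elliptic point `ρ = e^{2πi/3}`. -/
def rhoH : ℍ :=
  ⟨-1 / 2 + (Real.sqrt 3 / 2 : ℝ) * Complex.I, by
    simp⟩

end

end Fermat.Agent.S24
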