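import Fermat.Agent.S24.Hermite
import Fermat.Agent.S24.QDict
import Fermat.Agent.S24.Gen

set_option autoImplicit false

open AlgebraicCurve ModularCurve UpperHalfPlane KaehlerDifferential Filter Topology
open scoped MatrixGroups IntermediateField Manifold

namespace Fermat.Agent.S24

noncomputable section

namespace Embeddings

/-- precomposition with `g⁻¹` as an algebra homomorphism -/
def compInvHom (g : SL(2, ℤ)) : (ℍ → ℂ) →ₐ[ℂ] (ℍ → ℂ) where
  toFun := compInv g
  map_one' := rfl
  map_mul' _ _ := rfl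
  map_zero' := rfl
  map_add' _ _ := rfl
  commutes' _ := rfl

theorem compInv_injective (g : SL(2, ℤ)) : Function.Injective (compInv g) := by
  intro f₁ f₂ h
  funext τ
  have := congrFun h (g • τ)
  simpa [compInv] using this

variable (N : ℕ) [NeZero N]

/-- evaluation at the translated functions, with values in `dom` -/
def theta (dom : Subalgebra ℂ (ℍ → ℂ))
    (hmem : ∀ (g : SL(2, ℤ)) (d : Dv N), compInv g (jd d.1) ∈ dom) (g : SL(2, ℤ)) :
    MvPolynomial (Dv N) Kb →ₐ[Kb] dom :=
  MvPolynomial.aeval fun d => ⟨compInv g (jd d.1), hmem g d⟩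

theorem theta_coe (dom : Subalgebra ℂ (ℍ → ℂ))
    (hmem : ∀ (g : SL(2, ℤ)) (d : Dv N), compInv g (jd d.1) ∈ dom) (g : SL(2, ℤ))
    (p : MvPolynomial (Dv N) Kb) :
    ((theta N dom hmem g p : dom) : ℍ → ℂ) = compInv g (phiH N p) := by
  have h : ((dom.val.restrictScalars Kb).comp (theta N dom hmem g)) =
      ((compInvHom g).restrictScalars Kb).comp (phiH N) := by
    apply MvPolynomial.algHom_ext
    intro d
    simp only [theta, phiH, AlgHom.comp_apply, MvPolynomial.aeval_X, AlgHom.restrictScalars_apply,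
      Subalgebra.coe_val]
    rfl
  exact DFunLike.congr_fun h p

theorem isScalarTower_Kb_laurent :
    @IsScalarTower Kb ℂ (LaurentSeries ℂ) _ Algebra.toSMul Algebra.toSMul := by
  refine IsScalarTower.of_algebraMap_eq (R := Kb) (S := ℂ) (A := LaurentSeries ℂ) fun x => ?_
  rw [HahnSeries.algebraMap_apply', HahnSeries.algebraMap_apply']
  congr 1
  exact IsScalarTower.algebraMap_apply Kb ℂ (PowerSeries ℂ) x

end Embeddings

open Embeddings

variable (N : ℕ) [NeZero N]

theorem exists_sigma (dom : Subalgebra ℂ (ℍ → ℂ)) (L : dom →ₐ[ℂ] LaurentSeries ℂ)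
    (hL : Function.Injective L)
    (hmem : ∀ (g : SL(2, ℤ)) (d : Dv N), compInv g (jd d.1) ∈ dom) :
    ∃ σ : XN N → FN N →ₐ[Kb] LaurentSeries ℂ, Function.Injective σ ∧
      ∀ (g : SL(2, ℤ)) (d : Dv N),
        σ (g : XN N) (jF N d.1 d.2) = L ⟨compInv g (jd d.1), hmem g d⟩ := by
  have := isScalarTower_Kb_laurent
  -- the polynomial-level maps
  let ψ : SL(2, ℤ) → MvPolynomial (Dv N) Kb →ₐ[Kb] LaurentSeries ℂ := fun g =>
    (L.restrictScalars Kb).comp (theta N dom hmem g)
  have hψ : ∀ g p, ψ g p = 0 ↔ phiF N p = 0 := by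
    intro g p
    rw [phiF_eq_zero_iff]
    constructor
    · intro h
      have h1 : theta N dom hmem g p = 0 := hL (by simpa [ψ] using h)
      have h2 : compInv g (phiH N p) = 0 := by
        rw [← theta_coe N dom hmem g p, h1]
        rfl
      exact compInv_injective g (by rw [h2]; rfl)
    · intro h
      have h1 : theta N dom hmem g p = 0 := by
        apply Subtype.ext
        rw [theta_coe, h]
        rfl
      simp [ψ, h1]
  choose s hs using fun g => exists_lift_FN N (ψ g) (hψ g)
  have hsj : ∀ g (d : Dv N), s g (jF N d.1 d.2) = L ⟨compInv g (jd d.1), hmem g d⟩ := by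
    intro g d
    have h1 : phiF N (MvPolynomial.X d) = jF N d.1 d.2 := by simp [phiF]
    rw [← h1, hs]
    simp [ψ, theta]
  have hinv : ∀ (g γ : SL(2, ℤ)), γ ∈ CongruenceSubgroup.Gamma0 N → ∀ d : Dv N,
      compInv (g * γ) (jd d.1) = compInv g (jd d.1) := by
    intro g γ hγ d
    funext τ
    simp only [compInv, mul_inv_rev, mul_smul]
    exact jd_smul_of_mem_Gamma0 N d.1 d.2 γ⁻¹ (inv_mem hγ) _
  have hσ : ∀ (g : SL(2, ℤ)) (d : Dv N),
      s (Quotient.out (g : XN N)) (jF N d.1 d.2) = L ⟨compInv g (jd d.1), hmem g d⟩ := by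
    intro g d
    obtain ⟨γ, hγ⟩ := QuotientGroup.mk_out_eq_mul (CongruenceSubgroup.Gamma0 N) g
    rw [hsj]
    have h1 : (⟨compInv (Quotient.out (g : XN N)) (jd d.1), hmem _ d⟩ : dom) =
        ⟨compInv g (jd d.1), hmem g d⟩ := Subtype.ext (by rw [hγ]; exact hinv g γ γ.2 d)
    rw [h1]
  refine ⟨fun x => s (Quotient.out x), ?_, hσ⟩
  intro x y hxy
  induction x using QuotientGroup.induction_on with
  | H g =>
  induction y using QuotientGroup.induction_on with
  | H h =>
  have h1 := DFunLike.congr_fun hxy (jF N N dvd_rfl)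
  simp only at h1
  rw [hσ g ⟨N, dvd_rfl⟩, hσ h ⟨N, dvd_rfl⟩] at h1
  have h2 : compInv g (jd N) = compInv h (jd N) := congrArg Subtype.val (hL h1)
  rw [QuotientGroup.eq]
  have h3 : h⁻¹ * g ∈ CongruenceSubgroup.Gamma0 N := by
    apply mem_Gamma0_of_jd_smul N
    intro τ
    have := congrFun h2 (g • τ)
    simp only [compInv, inv_smul_smul] at this
    rw [mul_smul, ← this]
  have := inv_mem h3
  simpa using this

end

end Fermat.Agent.S24
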