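import Mathlib

set_option autoImplicit false

/-!
# Scott's lemma / Ree's theorem for permutations, and the parity of the "genus"

For a finite nonempty set `X` and two permutations `s t` generating a transitive group,
`card X + 2 = #orb(s) + #orb(t) + #orb(s * t) + 2 * g` for some natural number `g`.
-/

namespace Fermat.Agent.S24.Scott

open Module Equiv

section LinAlg

variable {K V W U : Type*} [Field K] [AddCommGroup V] [Module K V] [AddCommGroup W] [Module K W]
  [AddCommGroup U] [Module K U]

theorem finrank_ker_comp_le [FiniteDimensional K V] [FiniteDimensional K W]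
    (f : V →ₗ[K] W) (g : W →ₗ[K] U) :
    finrank K (LinearMap.ker (g ∘ₗ f)) ≤
      finrank K (LinearMap.ker f) + finrank K (LinearMap.ker g) := by
  let h : LinearMap.ker (g ∘ₗ f) →ₗ[K] W := f.domRestrict (LinearMap.ker (g ∘ₗ f))
  have h1 := h.finrank_range_add_finrank_ker
  have h2 : finrank K (LinearMap.range h) ≤ finrank K (LinearMap.ker g) := by
    apply Submodule.finrank_mono
    rintro _ ⟨⟨x, hx⟩, rfl⟩
    exact hx
  have h3 : finrank K (LinearMap.ker h) ≤ finrank K (LinearMap.ker f) := by
    let j : LinearMap.ker h →ₗ[K] LinearMap.ker f :=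
      LinearMap.codRestrict (LinearMap.ker f)
        ((Submodule.subtype _) ∘ₗ (Submodule.subtype (LinearMap.ker h)))
        (fun x => x.2)
    apply LinearMap.finrank_le_finrank_of_injective (f := j)
    intro x y hxy
    have := congrArg Subtype.val hxy
    exact Subtype.ext (Subtype.ext this)
  omega

end LinAlg

section Perm

variable {X : Type*}

/-- number of cycles (including fixed points) of a permutation. -/
noncomputable def orb (σ : Perm X) : ℕ := Nat.card (Quotient (Perm.SameCycle.setoid σ))

/-- `f ↦ f - f ∘ σ` -/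
noncomputable def dl (σ : Perm X) : (X → ℚ) →ₗ[ℚ] (X → ℚ) :=
  LinearMap.id - LinearMap.funLeft ℚ ℚ σ

@[simp] theorem dl_apply (σ : Perm X) (f : X → ℚ) (x : X) : dl σ f x = f x - f (σ x) := rfl

theorem mem_ker_dl (σ : Perm X) (f : X → ℚ) :
    f ∈ LinearMap.ker (dl σ) ↔ ∀ x, f (σ x) = f x := by
  rw [LinearMap.mem_ker]
  constructor
  · intro h x
    have := congrFun h x
    simp only [dl_apply, Pi.zero_apply] at this
    linarith
  · intro h
    ext x
    simp [h x]

theorem apply_zpow_eq {σ : Perm X} {f : X → ℚ} (h : ∀ x, f (σ x) = f x) (k : ℤ) :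
    ∀ x, f ((σ ^ k) x) = f x := by
  induction k using Int.induction_on with
  | zero => intro x; simp
  | succ k ih =>
    intro x
    rw [zpow_add_one, Perm.mul_apply, ih, h]
  | pred k ih =>
    intro x
    rw [zpow_sub_one, Perm.mul_apply, ih, ← h (σ⁻¹ x)]
    simp

theorem finrank_ker_dl [Finite X] (σ : Perm X) : finrank ℚ (LinearMap.ker (dl σ)) = orb σ := by
  classical
  have := Fintype.ofFinite X
  let Q := Quotient (Perm.SameCycle.setoid σ)
  let π : X → Q := Quotient.mk _
  have hπ : Function.Surjective π := Quotient.mk_surjective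
  have hinj : Function.Injective (LinearMap.funLeft ℚ ℚ π) :=
    LinearMap.funLeft_injective_of_surjective ℚ ℚ π hπ
  have hr : LinearMap.range (LinearMap.funLeft ℚ ℚ π) = LinearMap.ker (dl σ) := by
    ext f
    rw [mem_ker_dl]
    constructor
    · rintro ⟨φ, rfl⟩ x
      simp only [LinearMap.funLeft_apply]
      congr 1
      apply Quotient.sound
      exact ⟨-1, by simp⟩
    · intro h
      refine ⟨Quotient.lift f ?_, ?_⟩
      · rintro a b ⟨k, rfl⟩
        exact (apply_zpow_eq h k a).symm
      · ext x
        rfl
  rw [← hr, LinearMap.finrank_range_of_inj hinj]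
  have : Fintype Q := Fintype.ofFinite Q
  rw [Module.finrank_fintype_fun_eq_card, orb, Nat.card_eq_fintype_card]

/-- induction principle: an equivalence relation preserved by the generators is total. -/
theorem rel_of_trans {s t : Perm X}
    (htrans : ∀ x y : X, ∃ g ∈ Subgroup.closure ({s, t} : Set (Perm X)), g x = y)
    (r : X → X → Prop) (hrefl : ∀ x, r x x) (hsymm : ∀ x y, r x y → r y x)
    (htr : ∀ x y z, r x y → r y z → r x z) (hs : ∀ x, r x (s x)) (ht : ∀ x, r x (t x))
    (x y : X) : r x y := by
  have key : ∀ g ∈ Subgroup.closure ({s, t} : Set (Perm X)), ∀ x, r x (g x) := by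
    intro g hg
    induction hg using Subgroup.closure_induction with
    | mem g hg =>
      rcases hg with rfl | rfl
      · exact hs
      · exact ht
    | one => exact hrefl
    | mul g h _ _ ihg ihh =>
      intro x
      rw [Perm.mul_apply]
      exact htr _ _ _ (ihh x) (ihg (h x))
    | inv g _ ih =>
      intro x
      have := ih (g⁻¹ x)
      have e : g (g⁻¹ x) = x := by simp
      rw [e] at this
      exact hsymm _ _ this
  obtain ⟨g, hg, rfl⟩ := htrans x y
  exact key g hg x

theorem ree_le [Finite X] [Nonempty X] (s t : Perm X)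
    (htrans : ∀ x y : X, ∃ g ∈ Subgroup.closure ({s, t} : Set (Perm X)), g x = y) :
    orb s + orb t + orb (s * t) ≤ Nat.card X + 2 := by
  classical
  have := Fintype.ofFinite X
  obtain ⟨x₀⟩ := ‹Nonempty X›
  let A := dl s
  let B := dl t
  let Rt : (X → ℚ) →ₗ[ℚ] (X → ℚ) := LinearMap.funLeft ℚ ℚ t
  let β : (X → ℚ) →ₗ[ℚ] (LinearMap.range A × LinearMap.range B) :=
    (A.rangeRestrict).prod (B.rangeRestrict)
  let δ : (LinearMap.range A × LinearMap.range B) →ₗ[ℚ] (X → ℚ) :=
    (Rt ∘ₗ (Submodule.subtype _)).coprod (Submodule.subtype _)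
  have hC : δ ∘ₗ β = dl (s * t) := by
    ext f x
    simp [δ, β, A, B, Rt, LinearMap.funLeft_apply]
  have hn : finrank ℚ (X → ℚ) = Nat.card X := by
    rw [Module.finrank_fintype_fun_eq_card, Nat.card_eq_fintype_card]
  have hA := A.finrank_range_add_finrank_ker
  have hB := B.finrank_range_add_finrank_ker
  have hδ := δ.finrank_range_add_finrank_ker
  rw [Module.finrank_prod] at hδ
  have hcomp := finrank_ker_comp_le β δ
  rw [hC, finrank_ker_dl] at hcomp
  rw [finrank_ker_dl, hn] at hA hB
  -- kernel of β
  have hβ : finrank ℚ (LinearMap.ker β) ≤ 1 := by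
    have hle : LinearMap.ker β ≤ Submodule.span ℚ {(fun _ => 1 : X → ℚ)} := by
      intro f hf
      rw [LinearMap.mem_ker] at hf
      have hf1 : A f = 0 := by
        have := congrArg (fun p => (p.1 : X → ℚ)) hf
        simpa [β] using this
      have hf2 : B f = 0 := by
        have := congrArg (fun p => (p.2 : X → ℚ)) hf
        simpa [β] using this
      have h1 := (mem_ker_dl s f).mp hf1
      have h2 := (mem_ker_dl t f).mp hf2
      have hconst : ∀ x y, f x = f y :=
        rel_of_trans htrans (fun x y => f x = f y) (fun _ => rfl) (fun _ _ h => h.symm)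
          (fun _ _ _ h h' => h.trans h') (fun x => (h1 x).symm) (fun x => (h2 x).symm)
      rw [Submodule.mem_span_singleton]
      refine ⟨f x₀, ?_⟩
      ext x
      simp [hconst x x₀]
    calc finrank ℚ (LinearMap.ker β) ≤ finrank ℚ (Submodule.span ℚ {(fun _ => 1 : X → ℚ)}) :=
          Submodule.finrank_mono hle
      _ ≤ 1 := by
          have := finrank_span_le_card (R := ℚ) ({(fun _ => 1 : X → ℚ)} : Set (X → ℚ))
          simpa using this
  -- range of δ
  have hU : Nat.card X ≤ finrank ℚ (LinearMap.range δ) + 1 := by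
    set U := LinearMap.range δ with hUdef
    have hBU : ∀ f, B f ∈ U := fun f => ⟨(0, ⟨B f, f, rfl⟩), by simp [δ]⟩
    have hAU : ∀ f, A f ∈ U := fun f =>
      ⟨(⟨A f, f, rfl⟩, ⟨B (A f), A f, rfl⟩), by
        ext x
        simp [δ, B, Rt, LinearMap.funLeft_apply]⟩
    have hsingle : ∀ (σ : Perm X) (x : X),
        (Pi.single x 1 : X → ℚ) - Pi.single (σ x) 1 = - dl σ (Pi.single (σ x) 1) := by
      intro σ x
      ext z
      simp only [Pi.sub_apply, Pi.neg_apply, dl_apply, Pi.single_apply]
      by_cases h : z = x
      · subst h; simp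
      · have : σ z ≠ σ x := fun h' => h (σ.injective h')
        simp [h, this]
    have hrel : ∀ x y, (Pi.single x 1 : X → ℚ) - Pi.single y 1 ∈ U :=
      rel_of_trans htrans (fun x y => (Pi.single x 1 : X → ℚ) - Pi.single y 1 ∈ U)
        (fun x => by simp)
        (fun x y h => by simpa using U.neg_mem h)
        (fun x y z h h' => by simpa using U.add_mem h h')
        (fun x => by rw [hsingle]; exact U.neg_mem (hAU _))
        (fun x => by rw [hsingle]; exact U.neg_mem (hBU _))
    have htop : (⊤ : Submodule ℚ (X → ℚ)) ≤ U ⊔ Submodule.span ℚ {(Pi.single x₀ 1 : X → ℚ)} := by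
      intro f _
      have hf : f = (∑ x, f x • ((Pi.single x 1 : X → ℚ) - Pi.single x₀ 1))
          + (∑ x, f x) • (Pi.single x₀ 1 : X → ℚ) := by
        conv_lhs => rw [pi_eq_sum_univ f]
        rw [Finset.sum_smul, ← Finset.sum_add_distrib]
        refine Finset.sum_congr rfl fun x _ => ?_
        rw [smul_sub, sub_add_cancel]
        ext z
        simp [Pi.single_apply, eq_comm]
      rw [hf]
      refine Submodule.add_mem_sup ?_ ?_
      · exact Submodule.sum_mem _ fun x _ => Submodule.smul_mem _ _ (hrel x x₀)
      · exact Submodule.smul_mem _ _ (Submodule.mem_span_singleton_self _)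
    have h1 : finrank ℚ (X → ℚ) ≤
        finrank ℚ ↥(U ⊔ Submodule.span ℚ {(Pi.single x₀ 1 : X → ℚ)}) := by
      rw [← finrank_top ℚ (X → ℚ)]
      exact Submodule.finrank_mono htop
    have h2 := Submodule.finrank_add_le_finrank_add_finrank U
      (Submodule.span ℚ {(Pi.single x₀ 1 : X → ℚ)})
    have h3 : finrank ℚ (Submodule.span ℚ {(Pi.single x₀ 1 : X → ℚ)}) ≤ 1 := by
      have := finrank_span_le_card (R := ℚ) ({(Pi.single x₀ 1 : X → ℚ)} : Set (X → ℚ))
      simpa using this
    rw [hn] at h1
    omega
  omega

theorem card_eq_card_range {A Q B : Type*} (π : A → Q) (hπ : Function.Surjective π) (F : A → B)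
    (h : ∀ a b, π a = π b ↔ F a = F b) : Nat.card Q = Nat.card (Set.range F) := by
  have hex : ∀ q : Q, ∃ a, π a = q := hπ
  choose sec hsec using hex
  refine Nat.card_congr (Equiv.ofBijective (fun q => ⟨F (sec q), sec q, rfl⟩) ⟨?_, ?_⟩)
  · intro q₁ q₂ h12
    have := (h _ _).mpr (congrArg Subtype.val h12)
    rw [hsec, hsec] at this
    exact this
  · rintro ⟨_, a, rfl⟩
    refine ⟨π a, Subtype.ext ?_⟩
    exact (h _ _).mp (hsec (π a))

theorem orb_add_card_support [Fintype X] [DecidableEq X] (σ : Perm X) :
    orb σ + σ.support.card = Fintype.card X + σ.cycleFactorsFinset.card := by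
  classical
  let F : X → Perm X ⊕ X := fun x => if σ x = x then Sum.inr x else Sum.inl (σ.cycleOf x)
  have hF : ∀ a b, (Quotient.mk (Perm.SameCycle.setoid σ) a = Quotient.mk _ b) ↔ F a = F b := by
    intro a b
    rw [Quotient.eq]
    show σ.SameCycle a b ↔ _
    constructor
    · intro h
      by_cases ha : σ a = a
      · have hb : σ b = b := h.apply_eq_self_iff.mp ha
        have : a = b := h.eq_of_left ha
        simp [F, this]
      · have hb : σ b ≠ b := fun hb => ha (h.apply_eq_self_iff.mpr hb)
        simp [F, ha, hb, h.cycleOf_eq]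
    · intro h
      by_cases ha : σ a = a
      · by_cases hb : σ b = b
        · simp only [F, ha, hb, if_true, Sum.inr.injEq] at h
          rw [h]
        · simp [F, ha, hb] at h
      · by_cases hb : σ b = b
        · simp [F, ha, hb] at h
        · simp only [F, ha, hb, if_false, Sum.inl.injEq] at h
          by_contra hn
          have h1 : σ.cycleOf a b = b := Perm.cycleOf_apply_of_not_sameCycle hn
          rw [h, Perm.cycleOf_apply_self] at h1
          exact hb h1
  have h1 := card_eq_card_range (Quotient.mk (Perm.SameCycle.setoid σ)) Quotient.mk_surjective F hF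
  have h2 : Set.range F =
      ↑(σ.cycleFactorsFinset.disjSum (Finset.univ.filter fun x => σ x = x)) := by
    ext z
    simp only [Set.mem_range, Finset.mem_coe]
    constructor
    · rintro ⟨x, rfl⟩
      by_cases hx : σ x = x
      · simp [F, hx]
      · simp only [F, hx, if_false, Finset.inl_mem_disjSum]
        exact Perm.cycleOf_mem_cycleFactorsFinset_iff.mpr (Perm.mem_support.mpr hx)
    · intro hz
      rcases z with c | x
      · rw [Finset.inl_mem_disjSum] at hz
        obtain ⟨x, hx, -⟩ := (Perm.mem_cycleFactorsFinset_iff.mp hz).1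
        have hxc : x ∈ c.support := Perm.mem_support.mpr hx
        have hxs : x ∈ σ.support := Perm.mem_cycleFactorsFinset_support_le hz hxc
        refine ⟨x, ?_⟩
        simp only [F, Perm.mem_support.mp hxs, if_false]
        rw [Perm.cycle_is_cycleOf hxc hz]
      · rw [Finset.inr_mem_disjSum] at hz
        refine ⟨x, ?_⟩
        simp only [Finset.mem_filter, Finset.mem_univ, true_and] at hz
        simp [F, hz]
  have h3 : (Finset.univ.filter fun x => σ x = x).card + σ.support.card = Fintype.card X := by
    have := Finset.card_filter_add_card_filter_not (s := (Finset.univ : Finset X))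
      (fun x => σ x = x)
    rw [Finset.card_univ] at this
    rw [← this]
    rfl
  unfold orb
  rw [h1, h2, Nat.card_coe_set_eq, Set.ncard_coe_finset, Finset.card_disjSum]
  omega

theorem sign_eq_neg_one_pow [Fintype X] [DecidableEq X] (σ : Perm X) :
    Perm.sign σ = (-1 : ℤˣ) ^ (Fintype.card X + orb σ) := by
  have h := orb_add_card_support σ
  rw [Perm.sign_of_cycleType, Perm.sum_cycleType]
  have hc : Multiset.card σ.cycleType = σ.cycleFactorsFinset.card := by
    simp [Perm.cycleType_def]
  rw [hc]
  have : Fintype.card X + orb σ + 2 * σ.support.card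
      = σ.support.card + σ.cycleFactorsFinset.card + 2 * Fintype.card X := by omega
  have h2 : ∀ a b : ℕ, (-1 : ℤˣ) ^ (a + 2 * b) = (-1) ^ a := by
    intro a b
    rw [pow_add, pow_mul]
    simp
  rw [← h2 (σ.support.card + σ.cycleFactorsFinset.card) (Fintype.card X), ← this, h2]

theorem parity [Finite X] (s t : Perm X) :
    Even (Nat.card X + orb s + orb t + orb (s * t)) := by
  classical
  have := Fintype.ofFinite X
  have h := Perm.sign_mul s t
  rw [sign_eq_neg_one_pow, sign_eq_neg_one_pow, sign_eq_neg_one_pow, ← pow_add] at h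
  rw [Nat.card_eq_fintype_card]
  set n := Fintype.card X
  by_contra hodd
  rw [Nat.not_even_iff_odd] at hodd
  rcases Nat.even_or_odd (n + orb (s * t)) with h1 | h1
  · have h2 : Odd (n + orb s + (n + orb t)) := by
      rcases h1 with ⟨a, ha⟩
      rcases hodd with ⟨b, hb⟩
      exact ⟨b + n - a, by omega⟩
    rw [h1.neg_one_pow, h2.neg_one_pow] at h
    exact absurd h (by decide)
  · have h2 : Even (n + orb s + (n + orb t)) := by
      rcases h1 with ⟨a, ha⟩
      rcases hodd with ⟨b, hb⟩
      exact ⟨b + n - a, by omega⟩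
    rw [h1.neg_one_pow, h2.neg_one_pow] at h
    exact absurd h (by decide)

/-- **Ree's theorem with parity** (Riemann–Hurwitz genus is a natural number). -/
theorem exists_genus_perm [Finite X] [Nonempty X] (s t : Perm X)
    (htrans : ∀ x y : X, ∃ g ∈ Subgroup.closure ({s, t} : Set (Perm X)), g x = y) :
    ∃ g : ℕ, Nat.card X + 2 = orb s + orb t + orb (s * t) + 2 * g := by
  have h1 := ree_le s t htrans
  obtain ⟨a, ha⟩ := parity s t
  exact ⟨a + 1 - (orb s + orb t + orb (s * t)), by omega⟩

end Perm

section Action

variable {G X : Type*} [Group G] [MulAction G X]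

theorem card_orbits_zpowers (a : G) :
    Nat.card (MulAction.orbitRel.Quotient (Subgroup.zpowers a) X)
      = orb (MulAction.toPerm a : Perm X) := by
  refine Nat.card_congr (Quotient.congrRight ?_)
  intro x y
  show x ∈ MulAction.orbit (Subgroup.zpowers a) y ↔ (MulAction.toPerm a : Perm X).SameCycle x y
  constructor
  · rintro ⟨⟨g, k, rfl⟩, rfl⟩
    refine ⟨-k, ?_⟩
    show ((MulAction.toPerm a : Perm X) ^ (-k)) (a ^ k • y) = y
    have : (MulAction.toPerm a : Perm X) ^ (-k) = MulAction.toPerm (a ^ (-k)) :=
      (map_zpow (MulAction.toPermHom G X) a (-k)).symm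
    rw [this, MulAction.toPerm_apply, smul_smul]
    simp
  · rintro ⟨k, rfl⟩
    refine ⟨⟨a ^ (-k), -k, rfl⟩, ?_⟩
    show a ^ (-k) • ((MulAction.toPerm a : Perm X) ^ k) x = x
    have : (MulAction.toPerm a : Perm X) ^ k = MulAction.toPerm (a ^ k) :=
      (map_zpow (MulAction.toPermHom G X) a k).symm
    rw [this, MulAction.toPerm_apply, smul_smul]
    simp

/-- **Ree's theorem with parity**, group action version. -/
theorem exists_genus [Finite X] [Nonempty X] (a b : G)
    (htrans : ∀ x y : X, ∃ g ∈ Subgroup.closure ({a, b} : Set G), g • x = y) :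
    ∃ g : ℕ, Nat.card X + 2 =
      Nat.card (MulAction.orbitRel.Quotient (Subgroup.zpowers a) X)
      + Nat.card (MulAction.orbitRel.Quotient (Subgroup.zpowers b) X)
      + Nat.card (MulAction.orbitRel.Quotient (Subgroup.zpowers (a * b)) X) + 2 * g := by
  rw [card_orbits_zpowers, card_orbits_zpowers, card_orbits_zpowers]
  have hmul : (MulAction.toPerm (a * b) : Perm X) = MulAction.toPerm a * MulAction.toPerm b :=
    map_mul (MulAction.toPermHom G X) a b
  rw [hmul]
  apply exists_genus_perm
  intro x y
  obtain ⟨g, hg, rfl⟩ := htrans x y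
  refine ⟨MulAction.toPermHom G X g, ?_, rfl⟩
  have : (Subgroup.closure ({a, b} : Set G)).map (MulAction.toPermHom G X)
      = Subgroup.closure {(MulAction.toPerm a : Perm X), MulAction.toPerm b} := by
    rw [MonoidHom.map_closure, Set.image_pair]
    rfl
  rw [← this]
  exact Subgroup.mem_map_of_mem _ hg

/-- version with a generating pair of a transitively acting group. -/
theorem exists_genus_of_closure_eq_top [Finite X] [Nonempty X] [MulAction.IsPretransitive G X]
    (s t : G) (hgen : Subgroup.closure {s, t} = ⊤) :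
    ∃ g : ℕ, Nat.card X + 2 =
      Nat.card (MulAction.orbitRel.Quotient (Subgroup.zpowers s) X)
      + Nat.card (MulAction.orbitRel.Quotient (Subgroup.zpowers t) X)
      + Nat.card (MulAction.orbitRel.Quotient (Subgroup.zpowers (s * t)) X) + 2 * g := by
  apply exists_genus
  intro x y
  obtain ⟨g, hg⟩ := MulAction.exists_smul_eq G x y
  exact ⟨g, by rw [hgen]; exact Subgroup.mem_top g, hg⟩

end Action

end Fermat.Agent.S24.Scott
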