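import Fermat.Agent.S24.Defs
import Fermat.Agent.S24.Scott

set_option autoImplicit false

namespace Fermat.Agent.S24

theorem constellation_genus {G X : Type*} [Group G] [MulAction G X] [Finite X] [Nonempty X]
    [MulAction.IsPretransitive G X] (s t : G) (hgen : Subgroup.closure {s, t} = ⊤) :
    ∃ g : ℕ, Nat.card X + 2 = orbCount X s + orbCount X t + orbCount X (s * t) + 2 * g :=
  Scott.exists_genus_of_closure_eq_top s t hgen

end Fermat.Agent.S24
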