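import Fermat.Agent.S24.Defs
import Fermat.Agent.S24.FF.SumFormula
import Fermat.Agent.S24.FF.Avoid
import Fermat.Agent.S24.FF.Adjoin

set_option autoImplicit false

open AlgebraicCurve
open scoped IntermediateField IntermediateField.algebraAdjoinAdjoin

namespace Fermat.Agent.S24

namespace Counting

open FF hiding zeroPlaces ord_nonneg_of_isIntegral

section OrdPoly

variable {K F : Type*} [Field K] [Field F] [Algebra K F]

theorem aeval_mem (v : Place K F) {u : F} (hu : 0 ≤ v.ord u) (P : Polynomial K) :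
    Polynomial.aeval u P ∈ v.toValuationSubring := by
  induction P using Polynomial.induction_on' with
  | add p q hp hq => rw [map_add]; exact add_mem hp hq
  | monomial n a =>
    rw [Polynomial.aeval_monomial]
    exact mul_mem (v.algebraMap_mem' a) (pow_mem (mem_of_ord_nonneg v hu) n)

/-- If `P(0) ≠ 0` and `u` vanishes at `v` then `P(u)` is a unit at `v`. -/
theorem ord_aeval_of_coeff_zero_ne (v : Place K F) {u : F} (hu : 0 < v.ord u)
    (P : Polynomial K) (hP : P.coeff 0 ≠ 0) : v.ord (Polynomial.aeval u P) = 0 := by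
  have h := Polynomial.divX_mul_X_add P
  have h2 : Polynomial.aeval u P
      = algebraMap K F (P.coeff 0) + Polynomial.aeval u P.divX * u := by
    conv_lhs => rw [← h]
    simp [add_comm]
  have hc : algebraMap K F (P.coeff 0) ≠ 0 := by simpa using hP
  rw [h2]
  by_cases h0 : Polynomial.aeval u P.divX * u = 0
  · rw [h0, add_zero, ord_algebraMap]
  · have hne : Polynomial.aeval u P.divX ≠ 0 := left_ne_zero_of_mul h0
    have hune : u ≠ 0 := right_ne_zero_of_mul h0
    rw [ord_add_eq_of_lt v hc h0, ord_algebraMap]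
    rw [ord_algebraMap, v.ord_mul hne hune]
    have := ord_nonneg_of_mem v (aeval_mem v hu.le P.divX)
    omega

theorem ord_aeval (v : Place K F) {u : F} (hu : 0 < v.ord u)
    (P : Polynomial K) (hP : P ≠ 0) :
    v.ord (Polynomial.aeval u P) = (P.rootMultiplicity 0 : ℤ) * v.ord u := by
  obtain ⟨Q, hQ, hQ'⟩ := Polynomial.exists_eq_pow_rootMultiplicity_mul_and_not_dvd P hP 0
  have hune : u ≠ 0 := ne_zero_of_ord_ne_zero v hu.ne'
  have hQ0 : Q.coeff 0 ≠ 0 := by
    intro h
    apply hQ'
    rw [map_zero, sub_zero]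
    exact Polynomial.X_dvd_iff.mpr h
  have h1 := ord_aeval_of_coeff_zero_ne v hu Q hQ0
  have hQne : Polynomial.aeval u Q ≠ 0 := by
    intro h
    -- `Q(u) = Q(0) + u * (...)` cannot vanish
    have h' := Polynomial.divX_mul_X_add Q
    have h2 : Polynomial.aeval u Q
        = algebraMap K F (Q.coeff 0) + Polynomial.aeval u Q.divX * u := by
      conv_lhs => rw [← h']
      simp [add_comm]
    rw [h] at h2
    have hc : algebraMap K F (Q.coeff 0) ≠ 0 := by simpa using hQ0
    have h3 : Polynomial.aeval u Q.divX * u = - algebraMap K F (Q.coeff 0) := by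
      linear_combination -h2
    have h4 : v.ord (Polynomial.aeval u Q.divX * u) = 0 := by
      rw [h3, ord_neg, ord_algebraMap]
    have hne : Polynomial.aeval u Q.divX ≠ 0 := by
      intro h5; rw [h5, zero_mul] at h3; exact hc (neg_eq_zero.mp h3.symm)
    rw [v.ord_mul hne hune] at h4
    have := ord_nonneg_of_mem v (aeval_mem v hu.le Q.divX)
    omega
  conv_lhs => rw [hQ]
  rw [map_mul, map_pow, map_zero, sub_zero, Polynomial.aeval_X,
    v.ord_mul (pow_ne_zero _ hune) hQne, ord_pow, h1, add_zero]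

/-- Two places at which `u` vanishes induce proportional valuations on `K(u)`. -/
theorem ord_mul_ord_eq (v v' : Place K F) {u : F} (hu : 0 < v.ord u) (hu' : 0 < v'.ord u)
    (htr : Transcendental K u) {r : F} (hr : r ∈ K⟮u⟯) :
    v.ord r * v'.ord u = v'.ord r * v.ord u := by
  obtain ⟨P, Q, rfl⟩ := IntermediateField.mem_adjoin_simple_iff K r |>.mp hr
  by_cases hP : P = 0
  · simp [hP]
  by_cases hQ : Q = 0
  · simp [hQ]
  have hP' : Polynomial.aeval u P ≠ 0 := fun h => hP ((transcendental_iff.mp htr) P h)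
  have hQ' : Polynomial.aeval u Q ≠ 0 := fun h => hQ ((transcendental_iff.mp htr) Q h)
  rw [ord_div v hP' hQ', ord_div v' hP' hQ', ord_aeval v hu P hP, ord_aeval v hu Q hQ,
    ord_aeval v' hu' P hP, ord_aeval v' hu' Q hQ]
  ring

end OrdPoly

section Norm

variable {K F : Type*} [Field K] [Field F] [Algebra K F]

theorem ord_nonneg_of_isIntegral (v : Place K F) {u : F} (hu : 0 ≤ v.ord u) {f : F}
    (hf : IsIntegral (Algebra.adjoin K {u}) f) : 0 ≤ v.ord f := by
  have hle : ∀ a ∈ Algebra.adjoin K {u}, a ∈ v.toValuationSubring := by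
    intro a ha
    rw [Algebra.adjoin_singleton_eq_range_aeval] at ha
    obtain ⟨P, rfl⟩ := ha
    exact aeval_mem v hu P
  let φ : Algebra.adjoin K {u} →+* v.toValuationSubring :=
    { toFun := fun a => ⟨a, hle a a.2⟩
      map_one' := rfl
      map_mul' := fun _ _ => rfl
      map_zero' := rfl
      map_add' := fun _ _ => rfl }
  have h := IsIntegral.map_of_comp_eq φ (RingHom.id F) (by ext; rfl) hf
  obtain ⟨y, hy⟩ := IsIntegrallyClosed.isIntegral_iff.mp h
  have : f = (y : F) := hy.symm
  rw [this]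
  exact ord_nonneg_of_mem v y.2

theorem ord_norm_pos (v : Place K F) {u : F} (hu : 0 ≤ v.ord u) [FiniteDimensional K⟮u⟯ F]
    [Algebra.IsSeparable K⟮u⟯ F] {f : F}
    (hf : IsIntegral (Algebra.adjoin K {u}) f) (hfv : 0 < v.ord f) :
    0 < v.ord ((Algebra.norm K⟮u⟯ f : K⟮u⟯) : F) := by
  classical
  have hf0 : f ≠ 0 := ne_zero_of_ord_ne_zero v hfv.ne'
  let Ω := AlgebraicClosure F
  have hN := Algebra.norm_eq_prod_embeddings K⟮u⟯ Ω f
  let τ₀ : F →ₐ[K⟮u⟯] Ω := IsScalarTower.toAlgHom K⟮u⟯ F Ω
  rw [← Finset.mul_prod_erase Finset.univ _ (Finset.mem_univ τ₀)] at hN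
  set g' : Ω := ∏ τ ∈ Finset.univ.erase τ₀, τ f with hg'
  have hg'int : IsIntegral (Algebra.adjoin K {u}) g' := by
    refine IsIntegral.prod _ fun τ _ => ?_
    exact hf.map (τ.restrictScalars (Algebra.adjoin K {u}))
  set n : F := ((Algebra.norm K⟮u⟯ f : K⟮u⟯) : F) with hn
  have h1 : algebraMap F Ω n = algebraMap F Ω f * g' := by
    have : τ₀ f = algebraMap F Ω f := rfl
    rw [← this, ← hN]; rfl
  have h2 : g' = algebraMap F Ω (n / f) := by
    rw [map_div₀, h1, mul_div_cancel_left₀]
    simpa using hf0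
  have h3 : IsIntegral (Algebra.adjoin K {u}) (n / f) := by
    rw [h2] at hg'int
    exact (isIntegral_algebraMap_iff (algebraMap F Ω).injective).mp hg'int
  have h4 := ord_nonneg_of_isIntegral v hu h3
  have hn0 : n ≠ 0 := by
    have : Algebra.norm K⟮u⟯ f ≠ 0 := Algebra.norm_ne_zero_iff.mpr hf0
    simpa [hn] using this
  rw [ord_div v hn0 hf0] at h4
  omega

end Norm

section Prod

variable {K F : Type*} [Field K] [Field F] [Algebra K F]

theorem sigma_eq_on_adjoin {M : Type*} [Field M] [Algebra K M] {u : F} (σ τ : F →ₐ[K] M)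
    (h : σ u = τ u) (r : K⟮u⟯) : σ (r : F) = τ (r : F) := by
  have : σ.comp (K⟮u⟯).val = τ.comp (K⟮u⟯).val := by
    apply IntermediateField.adjoin_algHom_ext
    intro x hx
    rw [Set.mem_singleton_iff] at hx
    subst hx
    exact h
  exact DFunLike.congr_fun this r

theorem sigma_norm_eq_prod {M : Type*} [Field M] [Algebra K M] (u : F)
    [FiniteDimensional K⟮u⟯ F] [Algebra.IsSeparable K⟮u⟯ F]
    {X : Type*} [Fintype X] (σ : X → F →ₐ[K] M) (hσ : Function.Injective σ)
    (hcard : Fintype.card X = Module.finrank K⟮u⟯ F)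
    (hσu : ∀ a b, σ a u = σ b u) (a₀ : X) (f : F) :
    σ a₀ ((Algebra.norm K⟮u⟯ f : K⟮u⟯) : F) = ∏ a, σ a f := by
  classical
  let Ω := AlgebraicClosure M
  letI : Algebra K⟮u⟯ Ω :=
    ((algebraMap M Ω).comp ((σ a₀).toRingHom.comp (algebraMap K⟮u⟯ F))).toAlgebra
  let σ' : X → F →ₐ[K⟮u⟯] Ω := fun a =>
    { toRingHom := (algebraMap M Ω).comp (σ a).toRingHom
      commutes' := fun r => by
        show algebraMap M Ω (σ a (r : F)) = algebraMap M Ω (σ a₀ (r : F))
        rw [sigma_eq_on_adjoin (σ a) (σ a₀) (hσu a a₀) r] }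
  have hσ'inj : Function.Injective σ' := by
    intro a b hab
    apply hσ
    ext x
    have := DFunLike.congr_fun hab x
    exact (algebraMap M Ω).injective this
  have hbij : Function.Bijective σ' := by
    rw [Fintype.bijective_iff_injective_and_card]
    exact ⟨hσ'inj, by rw [hcard, AlgHom.card]⟩
  have hN := Algebra.norm_eq_prod_embeddings K⟮u⟯ Ω f
  rw [← Fintype.prod_bijective σ' hbij (fun a => σ' a f) (fun τ => τ f) (fun _ => rfl)] at hN
  apply (algebraMap M Ω).injective
  rw [map_prod]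
  exact hN

end Prod

section Comb

theorem card_eq_of_sums {Q Z : Type*} [Fintype Q] [Fintype Z] (p : Q → Z)
    (hp : Function.Surjective p) (s : Q → ℕ) (e : Z → ℕ) (hs : ∀ q, e (p q) ≤ s q)
    (he : ∀ z, 0 < e z) (hsum : ∑ q, s q = ∑ z, e z) : Fintype.card Z = Fintype.card Q := by
  classical
  have h1 : ∑ q, e (p q) = ∑ z, (Finset.univ.filter fun q => p q = z).card • e z := by
    have := Finset.sum_comp (s := (Finset.univ : Finset Q)) e p
    rw [this]
    have himg : (Finset.univ : Finset Q).image p = Finset.univ := by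
      ext z; simpa using hp z
    rw [himg]
  have h2 : ∀ z, e z ≤ (Finset.univ.filter fun q => p q = z).card • e z := by
    intro z
    obtain ⟨q, hq⟩ := hp z
    have : 0 < (Finset.univ.filter fun q => p q = z).card :=
      Finset.card_pos.mpr ⟨q, by simp [hq]⟩
    rw [smul_eq_mul]
    exact Nat.le_mul_of_pos_left _ this
  have h3 : ∑ q, e (p q) ≤ ∑ q, s q := Finset.sum_le_sum fun q _ => hs q
  have h4 : ∑ z, e z ≤ ∑ z, (Finset.univ.filter fun q => p q = z).card • e z :=
    Finset.sum_le_sum fun z _ => h2 z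
  have h5 : ∑ z, e z = ∑ z, (Finset.univ.filter fun q => p q = z).card • e z := by
    apply le_antisymm h4
    rw [← h1, ← hsum]; exact h3
  have h6 := (Finset.sum_eq_sum_iff_of_le fun z _ => h2 z).mp h5
  have h7 : ∀ z, (Finset.univ.filter fun q => p q = z).card = 1 := by
    intro z
    have := h6 z (Finset.mem_univ z)
    rw [smul_eq_mul] at this
    have hz := he z
    nlinarith
  have h8 := Finset.card_eq_sum_card_fiberwise (f := p) (s := Finset.univ) (t := Finset.univ)
    (fun _ _ => Finset.mem_coe.mpr (Finset.mem_univ _))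
  rw [Finset.card_univ] at h8
  rw [h8]
  simp [h7]

end Comb

section Orbit

open MulAction

theorem exists_period {G X : Type*} [Group G] [MulAction G X] [Fintype X] (γ : G) (a : X)
    [DecidableEq (orbitRel.Quotient (Subgroup.zpowers γ) X)] :
    ∃ m : ℕ, 0 < m ∧ γ ^ m • a = a ∧
      m = (Finset.univ.filter fun b : X =>
        (Quotient.mk'' b : orbitRel.Quotient (Subgroup.zpowers γ) X) = Quotient.mk'' a).card := by
  classical
  refine ⟨Function.minimalPeriod (γ • ·) a, ?_, ?_, ?_⟩
  · exact Nat.pos_of_ne_zero (NeZero.ne _)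
  · exact pow_smul_eq_iff_minimalPeriod_dvd.mpr dvd_rfl
  · rw [minimalPeriod_eq_card, ← Set.toFinset_card]
    congr 1
    ext b
    simp only [Set.mem_toFinset, Finset.mem_filter, Finset.mem_univ, true_and]
    rw [Quotient.eq'']
    exact (orbitRel_apply).symm

end Orbit

section Hahn

theorem order_eq_of_coeff {x y : LaurentSeries ℂ} {ζ : ℂ} (hζ : ζ ≠ 0)
    (h : ∀ k, y.coeff k = ζ ^ k * x.coeff k) : y.order = x.order := by
  by_cases hx : x = 0
  · have : y = 0 := by ext k; simp [h, hx]
    rw [hx, this]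
  have hy : y ≠ 0 := by
    intro hy
    apply hx
    ext k
    have := h k
    rw [hy] at this
    have h2 : ζ ^ k * x.coeff k = 0 := by simpa using this.symm
    simpa using (mul_eq_zero.mp h2).resolve_left (zpow_ne_zero _ hζ)
  apply le_antisymm
  · apply HahnSeries.order_le_of_coeff_ne_zero
    rw [h]
    exact mul_ne_zero (zpow_ne_zero _ hζ) (HahnSeries.coeff_order_eq_zero.not.mpr hx)
  · apply HahnSeries.order_le_of_coeff_ne_zero
    intro h0
    have := h y.order
    rw [h0, mul_zero] at this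
    exact HahnSeries.coeff_order_eq_zero.not.mpr hy this

theorem order_prod_eq_zero {ι : Type*} (s : Finset ι) (f : ι → LaurentSeries ℂ)
    (hf : ∀ i ∈ s, f i ≠ 0) (h0 : ∀ i ∈ s, (f i).order = 0) : (∏ i ∈ s, f i).order = 0 := by
  classical
  induction s using Finset.induction_on with
  | empty => simp
  | insert a s ha ih =>
    rw [Finset.prod_insert ha, HahnSeries.order_mul (hf a (Finset.mem_insert_self a s))
      (Finset.prod_ne_zero_iff.mpr fun i hi => hf i (Finset.mem_insert_of_mem hi)),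
      h0 a (Finset.mem_insert_self a s),
      ih (fun i hi => hf i (Finset.mem_insert_of_mem hi))
        (fun i hi => h0 i (Finset.mem_insert_of_mem hi)), add_zero]

end Hahn

section Core

variable {K F : Type*} [Field K] [IsAlgClosed K] [CharZero K] [Field F] [Algebra K F]
  [Algebra K ℂ]

theorem card_zeroPlaces_core (u : F) (hu : Transcendental K u) [FiniteDimensional K⟮u⟯ F]
    {G X : Type*} [Group G] [MulAction G X] [Finite X]
    (σ : X → F →ₐ[K] LaurentSeries ℂ) (hσ : Function.Injective σ)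
    (hcard : Nat.card X = Module.finrank K⟮u⟯ F)
    (hσu : ∀ a b, σ a u = σ b u)
    (E₀ : ℕ) (hE₀ : 0 < E₀) (hord : ∀ a, (σ a u).order = (E₀ : ℤ))
    (ζ : ℂ) (hζ : IsPrimitiveRoot ζ E₀) (γ₀ : G)
    (hΘ : ∀ a f (k : ℤ), (σ (γ₀ • a) f).coeff k = ζ ^ k * (σ a f).coeff k) :
    Nat.card (zeroPlaces K u) = orbCount X γ₀ := by
  classical
  have : Fintype X := Fintype.ofFinite X
  have hζ0 : ζ ≠ 0 := hζ.ne_zero hE₀.ne'
  have hu0 : u ≠ 0 := by
    rintro rfl
    exact hu (isAlgebraic_zero)
  have hσne : ∀ a (f : F), f ≠ 0 → σ a f ≠ 0 := fun a f hf =>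
    (map_ne_zero_iff _ (σ a).toRingHom.injective).mpr hf
  -- the places attached to the embeddings
  have hex : ∀ a, ∃ (v : Place K F) (c : ℕ), 0 < c ∧
      ∀ f, f ≠ 0 → (σ a f).order = c * v.ord f := by
    intro a
    refine exists_place_of_ordFun (fun f => (σ a f).order) ?_ ?_ ?_ ?_
    · intro f g hf hg
      show (σ a (f * g)).order = _
      rw [map_mul, HahnSeries.order_mul (hσne a f hf) (hσne a g hg)]
    · intro f g hf hg hfg
      show _ ≤ (σ a (f + g)).order
      rw [map_add]
      apply HahnSeries.min_order_le_order_add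
      rw [← map_add]
      exact hσne a _ hfg
    · intro c _
      show (σ a (algebraMap K F c)).order = 0
      have h : algebraMap K (LaurentSeries ℂ) c = HahnSeries.C (algebraMap K ℂ c) := by
        rw [HahnSeries.algebraMap_apply', PowerSeries.algebraMap_apply,
          HahnSeries.ofPowerSeries_C]
      rw [AlgHom.commutes, h, HahnSeries.order_C]
    · exact ⟨u, hu0, by show (σ a u).order ≠ 0; rw [hord]; exact_mod_cast hE₀.ne'⟩
  choose v c hc hv using hex
  have hcZ : ∀ a, (0 : ℤ) < c a := fun a => by exact_mod_cast hc a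
  have hvu : ∀ a, (c a : ℤ) * (v a).ord u = E₀ := fun a => by rw [← hv a u hu0, hord]
  have hvupos : ∀ a, 0 < (v a).ord u := by
    intro a
    have h1 := hvu a
    have h2 := hcZ a
    have h3 : (0 : ℤ) < E₀ := by exact_mod_cast hE₀
    by_contra hneg
    rw [not_lt] at hneg
    nlinarith
  -- invariance under `γ₀`
  have hvγ : ∀ a, v (γ₀ • a) = v a := by
    intro a
    apply eq_of_forall_ord_nonneg
    intro f hf
    by_cases hf0 : f = 0
    · rw [hf0]; simp [Place.ord]
    have h1 := hv (γ₀ • a) f hf0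
    have h2 := hv a f hf0
    rw [order_eq_of_coeff hζ0 (hΘ a f), h2] at h1
    have h3 := hcZ a
    have h4 := hcZ (γ₀ • a)
    by_contra hneg
    rw [not_le] at hneg
    nlinarith
  have hvz : ∀ (n : ℤ) (a : X), v (γ₀ ^ n • a) = v a := by
    intro n
    induction n using Int.induction_on with
    | zero => intro a; simp
    | succ n ih => intro a; rw [zpow_add_one, mul_smul, ih, hvγ]
    | pred n ih =>
      intro a
      rw [zpow_sub_one, mul_smul, ih]
      conv_rhs => rw [← smul_inv_smul γ₀ a]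
      rw [hvγ]
  have hΘpow : ∀ (m : ℕ) a f (k : ℤ),
      (σ (γ₀ ^ m • a) f).coeff k = (ζ ^ k) ^ m * (σ a f).coeff k := by
    intro m
    induction m with
    | zero => intro a f k; simp
    | succ m ih =>
      intro a f k
      rw [pow_succ', mul_smul, hΘ, ih, pow_succ']
      ring
  -- a period of `a` is a multiple of the ramification index
  have hper : ∀ (a : X) (m : ℕ), 0 < m → γ₀ ^ m • a = a → (v a).ord u ≤ m := by
    intro a m hm hma
    obtain ⟨π, hπ⟩ := exists_ord_eq_one (v a)
    have hπ0 : π ≠ 0 := ne_zero_of_ord_ne_zero (v a) (by rw [hπ]; exact one_ne_zero)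
    have h1 : (σ a π).order = c a := by rw [hv a π hπ0, hπ, mul_one]
    have h2 := hΘpow m a π (c a)
    rw [hma] at h2
    have h3 : (σ a π).coeff (c a) ≠ 0 := by
      rw [← h1]; exact HahnSeries.coeff_order_eq_zero.not.mpr (hσne a π hπ0)
    have h4 : (ζ ^ (c a : ℤ)) ^ m = 1 := by
      have : ((ζ ^ (c a : ℤ)) ^ m - 1) * (σ a π).coeff (c a) = 0 := by
        rw [sub_mul, one_mul, ← h2, sub_self]
      have := (mul_eq_zero.mp this).resolve_right h3
      exact sub_eq_zero.mp this
    rw [zpow_natCast, ← pow_mul] at h4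
    have h5 : E₀ ∣ c a * m := hζ.dvd_of_pow_eq_one _ h4
    obtain ⟨e, he⟩ : ∃ e : ℕ, (v a).ord u = e := ⟨((v a).ord u).toNat, by
      rw [Int.toNat_of_nonneg (hvupos a).le]⟩
    have h6 : c a * e = E₀ := by
      have := hvu a
      rw [he] at this
      exact_mod_cast this
    rw [← h6] at h5
    have h7 : e ∣ m := Nat.dvd_of_mul_dvd_mul_left (hc a) h5
    rw [he]
    exact_mod_cast Nat.le_of_dvd hm h7
  -- every zero of `u` comes from an embedding
  have hXne : Nonempty X := by
    have : 0 < Nat.card X := by rw [hcard]; exact Module.finrank_pos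
    exact (Nat.card_pos_iff.mp this).1
  obtain ⟨a₀⟩ := hXne
  have hsurj : ∀ v' : Place K F, 0 < v'.ord u → ∃ a, v a = v' := by
    intro v' hv'
    by_contra hno
    rw [not_exists] at hno
    obtain ⟨f, hfint, hfv', hfs⟩ := exists_integral_avoid K u hu v' hv' (Finset.univ.image v)
      (by
        intro hmem
        obtain ⟨a, -, ha⟩ := Finset.mem_image.mp hmem
        exact hno a ha)
      (by
        intro w hw
        obtain ⟨a, -, rfl⟩ := Finset.mem_image.mp hw
        exact hvupos a)
    have hf0 : f ≠ 0 := ne_zero_of_ord_ne_zero v' hfv'.ne'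
    have h1 : ∀ a, (σ a f).order = 0 := fun a => by
      rw [hv a f hf0, hfs (v a) (Finset.mem_image_of_mem v (Finset.mem_univ a)), mul_zero]
    have h2 := sigma_norm_eq_prod u σ hσ (by rw [← hcard, Nat.card_eq_fintype_card]) hσu a₀ f
    have h3 : (σ a₀ ((Algebra.norm K⟮u⟯ f : K⟮u⟯) : F)).order = 0 := by
      rw [h2]; exact order_prod_eq_zero _ _ (fun a _ => hσne a f hf0) (fun a _ => h1 a)
    have hN := ord_norm_pos v' hv'.le hfint hfv'
    have hN0 : ((Algebra.norm K⟮u⟯ f : K⟮u⟯) : F) ≠ 0 := ne_zero_of_ord_ne_zero v' hN.ne'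
    rw [hv a₀ _ hN0] at h3
    have h4 : (v a₀).ord ((Algebra.norm K⟮u⟯ f : K⟮u⟯) : F) = 0 := by
      rcases mul_eq_zero.mp h3 with h | h
      · exact absurd h (hcZ a₀).ne'
      · exact h
    have h5 := ord_mul_ord_eq v' (v a₀) hv' (hvupos a₀) hu (Algebra.norm K⟮u⟯ f).2
    rw [h4, zero_mul] at h5
    rcases mul_eq_zero.mp h5 with h | h
    · exact hN.ne' h
    · exact (hvupos a₀).ne' h
  -- counting
  have hZfin : (zeroPlaces K u).Finite := zeroPlaces_finite K u hu
  have hZsum : ∑ w ∈ hZfin.toFinset, w.ord u = (Module.finrank K⟮u⟯ F : ℤ) :=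
    sum_ord_zeroPlaces K u hu
  have : Fintype (zeroPlaces K u) := hZfin.fintype
  have : Fintype (MulAction.orbitRel.Quotient (Subgroup.zpowers γ₀) X) := Fintype.ofFinite _
  let p : MulAction.orbitRel.Quotient (Subgroup.zpowers γ₀) X → zeroPlaces K u :=
    Quotient.lift (fun a => (⟨v a, hvupos a⟩ : zeroPlaces K u)) (by
      intro a b hab
      have hab' : a ∈ MulAction.orbit (Subgroup.zpowers γ₀) b := MulAction.orbitRel_apply.mp hab
      obtain ⟨⟨g, n, rfl⟩, hg⟩ := hab'
      apply Subtype.ext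
      show v a = v b
      rw [← hg]
      exact hvz n b)
  have hp : Function.Surjective p := by
    rintro ⟨v', hv'⟩
    obtain ⟨a, ha⟩ := hsurj v' hv'
    exact ⟨Quotient.mk'' a, Subtype.ext ha⟩
  have key := card_eq_of_sums p hp
    (fun q => (Finset.univ.filter fun b : X =>
      (Quotient.mk'' b : MulAction.orbitRel.Quotient (Subgroup.zpowers γ₀) X) = q).card)
    (fun z => (z.1.ord u).toNat) ?_ ?_ ?_
  · rw [orbCount, Nat.card_eq_fintype_card, Nat.card_eq_fintype_card, key]
  · intro q
    induction q using Quotient.inductionOn' with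
    | h a =>
      obtain ⟨m, hm, hma, hmc⟩ := exists_period γ₀ a
      have := hper a m hm hma
      show ((v a).ord u).toNat ≤ _
      rw [← hmc]
      omega
  · intro z
    have : 0 < z.1.ord u := z.2
    show 0 < (z.1.ord u).toNat
    omega
  · have h1 := Finset.card_eq_sum_card_fiberwise
      (f := fun b : X => (Quotient.mk'' b : MulAction.orbitRel.Quotient (Subgroup.zpowers γ₀) X))
      (s := Finset.univ) (t := Finset.univ)
      (fun _ _ => Finset.mem_coe.mpr (Finset.mem_univ _))
    rw [← h1, Finset.card_univ, ← Nat.card_eq_fintype_card, hcard]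
    have h2 : ((∑ z : zeroPlaces K u, (z.1.ord u).toNat : ℕ) : ℤ)
        = (Module.finrank K⟮u⟯ F : ℤ) := by
      rw [← hZsum, Nat.cast_sum,
        Finset.sum_subtype hZfin.toFinset (p := fun w => w ∈ zeroPlaces K u)
          (fun w => hZfin.mem_toFinset) (fun w => w.ord u)]
      refine Finset.sum_congr rfl fun z _ => ?_
      have : 0 < z.1.ord u := z.2
      exact Int.toNat_of_nonneg this.le
    exact_mod_cast h2.symm

end Core

end Counting

section Package

variable {K F : Type*} [Field K] [IsAlgClosed K] [CharZero K] [Field F] [Algebra K F]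
  [Algebra K ℂ]

theorem card_zeroPlaces_of_package (x u : F) (hx : Transcendental K x)
    [FiniteDimensional K⟮x⟯ F] (hux : K⟮u⟯ = K⟮x⟯)
    {G X : Type*} [Group G] [MulAction G X] [Finite X]
    (σ : X → F →ₐ[K] LaurentSeries ℂ) (hσ : Function.Injective σ)
    (hcard : Nat.card X = Module.finrank K⟮x⟯ F)
    (hσx : ∀ a b, σ a x = σ b x)
    (E₀ : ℕ) (hE₀ : 0 < E₀) (hord : ∀ a, (σ a u).order = (E₀ : ℤ))
    (ζ : ℂ) (hζ : IsPrimitiveRoot ζ E₀) (γ₀ : G)
    (hΘ : ∀ a f (k : ℤ), (σ (γ₀ • a) f).coeff k = ζ ^ k * (σ a f).coeff k) :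
    Nat.card (zeroPlaces K u) = orbCount X γ₀ := by
  have hu : Transcendental K u := by
    intro halg
    apply hx
    have h1 : Algebra.IsAlgebraic K K⟮u⟯ :=
      IntermediateField.isAlgebraic_adjoin_simple halg.isIntegral
    have hxmem : x ∈ K⟮u⟯ := by rw [hux]; exact IntermediateField.mem_adjoin_simple_self K x
    have h2 : IsAlgebraic K (⟨x, hxmem⟩ : K⟮u⟯) := Algebra.IsAlgebraic.isAlgebraic _
    exact (IntermediateField.isAlgebraic_iff).mp h2
  have : FiniteDimensional K⟮u⟯ F := FF.finiteDimensional_congr K hux.symm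
  have humem : u ∈ K⟮x⟯ := by rw [← hux]; exact IntermediateField.mem_adjoin_simple_self K u
  exact Counting.card_zeroPlaces_core u hu σ hσ (by rw [hcard, FF.finrank_congr K hux.symm])
    (fun a b => Counting.sigma_eq_on_adjoin (σ a) (σ b) (hσx a b) ⟨u, humem⟩)
    E₀ hE₀ hord ζ hζ γ₀ hΘ

end Package

end Fermat.Agent.S24
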