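/-
Orbit counts for elements acting with prime order: `ℓ * #orbits = n + (ℓ - 1) * #Fix`.
-/
import Fermat.Agent.S24.Defs

set_option autoImplicit false

namespace Fermat.Agent.S24

open MulAction

section

variable {G X : Type*} [Group G] [MulAction G X]

lemma card_orbit_zpowers [Finite X] (a : G) (x : X) :
    Nat.card (orbit (Subgroup.zpowers a) x) = Function.minimalPeriod (a • ·) x := by
  classical
  have : Fintype (orbit (Subgroup.zpowers a) x) := Fintype.ofFinite _
  rw [Nat.card_eq_fintype_card, MulAction.minimalPeriod_eq_card]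

open scoped Classical in
lemma minimalPeriod_smul_of_prime {ℓ : ℕ} (hℓ : ℓ.Prime) (a : G)
    (ha : ∀ x : X, (a ^ ℓ) • x = x) (x : X) :
    Function.minimalPeriod (a • ·) x = if a • x = x then 1 else ℓ := by
  have hper : Function.IsPeriodicPt (a • ·) ℓ x := by
    rw [Function.IsPeriodicPt, Function.IsFixedPt, smul_iterate_apply]
    exact ha x
  have hdvd := hper.minimalPeriod_dvd
  split_ifs with hx
  · exact Function.minimalPeriod_eq_one_iff_isFixedPt.2 hx
  · rcases (Nat.dvd_prime hℓ).1 hdvd with h | h
    · exact absurd (Function.minimalPeriod_eq_one_iff_isFixedPt.1 h) hx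
    · exact h

/-- If `a ^ ℓ` acts trivially (`ℓ` prime), then `ℓ * #orbits = n + (ℓ - 1) * #Fix`. -/
theorem prime_mul_card_orbits [Finite X] {ℓ : ℕ} (hℓ : ℓ.Prime) (a : G)
    (ha : ∀ x : X, (a ^ ℓ) • x = x) :
    ℓ * orbCount X a = Nat.card X + (ℓ - 1) * Nat.card (MulAction.fixedBy X a) := by
  classical
  have : Fintype X := Fintype.ofFinite _
  set Ω := MulAction.orbitRel.Quotient (Subgroup.zpowers a) X with hΩ
  have : Fintype Ω := Fintype.ofFinite _
  -- size of each orbit
  have hsize : ∀ ω : Ω, Nat.card ω.orbit = 1 ∨ Nat.card ω.orbit = ℓ := by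
    intro ω
    induction ω using Quotient.inductionOn' with
    | h x =>
      rw [MulAction.orbitRel.Quotient.orbit_mk, card_orbit_zpowers,
        minimalPeriod_smul_of_prime hℓ a ha]
      split_ifs
      · exact Or.inl rfl
      · exact Or.inr rfl
  -- fixed points correspond to orbits of size one
  have hfix : Nat.card (MulAction.fixedBy X a) = Nat.card {ω : Ω // Nat.card ω.orbit = 1} := by
    refine Nat.card_congr (Equiv.ofBijective
      (fun x => ⟨(Quotient.mk'' x.1 : Ω), ?_⟩) ⟨?_, ?_⟩)
    · rw [MulAction.orbitRel.Quotient.orbit_mk, card_orbit_zpowers,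
        minimalPeriod_smul_of_prime hℓ a ha, if_pos (show a • x.1 = x.1 from x.2)]
    · rintro ⟨x, hx⟩ ⟨y, hy⟩ hxy
      have h1 : (Quotient.mk'' x : Ω) = Quotient.mk'' y := congrArg Subtype.val hxy
      have h2 : x ∈ orbit (Subgroup.zpowers a) y := by
        have := Quotient.exact' h1
        rwa [MulAction.orbitRel_apply] at this
      obtain ⟨⟨g, hg⟩, rfl⟩ := h2
      obtain ⟨k, rfl⟩ := Subgroup.mem_zpowers_iff.1 hg
      apply Subtype.ext
      show (a ^ k) • y = y
      exact MulAction.zpow_smul_eq_iff_minimalPeriod_dvd.2 (by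
        rw [Function.minimalPeriod_eq_one_iff_isFixedPt.2 hy]; simp)
    · rintro ⟨ω, hω⟩
      induction ω using Quotient.inductionOn' with
      | h x =>
        rw [MulAction.orbitRel.Quotient.orbit_mk, card_orbit_zpowers] at hω
        exact ⟨⟨x, Function.minimalPeriod_eq_one_iff_isFixedPt.1 hω⟩, rfl⟩
  have hX : Nat.card X = ∑ ω : Ω, Nat.card ω.orbit := by
    rw [Nat.card_congr (MulAction.selfEquivSigmaOrbits' (Subgroup.zpowers a) X), Nat.card_sigma]
  have hsum : ∑ ω : Ω, Nat.card ω.orbit + (ℓ - 1) * Nat.card {ω : Ω // Nat.card ω.orbit = 1}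
      = ∑ _ω : Ω, ℓ := by
    rw [Nat.card_eq_fintype_card, Fintype.card_subtype, Finset.card_filter, Finset.mul_sum,
      ← Finset.sum_add_distrib]
    refine Finset.sum_congr rfl fun ω _ => ?_
    have hℓ1 := hℓ.one_lt
    rcases hsize ω with h | h
    · rw [if_pos h, h]; omega
    · rw [if_neg (by omega), h]; omega
  rw [hX, hfix, hsum, Finset.sum_const, Finset.card_univ, smul_eq_mul, orbCount,
    Nat.card_eq_fintype_card, mul_comm]

theorem two_mul_card_orbits [Finite X]
    (s : G) (hs : ∀ x : X, (s * s) • x = x) :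
    2 * orbCount X s = Nat.card X + Nat.card (MulAction.fixedBy X s) := by
  have := prime_mul_card_orbits (X := X) Nat.prime_two s (fun x => by rw [pow_two]; exact hs x)
  simpa using this

theorem three_mul_card_orbits [Finite X]
    (u : G) (hu : ∀ x : X, (u * u * u) • x = x) :
    3 * orbCount X u = Nat.card X + 2 * Nat.card (MulAction.fixedBy X u) := by
  have := prime_mul_card_orbits (X := X) Nat.prime_three u
    (fun x => by rw [pow_succ, pow_two]; exact hu x)
  simpa using this

end

end Fermat.Agent.S24
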