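import Fermat.Agent.S24.Defs

set_option autoImplicit false

open AlgebraicCurve ModularCurve UpperHalfPlane KaehlerDifferential Filter Topology
open scoped MatrixGroups IntermediateField Manifold

namespace Fermat.Agent.S24

noncomputable section

namespace Laurent

open Function

/-- holomorphic, `h`-periodic and bounded at `i∞`. -/
structure NB (h : ℝ) (F : ℍ → ℂ) : Prop where
  hol : MDiff F
  per : Periodic (F ∘ ofComplex) (h : ℂ)
  bdd : IsBoundedAtImInfty F

section aux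

variable {h : ℝ}

theorem NB.analytic {F : ℍ → ℂ} (hh : 0 < h) (hF : NB h F) :
    AnalyticAt ℂ (cuspFunction h F) 0 :=
  analyticAt_cuspFunction_zero hh hF.per hF.hol hF.bdd

theorem NB.mul {F G : ℍ → ℂ} (hF : NB h F) (hG : NB h G) : NB h (F * G) :=
  ⟨hF.hol.mul hG.hol, hF.per.mul hG.per, hF.bdd.mul hG.bdd⟩

theorem NB.add {F G : ℍ → ℂ} (hF : NB h F) (hG : NB h G) : NB h (F + G) :=
  ⟨hF.hol.add hG.hol, hF.per.add hG.per, hF.bdd.add hG.bdd⟩

theorem NB.const (c : ℂ) : NB h (fun _ => c) :=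
  ⟨mdifferentiable_const, fun _ => rfl, Filter.const_boundedAtFilter _ c⟩

theorem NB.one : NB h (1 : ℍ → ℂ) := NB.const 1

theorem NB.pow {F : ℍ → ℂ} (hF : NB h F) (n : ℕ) : NB h (F ^ n) := by
  induction n with
  | zero => simpa using NB.one
  | succ n ih => rw [pow_succ]; exact ih.mul hF

/-- the parameter as a function on `ℍ` for a real period. -/
def qq (h : ℝ) : ℍ → ℂ := fun τ => Periodic.qParam h (τ : ℂ)

theorem qq_ne_zero (τ : ℍ) : qq h τ ≠ 0 := Periodic.qParam_ne_zero _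

theorem mdiff_qq : MDiff (qq h) := by
  rw [UpperHalfPlane.mdifferentiable_iff]
  refine (Periodic.differentiable_qParam (h := h)).differentiableOn.congr ?_
  intro z hz
  simp only [Function.comp_apply, qq, ofComplex_apply_of_im_pos hz, coe_mk]

theorem periodic_of_vadd {F : ℍ → ℂ} (hF : ∀ τ : ℍ, F (h +ᵥ τ) = F τ) :
    Periodic (F ∘ ofComplex) (h : ℂ) := by
  intro w
  by_cases hw : 0 < w.im
  · have hw' : 0 < (w + h).im := by simpa using hw
    simp only [Function.comp_apply, ofComplex_apply_of_im_pos hw', ofComplex_apply_of_im_pos hw]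
    rw [← hF ⟨w, hw⟩]
    congr 1
    ext
    simp [add_comm]
  · have hw' : (w + h).im ≤ 0 := by simpa using hw
    simp only [Function.comp_apply, ofComplex_apply_of_im_nonpos hw',
      ofComplex_apply_of_im_nonpos (not_lt.mp hw)]

theorem vadd_of_periodic {F : ℍ → ℂ} (hF : Periodic (F ∘ ofComplex) (h : ℂ)) (τ : ℍ) :
    F (h +ᵥ τ) = F τ := by
  have := hF (τ : ℂ)
  simp only [Function.comp_apply, ofComplex_apply] at this
  rw [← this]
  congr 1
  have h1 : ((τ : ℂ) + h) = ((h +ᵥ τ : ℍ) : ℂ) := by simp [add_comm]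
  rw [h1, ofComplex_apply]

theorem qq_vadd (hh : h ≠ 0) (τ : ℍ) : qq h (h +ᵥ τ) = qq h τ := by
  simp only [qq, coe_vadd]
  simp only [Periodic.qParam]
  rw [show 2 * (Real.pi : ℂ) * Complex.I * ((h : ℂ) + τ) / h
    = 2 * Real.pi * Complex.I * τ / h + 2 * Real.pi * Complex.I by
      have : (h : ℂ) ≠ 0 := by exact_mod_cast hh
      field_simp
      ring]
  exact Complex.exp_periodic _

theorem NB_qq (hh : 0 < h) : NB h (qq h) :=
  ⟨mdiff_qq, periodic_of_vadd (qq_vadd hh.ne'),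
    (qParam_tendsto_atImInfty hh).isBigO_one ℝ⟩

theorem coeff_unique {f : ℍ → ℂ} {c : ℕ → ℂ} (hh : 0 < h)
    (hfa : AnalyticAt ℂ (cuspFunction h f) 0)
    (hf : ∀ τ : ℍ, HasSum (fun m => c m • Periodic.qParam h (τ : ℂ) ^ m) (f τ)) (m : ℕ) :
    c m = (qExpansion h f).coeff m := by
  let _ : FunLike (ℍ → ℂ) ℍ ℂ := ⟨fun f => f, fun _ _ h => h⟩
  exact qExpansion_coeff_unique (F := ℍ → ℂ) f hh hfa hf m

theorem qExpansion_qq (hh : 0 < h) : qExpansion h (qq h) = PowerSeries.X := by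
  ext m
  rw [← coeff_unique (c := fun m => if m = 1 then 1 else 0) hh
    ((NB_qq hh).analytic hh) ?_ m, PowerSeries.coeff_X]
  intro τ
  have := hasSum_ite_eq (1 : ℕ) (qq h τ)
  convert this using 2 with n
  by_cases hn : n = 1
  · subst hn; simp [qq]
  · simp [hn]

/-- the candidate Laurent expansion computed with pole order bound `m`. -/
def Lm (h : ℝ) (f : ℍ → ℂ) (m : ℕ) : LaurentSeries ℂ :=
  HahnSeries.single (-(m : ℤ)) 1 * HahnSeries.ofPowerSeries ℤ ℂ (qExpansion h (f * qq h ^ m))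

theorem NB.mul_pow {f : ℍ → ℂ} {m : ℕ} (hh : 0 < h) (hF : NB h (f * qq h ^ m)) (n : ℕ) :
    NB h (f * qq h ^ (m + n)) := by
  rw [pow_add, ← mul_assoc]
  exact hF.mul ((NB_qq hh).pow n)

theorem Lm_succ {f : ℍ → ℂ} {m : ℕ} (hh : 0 < h) (hF : NB h (f * qq h ^ m)) :
    Lm h f (m + 1) = Lm h f m := by
  unfold Lm
  rw [pow_succ, ← mul_assoc, qExpansion_mul (hF.analytic hh) ((NB_qq hh).analytic hh),
    qExpansion_qq hh, map_mul, HahnSeries.ofPowerSeries_X, mul_comm _ (HahnSeries.single 1 1),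
    ← mul_assoc, HahnSeries.single_mul_single,
    show (-((m + 1 : ℕ) : ℤ) + 1) = -(m : ℤ) by push_cast; ring, mul_one]

theorem Lm_add_nat {f : ℍ → ℂ} {m : ℕ} (hh : 0 < h) (hF : NB h (f * qq h ^ m)) (n : ℕ) :
    Lm h f (m + n) = Lm h f m := by
  induction n with
  | zero => rfl
  | succ n ih => rw [← add_assoc, Lm_succ hh (hF.mul_pow hh n), ih]

theorem Lm_eq {f : ℍ → ℂ} {m n : ℕ} (hh : 0 < h) (hm : NB h (f * qq h ^ m))
    (hn : NB h (f * qq h ^ n)) : Lm h f m = Lm h f n := by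
  rcases le_total m n with hmn | hmn
  · obtain ⟨d, rfl⟩ := Nat.exists_eq_add_of_le hmn
    exact (Lm_add_nat hh hm d).symm
  · obtain ⟨d, rfl⟩ := Nat.exists_eq_add_of_le hmn
    exact Lm_add_nat hh hn d

theorem Lm_add {f g : ℍ → ℂ} {m : ℕ} (hh : 0 < h) (hf : NB h (f * qq h ^ m))
    (hg : NB h (g * qq h ^ m)) : Lm h (f + g) m = Lm h f m + Lm h g m := by
  unfold Lm
  rw [add_mul, qExpansion_add (hf.analytic hh) (hg.analytic hh), map_add, mul_add]

theorem Lm_mul {f g : ℍ → ℂ} {m n : ℕ} (hh : 0 < h) (hf : NB h (f * qq h ^ m))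
    (hg : NB h (g * qq h ^ n)) : Lm h (f * g) (m + n) = Lm h f m * Lm h g n := by
  unfold Lm
  rw [show f * g * qq h ^ (m + n) = (f * qq h ^ m) * (g * qq h ^ n) by rw [pow_add]; ring,
    qExpansion_mul (hf.analytic hh) (hg.analytic hh), map_mul,
    show (-((m + n : ℕ) : ℤ)) = -(m : ℤ) + -(n : ℤ) by push_cast; ring,
    show (1 : ℂ) = 1 * 1 by simp, ← HahnSeries.single_mul_single]
  simp only [mul_one]
  ring

theorem Lm_zero_eq (f : ℍ → ℂ) :
    Lm h f 0 = HahnSeries.ofPowerSeries ℤ ℂ (qExpansion h f) := by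
  unfold Lm
  simp

theorem qExpansion_const (c : ℂ) : qExpansion h (fun _ : ℍ => c) = PowerSeries.C c := by
  have h1 : (fun _ : ℍ => c) = c • (1 : ℍ → ℂ) := by
    funext τ; simp
  have h2 : AnalyticAt ℂ (cuspFunction h (1 : ℍ → ℂ)) 0 := by
    have : cuspFunction h (1 : ℍ → ℂ) = 1 := by
      ext q
      rcases eq_or_ne q 0 with rfl | hq
      · simpa [cuspFunction, Periodic.cuspFunction] using! tendsto_const_nhds.limUnder_eq
      · simp [cuspFunction, Periodic.cuspFunction_eq_of_nonzero h _ hq]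
    rw [this]
    exact analyticAt_const
  rw [h1, qExpansion_smul h2, qExpansion_one]
  ext n
  simp [PowerSeries.coeff_C, PowerSeries.coeff_one]

theorem Lm_injective {f : ℍ → ℂ} {m : ℕ} (hh : 0 < h) (hf : NB h (f * qq h ^ m))
    (h0 : Lm h f m = 0) : f = 0 := by
  unfold Lm at h0
  rcases mul_eq_zero.mp h0 with h1 | h1
  · exact absurd h1 (by simp)
  · have h2 : qExpansion h (f * qq h ^ m) = 0 :=
      HahnSeries.ofPowerSeries_injective (by rw [h1, map_zero])
    have h3 := (qExpansion_eq_zero_iff hh hf.per hf.hol hf.bdd).mp h2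
    funext τ
    have h4 := congrFun h3 τ
    simp only [Pi.mul_apply, Pi.pow_apply, Pi.zero_apply, mul_eq_zero] at h4
    rcases h4 with h4 | h4
    · exact h4
    · exact absurd h4 (pow_ne_zero _ (qq_ne_zero τ))

end aux

theorem hpos (h : ℕ) [NeZero h] : (0 : ℝ) < (h : ℝ) := by
  exact_mod_cast Nat.pos_of_ne_zero (NeZero.ne h)

theorem bdd_qh_pow (h : ℕ) [NeZero h] (k : ℕ) :
    IsBoundedAtImInfty (fun τ => qh h τ ^ k) :=
  ((NB_qq (hpos h)).pow k).bdd

end Laurent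

open Laurent

/-- Holomorphic, `h`-periodic functions on `ℍ` which are meromorphic at `i∞`. -/
def HolCusp (h : ℕ) [NeZero h] : Subalgebra ℂ (ℍ → ℂ) where
  carrier := {f | MDiff f ∧ Function.Periodic (f ∘ ofComplex) ((h : ℝ) : ℂ) ∧
    ∃ m : ℕ, IsBoundedAtImInfty (fun τ => f τ * qh h τ ^ m)}
  mul_mem' := by
    rintro f g ⟨hf1, hf2, m, hm⟩ ⟨hg1, hg2, n, hn⟩
    refine ⟨hf1.mul hg1, hf2.mul hg2, m + n, ?_⟩
    have := hm.mul hn
    have he : (fun τ => (f * g) τ * qh h τ ^ (m + n))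
        = (fun τ => f τ * qh h τ ^ m) * fun τ => g τ * qh h τ ^ n := by
      funext τ
      simp only [Pi.mul_apply, pow_add]
      ring
    rw [he]
    exact this
  add_mem' := by
    rintro f g ⟨hf1, hf2, m, hm⟩ ⟨hg1, hg2, n, hn⟩
    refine ⟨hf1.add hg1, hf2.add hg2, m + n, ?_⟩
    have := (hm.mul (bdd_qh_pow h n)).add (hn.mul (bdd_qh_pow h m))
    have he : (fun τ => (f + g) τ * qh h τ ^ (m + n))
        = ((fun τ => f τ * qh h τ ^ m) * fun τ => qh h τ ^ n)
          + (fun τ => g τ * qh h τ ^ n) * fun τ => qh h τ ^ m := by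
      funext τ
      simp only [Pi.mul_apply, Pi.add_apply, pow_add]
      ring
    rw [he]
    exact this
  algebraMap_mem' := fun c =>
    ⟨mdifferentiable_const, fun _ => rfl, 0, by
      have he : (fun τ : ℍ => (algebraMap ℂ (ℍ → ℂ) c) τ * qh h τ ^ 0) = fun _ => c := by
        funext τ
        simp
      rw [he]
      exact Filter.const_boundedAtFilter atImInfty c⟩

variable (h : ℕ) [NeZero h]

namespace Laurent

variable {h}

theorem NB_of_bdd {f : ℍ → ℂ} (hf : f ∈ HolCusp h) {m : ℕ}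
    (hm : IsBoundedAtImInfty (fun τ => f τ * qh h τ ^ m)) : NB (h : ℝ) (f * qq (h : ℝ) ^ m) :=
  ⟨hf.1.mul (mdiff_qq.pow m), hf.2.1.mul ((NB_qq (hpos h)).pow m).per, hm⟩

theorem exists_NB (f : HolCusp h) : ∃ m : ℕ, NB (h : ℝ) ((f : ℍ → ℂ) * qq (h : ℝ) ^ m) := by
  obtain ⟨m, hm⟩ := f.2.2.2
  exact ⟨m, NB_of_bdd f.2 hm⟩

/-- the underlying function of `laurent`. -/
def laurentFun (f : HolCusp h) : LaurentSeries ℂ :=
  Lm (h : ℝ) (f : ℍ → ℂ) (Classical.choose (exists_NB f))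

theorem laurentFun_eq (f : HolCusp h) {m : ℕ} (hm : NB (h : ℝ) ((f : ℍ → ℂ) * qq (h : ℝ) ^ m)) :
    laurentFun f = Lm (h : ℝ) (f : ℍ → ℂ) m :=
  Lm_eq (hpos h) (Classical.choose_spec (exists_NB f)) hm

theorem laurentFun_algebraMap (c : ℂ) :
    laurentFun (algebraMap ℂ (HolCusp h) c) = algebraMap ℂ (LaurentSeries ℂ) c := by
  have h0 : NB (h : ℝ) (((algebraMap ℂ (HolCusp h) c : HolCusp h) : ℍ → ℂ) * qq (h : ℝ) ^ 0) := by
    rw [pow_zero, mul_one]
    exact NB.const c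
  rw [laurentFun_eq _ h0, Lm_zero_eq]
  have : ((algebraMap ℂ (HolCusp h) c : HolCusp h) : ℍ → ℂ) = fun _ => c := rfl
  rw [this, qExpansion_const]
  rfl

theorem laurentFun_add (f g : HolCusp h) :
    laurentFun (f + g) = laurentFun f + laurentFun g := by
  obtain ⟨m, hm⟩ := exists_NB f
  obtain ⟨n, hn⟩ := exists_NB g
  have hm' := hm.mul_pow (hpos h) n
  have hn' := hn.mul_pow (hpos h) m
  rw [add_comm n m] at hn'
  have hfg : NB (h : ℝ) (((f + g : HolCusp h) : ℍ → ℂ) * qq (h : ℝ) ^ (m + n)) := by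
    have := hm'.add hn'
    rwa [← add_mul] at this
  rw [laurentFun_eq _ hfg, laurentFun_eq _ hm', laurentFun_eq _ hn']
  exact Lm_add (hpos h) hm' hn'

theorem laurentFun_mul (f g : HolCusp h) :
    laurentFun (f * g) = laurentFun f * laurentFun g := by
  obtain ⟨m, hm⟩ := exists_NB f
  obtain ⟨n, hn⟩ := exists_NB g
  have hfg : NB (h : ℝ) (((f * g : HolCusp h) : ℍ → ℂ) * qq (h : ℝ) ^ (m + n)) := by
    have := hm.mul hn
    rwa [show (f : ℍ → ℂ) * qq (h : ℝ) ^ m * ((g : ℍ → ℂ) * qq (h : ℝ) ^ n)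
      = (f : ℍ → ℂ) * (g : ℍ → ℂ) * qq (h : ℝ) ^ (m + n) by rw [pow_add]; ring] at this
  rw [laurentFun_eq _ hfg, laurentFun_eq _ hm, laurentFun_eq _ hn]
  exact Lm_mul (hpos h) hm hn

end Laurent

/-- The Laurent expansion in `t = exp(2πiτ/h)`. -/
def laurent : HolCusp h →ₐ[ℂ] LaurentSeries ℂ where
  toFun := laurentFun
  map_one' := by
    have := laurentFun_algebraMap (h := h) 1
    simpa using this
  map_mul' := laurentFun_mul
  map_zero' := by
    have := laurentFun_algebraMap (h := h) 0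
    simpa using this
  map_add' := laurentFun_add
  commutes' := laurentFun_algebraMap

theorem Laurent.laurent_eq (f : HolCusp h) {m : ℕ}
    (hm : NB (h : ℝ) ((f : ℍ → ℂ) * qq (h : ℝ) ^ m)) :
    laurent h f = Lm (h : ℝ) (f : ℍ → ℂ) m :=
  laurentFun_eq f hm

theorem laurent_injective : Function.Injective (laurent h) := by
  rw [injective_iff_map_eq_zero]
  intro f hf
  obtain ⟨m, hm⟩ := exists_NB f
  rw [laurent_eq h f hm] at hf
  exact Subtype.ext (Lm_injective (hpos h) hm hf)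

theorem laurent_of_bounded (f : HolCusp h) (hf : IsBoundedAtImInfty (f : ℍ → ℂ)) :
    laurent h f = HahnSeries.ofPowerSeries ℤ ℂ (qExpansion (h : ℝ) (f : ℍ → ℂ)) := by
  have h0 : NB (h : ℝ) ((f : ℍ → ℂ) * qq (h : ℝ) ^ 0) := by
    rw [pow_zero, mul_one]
    exact ⟨f.2.1, f.2.2.1, hf⟩
  rw [laurent_eq h f h0, Lm_zero_eq]


namespace Laurent

section aux2

variable {h : ℝ}

/-- the inverse of the parameter. -/
def qinv (h : ℝ) : ℍ → ℂ := fun τ => Function.Periodic.qParam h (-(τ : ℂ))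

theorem qq_mul_qinv (τ : ℍ) : qq h τ * qinv h τ = 1 := by
  simp only [qq, qinv, Function.Periodic.qParam, ← Complex.exp_add]
  rw [show 2 * (Real.pi : ℂ) * Complex.I * (τ : ℂ) / h + 2 * Real.pi * Complex.I * -(τ : ℂ) / h = 0
    by ring]
  exact Complex.exp_zero

theorem qinv_eq (τ : ℍ) : qinv h τ = (qq h τ)⁻¹ :=
  eq_inv_of_mul_eq_one_right (qq_mul_qinv τ)

theorem mdiff_qinv : MDiff (qinv h) := by
  rw [UpperHalfPlane.mdifferentiable_iff]
  have h1 : Differentiable ℂ (fun z : ℂ => Function.Periodic.qParam h (-z)) :=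
    (Function.Periodic.differentiable_qParam (h := h)).comp differentiable_neg
  refine h1.differentiableOn.congr ?_
  intro z hz
  simp only [Function.comp_apply, qinv, ofComplex_apply_of_im_pos hz, coe_mk]

theorem qinv_vadd (hh : h ≠ 0) (τ : ℍ) : qinv h (h +ᵥ τ) = qinv h τ := by
  rw [qinv_eq, qinv_eq, qq_vadd hh]

theorem mdiff_translate {f : ℍ → ℂ} (hf : MDiff f) (c : ℝ) :
    MDiff (fun τ : ℍ => f (c +ᵥ τ)) := by
  rw [UpperHalfPlane.mdifferentiable_iff] at hf ⊢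
  have h1 : DifferentiableOn ℂ ((f ∘ ofComplex) ∘ (fun z : ℂ => (c : ℂ) + z)) {z | 0 < z.im} := by
    apply hf.comp
    · exact (differentiable_id.const_add (c : ℂ)).differentiableOn
    · intro z hz
      simpa using hz
  refine h1.congr ?_
  intro z hz
  have hz' : 0 < ((c : ℂ) + z).im := by simpa using hz
  simp only [Function.comp_apply, ofComplex_apply_of_im_pos hz, ofComplex_apply_of_im_pos hz']
  congr 1

theorem tendsto_vadd (c : ℝ) : Tendsto (fun τ : ℍ => c +ᵥ τ) atImInfty atImInfty := by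
  rw [atImInfty, tendsto_comap_iff]
  have : (im ∘ fun τ : ℍ => c +ᵥ τ) = im := by
    funext τ
    simp
  rw [this]
  exact tendsto_comap

theorem qq_one_vadd (τ : ℍ) :
    qq h ((1 : ℝ) +ᵥ τ) = Complex.exp (2 * Real.pi * Complex.I / h) * qq h τ := by
  simp only [qq, coe_vadd, Function.Periodic.qParam, ← Complex.exp_add]
  congr 1
  push_cast
  ring

theorem NB.translate {F : ℍ → ℂ} (hF : NB h F) : NB h (fun τ => F ((1 : ℝ) +ᵥ τ)) := by
  refine ⟨mdiff_translate hF.hol 1, periodic_of_vadd fun τ => ?_, hF.bdd.comp_tendsto (tendsto_vadd 1)⟩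
  rw [vadd_comm]
  exact vadd_of_periodic hF.per _

theorem qExpansion_translate {F : ℍ → ℂ} (hh : 0 < h) (hF : NB h F) (n : ℕ) :
    (qExpansion h (fun τ => F ((1 : ℝ) +ᵥ τ))).coeff n
      = Complex.exp (2 * Real.pi * Complex.I / h) ^ n * (qExpansion h F).coeff n := by
  rw [← coeff_unique (c := fun n => Complex.exp (2 * Real.pi * Complex.I / h) ^ n
    * (qExpansion h F).coeff n) hh (hF.translate.analytic hh) ?_ n]
  intro τ
  have := hasSum_qExpansion hh hF.per hF.hol hF.bdd ((1 : ℝ) +ᵥ τ)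
  convert this using 2 with n
  have h1 := qq_one_vadd (h := h) τ
  simp only [qq] at h1
  rw [h1, mul_pow]
  simp only [smul_eq_mul]
  ring

end aux2

end Laurent

namespace Laurent

variable {h}

/-- the parameter as an element of `HolCusp h`. -/
def Tq (h : ℕ) [NeZero h] : HolCusp h :=
  ⟨qq (h : ℝ), mdiff_qq, (NB_qq (hpos h)).per, 0, by
    have he : (fun τ : ℍ => qq (h : ℝ) τ * qh h τ ^ 0) = qq (h : ℝ) := by
      funext τ
      simp
    rw [he]
    exact (NB_qq (hpos h)).bdd⟩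

/-- the inverse of the parameter as an element of `HolCusp h`. -/
def Uq (h : ℕ) [NeZero h] : HolCusp h :=
  ⟨qinv (h : ℝ), mdiff_qinv, periodic_of_vadd (qinv_vadd (hpos h).ne'), 1, by
    have he : (fun τ : ℍ => qinv (h : ℝ) τ * qh h τ ^ 1) = fun _ => 1 := by
      funext τ
      rw [pow_one, mul_comm]
      exact qq_mul_qinv τ
    rw [he]
    exact Filter.const_boundedAtFilter atImInfty 1⟩

theorem laurent_Tq : laurent h (Tq h) = HahnSeries.single 1 1 := by
  rw [laurent_of_bounded h (Tq h) (NB_qq (hpos h)).bdd]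
  show HahnSeries.ofPowerSeries ℤ ℂ (qExpansion (h : ℝ) (qq (h : ℝ))) = _
  rw [qExpansion_qq (hpos h), HahnSeries.ofPowerSeries_X]

theorem Tq_mul_Uq : Tq h * Uq h = 1 := by
  apply Subtype.ext
  funext τ
  exact qq_mul_qinv τ

theorem laurent_Uq : laurent h (Uq h) = HahnSeries.single (-1) 1 := by
  have h1 : laurent h (Tq h) * laurent h (Uq h) = 1 := by
    rw [← map_mul, Tq_mul_Uq, map_one]
  rw [laurent_Tq] at h1
  have h2 : (HahnSeries.single (1 : ℤ) (1 : ℂ)) * HahnSeries.single (-1) 1 = 1 := by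
    rw [HahnSeries.single_mul_single]
    simp
  have h3 : (HahnSeries.single (1 : ℤ) (1 : ℂ)) ≠ 0 := by simp
  exact mul_left_cancel₀ h3 (h1.trans h2.symm)

theorem order_of_tendsto (G : HolCusp h) {a : ℂ} (ha : a ≠ 0)
    (hG : Tendsto (G : ℍ → ℂ) atImInfty (𝓝 a)) :
    laurent h G ≠ 0 ∧ (laurent h G).order = 0 := by
  have hb : IsBoundedAtImInfty (G : ℍ → ℂ) := hG.isBigO_one ℝ
  have hNB : NB (h : ℝ) (G : ℍ → ℂ) := ⟨G.2.1, G.2.2.1, hb⟩
  have h0 : (laurent h G).coeff 0 = a := by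
    rw [laurent_of_bounded h G hb, PowerSeries.coeff_coe]
    simp only [lt_self_iff_false, if_false, Int.natAbs_zero]
    rw [qExpansion_coeff_zero (hpos h) (hNB.analytic (hpos h)) hNB.per]
    exact hG.limUnder_eq
  have hne : laurent h G ≠ 0 := by
    intro h1
    rw [h1] at h0
    exact ha (by simpa using h0.symm)
  refine ⟨hne, le_antisymm (HahnSeries.order_le_of_coeff_ne_zero (by rw [h0]; exact ha)) ?_⟩
  rw [HahnSeries.le_order_iff_forall hne]
  intro j hj
  rw [laurent_of_bounded h G hb, PowerSeries.coeff_coe, if_pos hj]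

end Laurent

theorem laurent_order_eq (f : HolCusp h) (k : ℤ) (a : ℂ) (ha : a ≠ 0)
    (hf : Tendsto (fun τ : ℍ => (f : ℍ → ℂ) τ * qh h τ ^ (-k)) atImInfty (𝓝 a)) :
    (laurent h f).order = k := by
  obtain ⟨n, rfl | rfl⟩ := k.eq_nat_or_neg
  · -- `k = n`
    have hG : Tendsto ((f * Uq h ^ n : HolCusp h) : ℍ → ℂ) atImInfty (𝓝 a) := by
      refine hf.congr fun τ => ?_
      show _ = (f : ℍ → ℂ) τ * (qinv (h : ℝ) τ) ^ n
      rw [qinv_eq, zpow_neg, zpow_natCast, inv_pow]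
      rfl
    obtain ⟨h1, h2⟩ := order_of_tendsto _ ha hG
    rw [map_mul, map_pow, laurent_Uq, HahnSeries.single_pow] at h1 h2
    have hf0 : laurent h f ≠ 0 := left_ne_zero_of_mul h1
    rw [HahnSeries.order_mul hf0 (right_ne_zero_of_mul h1), HahnSeries.order_single (by simp)] at h2
    simp only [nsmul_eq_mul] at h2
    linarith
  · -- `k = -n`
    have hG : Tendsto ((f * Tq h ^ n : HolCusp h) : ℍ → ℂ) atImInfty (𝓝 a) := by
      refine hf.congr fun τ => ?_
      show _ = (f : ℍ → ℂ) τ * (qq (h : ℝ) τ) ^ n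
      rw [neg_neg, zpow_natCast]
      rfl
    obtain ⟨h1, h2⟩ := order_of_tendsto _ ha hG
    rw [map_mul, map_pow, laurent_Tq, HahnSeries.single_pow] at h1 h2
    have hf0 : laurent h f ≠ 0 := left_ne_zero_of_mul h1
    rw [HahnSeries.order_mul hf0 (right_ne_zero_of_mul h1), HahnSeries.order_single (by simp)] at h2
    simp only [nsmul_eq_mul] at h2
    linarith

omit [NeZero h] in
theorem Laurent.translate_mul_eq (f : ℍ → ℂ) (m : ℕ) :
    (fun τ : ℍ => f ((1 : ℝ) +ᵥ τ)) * qq (h : ℝ) ^ m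
      = (Complex.exp (2 * Real.pi * Complex.I / (h : ℝ)) ^ m)⁻¹ •
        (fun τ : ℍ => (f * qq (h : ℝ) ^ m) ((1 : ℝ) +ᵥ τ)) := by
  funext τ
  simp only [Pi.mul_apply, Pi.pow_apply, Pi.smul_apply, smul_eq_mul, qq_one_vadd, mul_pow]
  have : Complex.exp (2 * Real.pi * Complex.I / (h : ℝ)) ^ m ≠ 0 :=
    pow_ne_zero _ (Complex.exp_ne_zero _)
  field_simp

theorem translate_mem (f : HolCusp h) : (fun τ : ℍ => (f : ℍ → ℂ) ((1 : ℝ) +ᵥ τ)) ∈ HolCusp h := by
  obtain ⟨m, hm⟩ := exists_NB f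
  refine ⟨mdiff_translate f.2.1 1, periodic_of_vadd fun τ => ?_, m, ?_⟩
  · rw [vadd_comm]
    exact vadd_of_periodic f.2.2.1 _
  · have h1 := translate_mul_eq h (f : ℍ → ℂ) m
    have h2 : IsBoundedAtImInfty ((Complex.exp (2 * Real.pi * Complex.I / (h : ℝ)) ^ m)⁻¹ •
        (fun τ : ℍ => ((f : ℍ → ℂ) * qq (h : ℝ) ^ m) ((1 : ℝ) +ᵥ τ))) :=
      hm.translate.bdd.const_smul_left _
    rw [← h1] at h2
    exact h2

theorem laurent_translate (f : HolCusp h) (k : ℤ) :
    (laurent h ⟨_, translate_mem h f⟩).coeff k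
      = Complex.exp (2 * Real.pi * Complex.I / h) ^ k * (laurent h f).coeff k := by
  obtain ⟨m, hm⟩ := exists_NB f
  have h1 := translate_mul_eq h (f : ℍ → ℂ) m
  have hm' : NB (h : ℝ) (((⟨_, translate_mem h f⟩ : HolCusp h) : ℍ → ℂ) * qq (h : ℝ) ^ m) := by
    show NB (h : ℝ) ((fun τ : ℍ => (f : ℍ → ℂ) ((1 : ℝ) +ᵥ τ)) * qq (h : ℝ) ^ m)
    rw [h1]
    exact (NB.const _).mul hm.translate
  rw [laurent_eq h _ hm', laurent_eq h f hm]
  unfold Lm
  rw [HahnSeries.coeff_single_mul, HahnSeries.coeff_single_mul, PowerSeries.coeff_coe,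
    PowerSeries.coeff_coe]
  by_cases hk : k - -(m : ℤ) < 0
  · rw [if_pos hk, if_pos hk]
    simp
  · rw [if_neg hk, if_neg hk]
    show 1 * (qExpansion (h : ℝ) ((fun τ : ℍ => (f : ℍ → ℂ) ((1 : ℝ) +ᵥ τ)) * qq (h : ℝ) ^ m)).coeff _
      = _
    rw [h1, qExpansion_smul (hm.translate.analytic (hpos h))]
    simp only [one_mul, map_smul, smul_eq_mul]
    rw [qExpansion_translate (hpos h) hm, ← mul_assoc]
    congr 1
    have hz : Complex.exp (2 * Real.pi * Complex.I / (h : ℝ)) ≠ 0 := Complex.exp_ne_zero _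
    have hk' : ((k - -(m : ℤ)).natAbs : ℤ) = k + m := by
      rw [Int.natAbs_of_nonneg (not_lt.mp hk)]
      ring
    rw [← zpow_natCast, ← zpow_natCast, ← zpow_neg, ← zpow_add₀ hz, hk']
    push_cast
    congr 1
    ring

end

end Fermat.Agent.S24
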